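import Fermat.Agent.GAL.Igusa.PoleSpace

/-!
# GAL-IGUSA leaf P4: `L(m (x)_∞)` in terms of integrality over `k[x]` and `k[1/x]`
-/

set_option autoImplicit false

namespace Fermat.Agent.GAL.Igusa

open Module IntermediateField AlgebraicCurve Lib.RR

variable {k F : Type*} [Field k] [Field F] [Algebra k F]

theorem PoleSpaceIff_ord_mul_inv_pow (v : Place k F) {x y : F} (hx : x ≠ 0) (hy : y ≠ 0) (m : ℕ) :
    v.ord (y * x⁻¹ ^ m) = v.ord y - m * v.ord x := by
  rw [v.ord_mul hy (pow_ne_zero _ (inv_ne_zero hx)), ← zpow_natCast, v.ord_zpow, v.ord_inv]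
  ring

theorem PoleSpaceIff_smul_apply [HasPrincipalDivisors k F] (x : F) (m : ℕ) (v : Place k F) :
    (m • poleDiv (K := k) x) v = m * max 0 (-v.ord x) := by
  simp

/-- **Leaf P4.** `y ∈ L(m (x)_∞)` iff `y` is integral over `k[x]` and `y / x^m` is integral over
`k[1/x]`.
PROOF. (→) at a place with `x` regular, `(x)_∞` has coefficient `0`, so `y` is regular: P2. At a place
with `1/x` regular, i.e. `ord x ≤ 0`: `ord (y x^-m) = ord y - m ord x ≥ - m max(0, - ord x) - m ord x = 0`:
P2 for `x⁻¹` (`S24.adjoin_inv_eq`, `GAL.FF.isSeparable_adjoin_inv`, `finiteDimensional_adjoin_inv`,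
`S24.transcendental_inv`).
(←) P1 at every place `v`: either `x ∈ v` (then `ord y ≥ 0`), or `ord x < 0`, `x⁻¹ ∈ v`,
`ord y ≥ m ord x`. Use `Lib.RR.mem_L_iff`, `S24.mem_iff_ord_nonneg`. -/
theorem mem_L_poleDiv_iff [IsAlgClosed k] [HasPrincipalDivisors k F] (x : F)
    (hx : Transcendental k x) [FiniteDimensional k⟮x⟯ F] [Algebra.IsSeparable k⟮x⟯ F] (m : ℕ) (y : F) :
    y ∈ riemannRochSpace (m • poleDiv (K := k) x) ↔
      IsIntegral (Algebra.adjoin k {x}) y ∧ IsIntegral (Algebra.adjoin k {x⁻¹}) (y * x⁻¹ ^ m) := by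
  have hx0 : x ≠ 0 := by
    rintro rfl
    exact hx isAlgebraic_zero
  have hm : (0 : ℤ) ≤ m := Int.natCast_nonneg m
  rw [mem_riemannRochSpace_iff]
  simp_rw [PoleSpaceIff_smul_apply]
  constructor
  · intro h
    constructor
    · refine isIntegral_of_forall_mem_place x hx y fun v hxv => ?_
      rcases h v with rfl | h1
      · exact zero_mem _
      · by_cases hy0 : y = 0
        · rw [hy0]; exact zero_mem _
        · have h2 := S24.ord_nonneg_of_mem v hxv
          rw [max_eq_left (by omega), mul_zero, neg_zero] at h1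
          exact S24.mem_of_ord_nonneg v hy0 h1
    · have : FiniteDimensional k⟮x⁻¹⟯ F := GAL.FF.finiteDimensional_adjoin_inv x
      have : Algebra.IsSeparable k⟮x⁻¹⟯ F := GAL.FF.isSeparable_adjoin_inv x
      refine isIntegral_of_forall_mem_place x⁻¹ (S24.transcendental_inv hx) _ fun v hxv => ?_
      by_cases hy0 : y = 0
      · rw [hy0, zero_mul]; exact zero_mem _
      · have h1 := (h v).resolve_left hy0
        have h2 := S24.ord_nonneg_of_mem v hxv
        rw [v.ord_inv] at h2
        rw [max_eq_right (by omega)] at h1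
        refine S24.mem_of_ord_nonneg v (mul_ne_zero hy0 (pow_ne_zero _ (inv_ne_zero hx0))) ?_
        rw [PoleSpaceIff_ord_mul_inv_pow v hx0 hy0]
        linarith
  · rintro ⟨h1, h2⟩ v
    by_cases hy0 : y = 0
    · exact Or.inl hy0
    · right
      have h3 : (0 : ℤ) ≤ m * max 0 (-v.ord x) := mul_nonneg hm (le_max_left _ _)
      rcases v.toValuationSubring.mem_or_inv_mem x with hxv | hxv
      · have h4 := S24.ord_nonneg_of_mem v (mem_place_of_isIntegral v hxv h1)
        linarith
      · have h4 := S24.ord_nonneg_of_mem v (mem_place_of_isIntegral v hxv h2)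
        rw [PoleSpaceIff_ord_mul_inv_pow v hx0 hy0] at h4
        have h5 : (m : ℤ) * (-v.ord x) ≤ m * max 0 (-v.ord x) :=
          mul_le_mul_of_nonneg_left (le_max_right _ _) hm
        linarith

end Fermat.Agent.GAL.Igusa
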