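import Fermat.Agent.GAL.Igusa.LevelDeg
import Fermat.Agent.GAL.FF.RH.Kaehler
import Fermat.Agent.S24

/-!
# GAL-IGUSA leaf C0: `genusFF Kbar (E Kbar M) = genusFormula M`
-/

set_option autoImplicit false

noncomputable section

namespace Fermat.Agent.GAL.Igusa

open Module IntermediateField AlgebraicCurve Lib.RR ModularCurve

section Canonical

open KaehlerDifferential

variable {k F : Type*} [Field k] [IsAlgClosed k] [CharZero k] [Field F] [Algebra k F]

/-- In characteristic zero every nonzero Kähler differential of a function field has a divisor. -/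
theorem Char0_hasCanonicalDivisor (x : F) (hx : Transcendental k x) [FiniteDimensional k⟮x⟯ F] :
    HasCanonicalDivisor (K := k) (F := F) := by
  classical
  have hcz : CharZero k⟮x⟯ := charZero_of_injective_algebraMap (algebraMap k k⟮x⟯).injective
  have hsep : Algebra.IsSeparable k⟮x⟯ F := inferInstance
  have hFF1 := FF.isFF_adjoin x hx
  have hFF2 := FF.isFF_of_separable x hx
  have hx0 : x ≠ 0 := by
    rintro rfl
    exact hx isAlgebraic_zero
  have hfin : {v : Place k F | v.ordDifferential (D k F x) ≠ 0}.Finite := by
    have h1 : {w : Place k F | w.ramificationIndex k⟮x⟯ ≠ 1}.Finite :=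
      FF.finite_ramified (k := k) (F := k⟮x⟯) (F' := F)
    have h2 : {w : Place k F | w.ord x ≠ 0}.Finite := by
      apply Set.Finite.subset (divOf (K := k) x).support.finite_toSet
      intro w hw
      simpa using hw
    apply (h1.union h2).subset
    intro v hv
    by_cases h : v.ord x < 0
    · right
      show v.ord x ≠ 0
      omega
    · left
      obtain ⟨c, hc⟩ := Fermat.Agent.S24.exists_const_of_mem x hx v x
        (Fermat.Agent.S24.mem_of_ord_nonneg v hx0 (by omega))
      rcases hc with hc | hc
      · exact absurd (hc ▸ isAlgebraic_algebraMap (A := F) c) hx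
      · have h3 := Fermat.Agent.S24.Differential.hfin x hx v c hc
        have h4 := FF.ramificationIndex_adjoin_of_pos x hx v c hc
        show v.ramificationIndex k⟮x⟯ ≠ 1
        intro h5
        apply hv
        rw [h3, ← h4, h5]
        simp
  refine ⟨fun ω hω => ?_⟩
  obtain ⟨g, rfl⟩ := Fermat.Agent.S24.Differential.hgen x hx ω
  have hg : g ≠ 0 := by
    rintro rfl
    exact hω (zero_smul _ _)
  let E : Divisor k F := Finsupp.onFinset hfin.toFinset
    (fun v => v.ordDifferential (D k F x)) (by
      intro v hv
      rw [Set.Finite.mem_toFinset]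
      exact hv)
  refine ⟨divOf g + E, fun v => ?_⟩
  rw [Finsupp.add_apply, divOf_apply, Fermat.Agent.S24.Differential.hsmul x hx v g hg]
  rfl

end Canonical

/-- **Leaf C0.**
PROOF. `FF.genus_eq_genusFF` (char 0: Prelude `AlgebraicCurve.genus = genusFF`, file `GAL/FF/RH/Kaehler.lean`) for
`F = FN M`, `x = S24.jF M` (`S24.transcendental_jF`, `S24.finiteDimensional_jF`); an instance
`HasCanonicalDivisor` for `FN M` is needed: see how `GAL/FF/RH/Kaehler.lean` / S24 (`S24/Differential.lean`) provide it
(every non-zero differential is `g • D x` and `D x` has a divisor); then `Fermat.Agent.S24.result M`.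
Finally rewrite along `modularFunctionFieldBar_eq M`. -/
theorem genusFF_char_zero (M : ℕ) [NeZero M] :
    (genusFF (AlgebraicClosure ℚ) (E (AlgebraicClosure ℚ) M) : ℚ) = genusFormula M := by
  have := Fermat.Agent.S24.finiteDimensional_jF M
  have hcan : HasCanonicalDivisor (K := AlgebraicClosure ℚ) (F := ↥(modularFunctionFieldBar M)) :=
    Char0_hasCanonicalDivisor (Fermat.Agent.S24.jF M) (Fermat.Agent.S24.transcendental_jF M)
  have h1 := Fermat.Agent.S24.result M
  have h2 := FF.genus_eq_genusFF (k := AlgebraicClosure ℚ) (F := ↥(modularFunctionFieldBar M))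
    (Fermat.Agent.S24.jF M) (Fermat.Agent.S24.transcendental_jF M)
  rw [h2] at h1
  unfold E
  rw [← modularFunctionFieldBar_eq M]
  exact h1

end Fermat.Agent.GAL.Igusa
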