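import Mathlib
import Fermat.Prelude.Def_ModularCurve_GenusNumerics

/-!
# GAL-IGUSA leaf N: numerics for neat levels
-/

set_option autoImplicit false

namespace Fermat.Agent.GAL.Igusa

open ModularCurve

/-- transport of a polynomial equation along `ZMod M → ZMod d`, `d ∣ M`. -/
theorem numerics_isEmpty {M d : ℕ} (hd : d ∣ M) (P : ∀ n : ℕ, ZMod n → Prop)
    (hP : ∀ x : ZMod M, P M x → P d (ZMod.castHom hd (ZMod d) x)) (hd0 : ∀ y : ZMod d, ¬ P d y) :
    Nat.card {x : ZMod M // P M x} = 0 := by
  have : IsEmpty {x : ZMod M // P M x} := ⟨fun x => hd0 _ (hP x.1 x.2)⟩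
  exact Nat.card_of_isEmpty

/-- `x² + 1 = 0` has no solution mod `M` if `4 ∣ M` or `9 ∣ M` (reduce mod `4`, resp. mod `3`: `decide`;
`ZMod.castHom`). -/
theorem nuTwo_eq_zero {M : ℕ} (h : 4 ∣ M ∨ 9 ∣ M) : nuTwo M = 0 := by
  unfold nuTwo
  rcases h with h | h
  · refine numerics_isEmpty h (fun n x => x ^ 2 + 1 = 0) (fun x hx => ?_) (by decide)
    have := congrArg (ZMod.castHom h (ZMod 4)) hx
    rwa [map_add, map_pow, map_one, map_zero] at this
  · have h3 : 3 ∣ M := Dvd.dvd.trans (by norm_num) h
    refine numerics_isEmpty h3 (fun n x => x ^ 2 + 1 = 0) (fun x hx => ?_) (by decide)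
    have := congrArg (ZMod.castHom h3 (ZMod 3)) hx
    rwa [map_add, map_pow, map_one, map_zero] at this

/-- `x² + x + 1 = 0` has no solution mod `M` if `4 ∣ M` or `9 ∣ M` (reduce mod `2`, resp. mod `9`). -/
theorem nuThree_eq_zero {M : ℕ} (h : 4 ∣ M ∨ 9 ∣ M) : nuThree M = 0 := by
  unfold nuThree
  rcases h with h | h
  · have h2 : 2 ∣ M := Dvd.dvd.trans (by norm_num) h
    refine numerics_isEmpty h2 (fun n x => x ^ 2 + x + 1 = 0) (fun x hx => ?_) (by decide)
    have := congrArg (ZMod.castHom h2 (ZMod 2)) hx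
    rwa [map_add, map_add, map_pow, map_one, map_zero] at this
  · refine numerics_isEmpty h (fun n x => x ^ 2 + x + 1 = 0) (fun x hx => ?_) (by decide)
    have := congrArg (ZMod.castHom h (ZMod 9)) hx
    rwa [map_add, map_add, map_pow, map_one, map_zero] at this

theorem dedekindPsi_four : dedekindPsi 4 = 6 := by
  have h : (Nat.divisors 4).filter Squarefree = {1, 2} := by
    have hd : Nat.divisors 4 = {1, 2, 4} := by decide
    rw [hd]
    have h4 : ¬ Squarefree 4 := by
      intro hs
      have := hs 2 (by norm_num)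
      simp at this
    have h2 : Squarefree 2 := Nat.prime_two.squarefree
    ext x
    simp only [Finset.mem_filter, Finset.mem_insert, Finset.mem_singleton]
    constructor
    · rintro ⟨rfl | rfl | rfl, hx⟩
      · simp
      · simp
      · exact absurd hx h4
    · rintro (rfl | rfl)
      · exact ⟨by simp, squarefree_one⟩
      · exact ⟨by simp, h2⟩
  rw [dedekindPsi, h]
  simp

theorem dedekindPsi_nine : dedekindPsi 9 = 12 := by
  have h : (Nat.divisors 9).filter Squarefree = {1, 3} := by
    have hd : Nat.divisors 9 = {1, 3, 9} := by decide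
    rw [hd]
    have h9 : ¬ Squarefree 9 := by
      intro hs
      have := hs 3 (by norm_num)
      simp at this
    have h3 : Squarefree 3 := Nat.prime_three.squarefree
    ext x
    simp only [Finset.mem_filter, Finset.mem_insert, Finset.mem_singleton]
    constructor
    · rintro ⟨rfl | rfl | rfl, hx⟩
      · simp
      · simp
      · exact absurd hx h9
    · rintro (rfl | rfl)
      · exact ⟨by simp, squarefree_one⟩
      · exact ⟨by simp, h3⟩
  rw [dedekindPsi, h]
  simp

theorem genusFormula_of_neat {M : ℕ} (h : 4 ∣ M ∨ 9 ∣ M) :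
    genusFormula M = 1 + (dedekindPsi M : ℚ) / 12 - (cuspCount M : ℚ) / 2 := by
  rw [genusFormula, nuTwo_eq_zero h, nuThree_eq_zero h]; simp

end Fermat.Agent.GAL.Igusa
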