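import Fermat.Agent.GAL.Igusa.LevelDeg

/-!
# GAL-IGUSA leaf R: the reduction datum of `E K M` attached to a valuation subring `A` of `K`
(repackaging of `GAL/Gauss/Main.lean`: `OFK`, `resOFK`, `resOFK_surjective`, `normalise`).
-/

set_option autoImplicit false

noncomputable section

namespace Fermat.Agent.GAL.Igusa

open Module IntermediateField AlgebraicCurve Lib.RR ModularCurve

variable {K : Type} [Field K] (A : ValuationSubring K) (M : ℕ) [NeZero M]

/-- **Leaf R1.** The residue field of a valuation subring of an algebraically closed field is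
algebraically closed.
PROOF. `IsAlgClosed.of_exists_root`: a monic irreducible `p` over the residue field lifts to a monic `P` over
`A` (`Polynomial.lifts_and_degree_eq_and_monic` / `Polynomial.map_surjective` + care for monic); `P` has a root `a`
in `K`; `a` is integral over `A`, hence `a ∈ A` (valuation rings are integrally closed:
`ValuationSubring` → `IsIntegrallyClosed`, `IsIntegrallyClosed.algebraMap_eq_of_integral`); reduce. -/
theorem isAlgClosed_residueField [IsAlgClosed K] : IsAlgClosed (IsLocalRing.ResidueField ↥A) := by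
  apply IsAlgClosed.of_exists_root
  intro p hp hirr
  have hlift : p ∈ Polynomial.lifts (IsLocalRing.residue ↥A) := by
    rw [Polynomial.mem_lifts]
    exact Polynomial.map_surjective _ IsLocalRing.residue_surjective p
  obtain ⟨P, hPp, hdeg, hP⟩ := Polynomial.lifts_and_degree_eq_and_monic hlift hp
  have hdeg0 : (P.map (algebraMap ↥A K)).degree ≠ 0 := by
    rw [hP.degree_map, hdeg]
    exact Polynomial.degree_pos_of_irreducible hirr |>.ne'
  obtain ⟨a, ha⟩ := IsAlgClosed.exists_root _ hdeg0
  have hint : IsIntegral ↥A a := ⟨P, hP, by rwa [Polynomial.IsRoot.def, Polynomial.eval_map] at ha⟩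
  obtain ⟨y, rfl⟩ := IsIntegrallyClosed.algebraMap_eq_of_integral hint
  have hy : P.eval y = 0 := by
    rw [Polynomial.IsRoot.def, Polynomial.eval_map, Polynomial.eval₂_at_apply] at ha
    exact (FaithfulSMul.algebraMap_injective ↥A K) (by rw [ha, map_zero])
  refine ⟨IsLocalRing.residue ↥A y, ?_⟩
  rw [← hPp, Polynomial.eval_map, Polynomial.eval₂_at_apply, hy, map_zero]

theorem redLevel_coe_algebraMap (K₀ : Type) [Field K₀] (a : K₀) :
    ((algebraMap K₀ (E K₀ M) a : E K₀ M) : LaurentSeries K₀) = HahnSeries.C a := by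
  rw [← Gauss.algebraMap_eq_C]
  rfl

/-- **Leaf R2.** The reduction datum, with `res j = j`.
PROOF. `A := A`, `O := Gauss.OFK A M hM`, `resK := IsLocalRing.residue A`, `res := Gauss.resOFK A M hM`,
`res_surj := Gauss.resOFK_surjective`, `map_mem`/`res_algebraMap`: constants (`Gauss.C_mem_gRing_iff`,
`gRes` of a constant: see `GAL/Gauss/Ring.lean`), `scale`: `Gauss.normalise` gives `x = C a * u`, take `c = a⁻¹`.
`jb`: `jqModC K = iA A (jqModC A)` and `gRes_iA`, `pA A (jqModC A) = jqModC k` (`coeffMap_jqModC`). -/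
theorem exists_redDatum (hM : ((M : ℕ) : IsLocalRing.ResidueField ↥A) ≠ 0) :
    ∃ D : RedDatum K (E K M) (IsLocalRing.ResidueField ↥A) (E (IsLocalRing.ResidueField ↥A) M),
      D.A = A ∧ ∃ hj : jb K M ∈ D.O, D.res ⟨jb K M, hj⟩ = jb (IsLocalRing.ResidueField ↥A) M := by
  have hmap : ∀ a : ↥A, algebraMap K (E K M) (a : K) ∈ Gauss.OFK A M hM := by
    intro a
    rw [Gauss.mem_OFK_iff, redLevel_coe_algebraMap, Gauss.C_mem_gRing_iff]
    exact a.2
  refine ⟨{ A := A
            O := Gauss.OFK A M hM
            resK := IsLocalRing.residue ↥A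
            resK_surj := IsLocalRing.residue_surjective
            res := Gauss.resOFK A M hM
            res_surj := Gauss.resOFK_surjective A M hM
            map_mem := hmap
            res_algebraMap := ?_
            scale := ?_ }, rfl, ?_, ?_⟩
  · intro a
    apply Subtype.ext
    rw [Gauss.coe_resOFK, redLevel_coe_algebraMap M (IsLocalRing.ResidueField ↥A)]
    have hC : HahnSeries.C (a : K) ∈ Gauss.gRing A := (Gauss.C_mem_gRing_iff A _).2 a.2
    rw [← Gauss.gRes_C A a hC]
    congr 1
    exact Subtype.ext (redLevel_coe_algebraMap M K (a : K))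
  · intro f hf
    have hf' : (f : LaurentSeries K) ≠ 0 := fun h => hf (Subtype.ext h)
    obtain ⟨a, u, ha, huF, hfu, hu⟩ := Gauss.normalise A M hM f f.2 hf'
    have hCa : (HahnSeries.C a : LaurentSeries K) ≠ 0 := by
      rw [Ne, map_eq_zero]; exact ha
    have hcoe : ((algebraMap K (E K M) a⁻¹ * f : E K M) : LaurentSeries K)
        = (u : LaurentSeries K) := by
      rw [MulMemClass.coe_mul, redLevel_coe_algebraMap, hfu, map_inv₀, ← mul_assoc,
        inv_mul_cancel₀ hCa, one_mul]
    have hmem : algebraMap K (E K M) a⁻¹ * f ∈ Gauss.OFK A M hM := by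
      rw [Gauss.mem_OFK_iff, hcoe]
      exact u.2
    refine ⟨a⁻¹, inv_ne_zero ha, hmem, ?_⟩
    intro h0
    apply hu
    have h1 := congrArg Subtype.val h0
    rw [Gauss.coe_resOFK] at h1
    have h2 : (⟨((algebraMap K (E K M) a⁻¹ * f : E K M) : LaurentSeries K), hmem⟩ :
        ↥(Gauss.gRing A)) = u := Subtype.ext hcoe
    rw [← h2]
    exact h1
  · show jb K M ∈ Gauss.OFK A M hM
    rw [Gauss.mem_OFK_iff]
    show jqModC K ∈ Gauss.gRing A
    rw [← Gauss.iA_jqModC A]
    exact Gauss.iA_mem_gRing A _
  · apply Subtype.ext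
    show ((Gauss.resOFK A M hM _ : E (IsLocalRing.ResidueField ↥A) M) :
      LaurentSeries (IsLocalRing.ResidueField ↥A)) = jqModC (IsLocalRing.ResidueField ↥A)
    rw [Gauss.coe_resOFK, Gauss.gRes_of_eq_iA A _ (jqModC ↥A) (Gauss.iA_jqModC A).symm,
      Gauss.pA_jqModC]

end Fermat.Agent.GAL.Igusa
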