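import Fermat.Agent.GAL.Igusa.LevelDeg
import Fermat.Agent.GAL.FF.RH.Ineq

/-!
# GAL-IGUSA block T: the tower `E k N ⊆ E k M` for `N ∣ M`, and the Riemann-Hurwitz lower bound
-/

set_option autoImplicit false

noncomputable section

namespace Fermat.Agent.GAL.Igusa

open Module IntermediateField AlgebraicCurve Lib.RR ModularCurve

section Abstract

variable {k F F' : Type*} [Field k] [IsAlgClosed k] [Field F] [Field F'] [Algebra k F]
  [Algebra k F'] [Algebra F F'] [IsScalarTower k F F'] [FiniteDimensional F F']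
  [Algebra.IsSeparable F F'] [IsFF k F] [IsFF k F']

/-- **Leaf T1 (abstract Riemann-Hurwitz bound with only the poles of `x`).**
If `F` has at least `c` poles of `x` and `F'` has at most `c'` poles of `x`, then
`2 g' - 2 ≥ -2 n + n c - c'`, `n = [F' : F]`.
PROOF. `S := Z.biUnion (fun v => v.fiber F')`; the fibres are disjoint (`Place.mem_fiber`), every `w ∈ S` is a
pole of `x` (`Place.ord_restrict`: `w.ord (algebraMap x) = e_w * (w.restrict F).ord x`), so `S.card ≤ c'`.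
`∑_{w ∈ S} (e_w - 1) = ∑_{v ∈ Z} ∑_{w | v} e_w - S.card = n * Z.card - S.card`
(`FF.sum_ramificationIndex`). `FF.riemann_hurwitz_le S` and `genusFF k F ≥ 0`. -/
theorem rh_pole_bound (x : F) (Z : Finset (Place k F)) (hZ : ∀ v ∈ Z, v.ord x < 0) (c' : ℕ)
    (hc' : ∀ S : Finset (Place k F'), (∀ w ∈ S, w.ord (algebraMap F F' x) < 0) → S.card ≤ c') :
    (finrank F F' : ℤ) * ((Z.card : ℤ) - 2) - c' ≤ 2 * (genusFF k F' : ℤ) - 2 := by
  classical
  set S : Finset (Place k F') := Z.biUnion (fun v => v.fiber F') with hS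
  have hdisj : (Z : Set (Place k F)).PairwiseDisjoint (fun v => v.fiber F') := by
    intro v _ v' _ hvv'
    rw [Function.onFun, Finset.disjoint_left]
    intro w h1 h2
    rw [Place.mem_fiber] at h1 h2
    exact hvv' (h1.symm.trans h2)
  have hpole : ∀ w ∈ S, w.ord (algebraMap F F' x) < 0 := by
    intro w hw
    rw [hS, Finset.mem_biUnion] at hw
    obtain ⟨v, hv, hwv⟩ := hw
    rw [Place.mem_fiber] at hwv
    rw [w.ord_restrict x, hwv]
    have he : (0 : ℤ) < (w.ramificationIndex F : ℤ) := by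
      exact_mod_cast w.ramificationIndex_pos (F := F)
    exact mul_neg_of_pos_of_neg he (hZ v hv)
  have hcard : (S.card : ℤ) ≤ c' := by exact_mod_cast hc' S hpole
  have hsum : ∑ w ∈ S, ((w.ramificationIndex F : ℤ) - 1)
      = (finrank F F' : ℤ) * Z.card - S.card := by
    rw [Finset.sum_sub_distrib, hS, Finset.sum_biUnion hdisj]
    rw [Finset.sum_congr rfl (fun v _ => FF.sum_ramificationIndex (F' := F') v)]
    simp [mul_comm]
  have hRH := FF.riemann_hurwitz_le (k := k) (F := F) (F' := F') S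
  rw [hsum] at hRH
  have hg : (0 : ℤ) ≤ (finrank F F' : ℤ) * (2 * (genusFF k F : ℤ)) := by positivity
  nlinarith

end Abstract

section TowerAbs

variable {k L : Type*} [Field k] [Field L] [Algebra k L]

/-- Abstract form of `tower_spec`: two intermediate fields `K₁ ≤ K₂` and `x ∈ K₁`. -/
theorem tower_abstract (K₁ K₂ : IntermediateField k L) (h : K₁ ≤ K₂) (x₁ : K₁) (x₂ : K₂)
    (hx : (x₁ : L) = x₂)
    [FiniteDimensional k⟮x₂⟯ K₂] [Algebra.IsSeparable k⟮x₂⟯ K₂] :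
    letI : Algebra K₁ K₂ := (IntermediateField.inclusion h).toRingHom.toAlgebra
    IsScalarTower k K₁ K₂ ∧ algebraMap K₁ K₂ x₁ = x₂ ∧ FiniteDimensional K₁ K₂ ∧
      Algebra.IsSeparable K₁ K₂ ∧
      finrank k⟮x₁⟯ K₁ * finrank K₁ K₂ = finrank k⟮x₂⟯ K₂ := by
  letI : Algebra K₁ K₂ := (IntermediateField.inclusion h).toRingHom.toAlgebra
  let φ : K₁ →ₐ[k] K₂ := IntermediateField.inclusion h
  have hj : φ x₁ = x₂ := Subtype.ext hx
  have hst : IsScalarTower k K₁ K₂ := IsScalarTower.of_algebraMap_eq fun a => rfl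
  have hmap : (k⟮x₁⟯).map φ = k⟮x₂⟯ := by
    rw [IntermediateField.adjoin_map, Set.image_singleton, hj]
  let e1 : k⟮x₁⟯ ≃ₐ[k] k⟮x₂⟯ :=
    (IntermediateField.equivMap k⟮x₁⟯ φ).trans (IntermediateField.equivOfEq hmap)
  have he : (algebraMap k⟮x₂⟯ K₂).comp (e1 : k⟮x₁⟯ ≃+* k⟮x₂⟯) =
      ((RingEquiv.refl K₂ : K₂ ≃+* K₂) : K₂ →+* K₂).comp (algebraMap k⟮x₁⟯ K₂) := by
    ext a
    rfl
  have he' : (algebraMap k⟮x₁⟯ K₂).comp
      ((e1 : k⟮x₁⟯ ≃+* k⟮x₂⟯).symm : k⟮x₂⟯ →+* k⟮x₁⟯) =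
      ((RingEquiv.refl K₂ : K₂ ≃+* K₂) : K₂ →+* K₂).comp (algebraMap k⟮x₂⟯ K₂) := by
    ext a
    obtain ⟨b, rfl⟩ := (e1 : k⟮x₁⟯ ≃+* k⟮x₂⟯).surjective a
    simp only [RingHom.comp_apply, RingHom.coe_coe, RingEquiv.symm_apply_apply]
    rfl
  have hfd0 : FiniteDimensional k⟮x₁⟯ K₂ :=
    Module.Finite.of_equiv_equiv (e1 : k⟮x₁⟯ ≃+* k⟮x₂⟯).symm (RingEquiv.refl K₂) he'
  have hsep0 : Algebra.IsSeparable k⟮x₁⟯ K₂ :=
    Algebra.IsSeparable.of_equiv_equiv (e1 : k⟮x₁⟯ ≃+* k⟮x₂⟯).symm (RingEquiv.refl K₂) he'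
  have hrank : finrank k⟮x₁⟯ K₂ = finrank k⟮x₂⟯ K₂ :=
    Algebra.finrank_eq_of_equiv_equiv (e1 : k⟮x₁⟯ ≃+* k⟮x₂⟯) (RingEquiv.refl K₂) he
  refine ⟨hst, hj, ?_, ?_, ?_⟩
  · exact Module.Finite.of_restrictScalars_finite k⟮x₁⟯ K₁ K₂
  · exact Algebra.isSeparable_tower_top_of_isSeparable k⟮x₁⟯ K₁ K₂
  · rw [← hrank]
    exact Module.finrank_mul_finrank k⟮x₁⟯ K₁ K₂

end TowerAbs

section Tower

variable (k : Type) [Field k] {N M : ℕ} [NeZero N] [NeZero M] (h : N ∣ M)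

/-- `E k N → E k M`. -/
def towerAlgebra : Algebra (E k N) (E k M) :=
  (IntermediateField.inclusion (full_degeneracyC_le k h)).toRingHom.toAlgebra

/-- **Leaf T2.** Properties of the tower: scalar tower over `k`, `j ↦ j`, degree, separability.
PROOF. `algebraMap` is the inclusion of subfields of `k((q))`. Scalar tower and `j ↦ j`: `rfl`/`Subtype.ext`.
Degree: tower law for `k⟮jb k N⟯ ⊆ E k N ⊆ E k M` against `k⟮jb k M⟯ ⊆ E k M` (the image of `k⟮jb k N⟯` in
`E k M` is `k⟮jb k M⟯`); `finrank_jb`. Easiest: make `E k M` an algebra over `k⟮jb k N⟯` by composition, show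
`finrank k⟮jb k N⟯ (E k M) = finrank k⟮jb k M⟯ (E k M)` with `Algebra.finrank_eq_of_equiv_equiv`, then
`Module.finrank_mul_finrank`. Separability: `Algebra.isSeparable_tower_top_of_isSeparable`. -/
theorem tower_spec (hM : ((M : ℕ) : k) ≠ 0) :
    letI := towerAlgebra k h
    IsScalarTower k (E k N) (E k M) ∧ algebraMap (E k N) (E k M) (jb k N) = jb k M ∧
      FiniteDimensional (E k N) (E k M) ∧ Algebra.IsSeparable (E k N) (E k M) ∧
      finrank (E k N) (E k M) * dedekindPsi N = dedekindPsi M := by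
  have hN : ((N : ℕ) : k) ≠ 0 := by
    obtain ⟨c, rfl⟩ := h
    intro h0
    apply hM
    rw [Nat.cast_mul, h0, zero_mul]
  have hfdM := finiteDimensional_jb k M hM
  have hsepM := isSeparable_jb k M hM
  obtain ⟨h1, h2, h3, h4, h5⟩ := tower_abstract (modularFunctionFieldFullC k N)
    (modularFunctionFieldFullC k M) (full_degeneracyC_le k h) (jb k N) (jb k M) rfl
  refine ⟨h1, h2, h3, h4, ?_⟩
  rw [finrank_jb k N hN, finrank_jb k M hM] at h5
  rw [mul_comm]
  exact h5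

end Tower

end Fermat.Agent.GAL.Igusa
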