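import Fermat.Agent.GAL.Igusa.Deuring
import Fermat.Agent.GAL.Igusa.Tower
import Fermat.Agent.GAL.Igusa.RedLevel
import Fermat.Agent.GAL.Igusa.Char0
import Fermat.Agent.GAL.Igusa.Numerics

/-!
# GAL-IGUSA: `genus (E k M) = genus (E Kbar M)` for neat `M` (interface I5 of the GAL blueprint)

Proof (helper85): Deuring's inequality `gbar ≤ g`; Riemann-Hurwitz inequality over `E k 4` (resp. `E k 9`)
keeping only the cusps gives `2 gbar - 2 ≥ ψ(M)/6 - c(M) = 2 g - 2`.
-/

set_option autoImplicit false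

noncomputable section

namespace Fermat.Agent.GAL.Igusa

open Module IntermediateField AlgebraicCurve Lib.RR ModularCurve

/-- Block E (helper19), upper bound: `E k M` has at most `cuspCount M` poles of `j`. -/
def CuspUpper : Prop :=
  ∀ (k : Type) [Field k] [IsAlgClosed k] (M : ℕ) [NeZero M], ((M : ℕ) : k) ≠ 0 →
    ∀ Z : Finset (Place k (E k M)), (∀ v ∈ Z, v.ord (jb k M) < 0) → Z.card ≤ cuspCount M

/-- Block E (helper19), lower bounds at the levels `4` and `9`. -/
def CuspLower : Prop :=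
  ∀ (k : Type) [Field k] [IsAlgClosed k],
    (((4 : ℕ) : k) ≠ 0 → ∃ Z : Finset (Place k (E k 4)), (∀ v ∈ Z, v.ord (jb k 4) < 0) ∧ 3 ≤ Z.card) ∧
    (((9 : ℕ) : k) ≠ 0 → ∃ Z : Finset (Place k (E k 9)), (∀ v ∈ Z, v.ord (jb k 9) < 0) ∧ 4 ≤ Z.card)

/-- lower bound for the genus in any characteristic prime to `M`. -/
theorem genus_lower (hU : CuspUpper) (hL : CuspLower) (k : Type) [Field k] [IsAlgClosed k]
    (M : ℕ) [NeZero M] (hM : ((M : ℕ) : k) ≠ 0) (hneat : 4 ∣ M ∨ 9 ∣ M) :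
    (dedekindPsi M : ℚ) / 6 - cuspCount M ≤ 2 * (genusFF k (E k M) : ℚ) - 2 := by
  have key : ∀ (N c : ℕ) [NeZero N], N ∣ M → (c - 2 : ℤ) * 6 = dedekindPsi N →
      (∃ Z : Finset (Place k (E k N)), (∀ v ∈ Z, v.ord (jb k N) < 0) ∧ c ≤ Z.card) →
      (dedekindPsi M : ℚ) / 6 - cuspCount M ≤ 2 * (genusFF k (E k M) : ℚ) - 2 := by
    intro N c _ hNM hc ⟨Z, hZ, hcZ⟩
    have hN : ((N : ℕ) : k) ≠ 0 := by
      obtain ⟨t, rfl⟩ := hNM
      intro h
      apply hM
      rw [Nat.cast_mul, h, zero_mul]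
    letI := towerAlgebra k hNM
    obtain ⟨h1, h2, h3, h4, h5⟩ := tower_spec k hNM hM
    haveI := isFF_E k N hN
    haveI := isFF_E k M hM
    have hb := rh_pole_bound (k := k) (F := E k N) (F' := E k M) (jb k N) Z hZ (cuspCount M)
      (fun S hS => hU k M hM S (fun w hw => by rw [← h2]; exact hS w hw))
    have hn : (0 : ℤ) ≤ (finrank (E k N) (E k M) : ℤ) := Int.natCast_nonneg _
    have hcZ' : (c : ℤ) ≤ Z.card := by exact_mod_cast hcZ
    have h5' : (finrank (E k N) (E k M) : ℤ) * dedekindPsi N = dedekindPsi M := by exact_mod_cast h5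
    have h6 : (finrank (E k N) (E k M) : ℤ) * ((c : ℤ) - 2) ≤
        (finrank (E k N) (E k M) : ℤ) * ((Z.card : ℤ) - 2) :=
      mul_le_mul_of_nonneg_left (by omega) hn
    have h7 : (dedekindPsi M : ℤ) = 6 * ((finrank (E k N) (E k M) : ℤ) * ((c : ℤ) - 2)) := by
      rw [← h5', ← hc]; ring
    have h8 : (dedekindPsi M : ℤ) - 6 * cuspCount M ≤ 6 * (2 * (genusFF k (E k M) : ℤ) - 2) := by
      omega
    have h9 : ((dedekindPsi M : ℤ) - 6 * cuspCount M : ℚ) ≤ 6 * (2 * (genusFF k (E k M) : ℤ) - 2) := by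
      exact_mod_cast h8
    push_cast at h9
    linarith
  rcases hneat with h | h
  · refine key 4 3 h (by rw [dedekindPsi_four]; norm_num) ((hL k).1 ?_)
    obtain ⟨t, rfl⟩ := h
    intro h0
    apply hM
    rw [Nat.cast_mul, h0, zero_mul]
  · refine key 9 4 h (by rw [dedekindPsi_nine]; norm_num) ((hL k).2 ?_)
    obtain ⟨t, rfl⟩ := h
    intro h0
    apply hM
    rw [Nat.cast_mul, h0, zero_mul]

/-- **Interface I5.** Good reduction of neat levels, in terms of the Riemann genus. -/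
theorem genusFF_eq (hU : CuspUpper) (hL : CuspLower) (A : ValuationSubring (AlgebraicClosure ℚ))
    (M : ℕ) [NeZero M] (hM : ((M : ℕ) : IsLocalRing.ResidueField ↥A) ≠ 0) (hneat : 4 ∣ M ∨ 9 ∣ M) :
    genusFF (IsLocalRing.ResidueField ↥A) (E (IsLocalRing.ResidueField ↥A) M) =
      genusFF (AlgebraicClosure ℚ) (E (AlgebraicClosure ℚ) M) := by
  haveI := isAlgClosed_residueField A
  have hMK : ((M : ℕ) : AlgebraicClosure ℚ) ≠ 0 := Nat.cast_ne_zero.mpr (NeZero.ne M)
  haveI := isFF_E (AlgebraicClosure ℚ) M hMK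
  haveI := isFF_E (IsLocalRing.ResidueField ↥A) M hM
  apply le_antisymm
  · obtain ⟨D, -, hj, hres⟩ := exists_redDatum A M hM
    haveI := finiteDimensional_jb (AlgebraicClosure ℚ) M hMK
    haveI := isSeparable_jb (AlgebraicClosure ℚ) M hMK
    haveI : FiniteDimensional
        (IsLocalRing.ResidueField ↥A)⟮D.res ⟨jb (AlgebraicClosure ℚ) M, hj⟩⟯
        (E (IsLocalRing.ResidueField ↥A) M) := by
      rw [hres]; exact finiteDimensional_jb _ M hM
    haveI : Algebra.IsSeparable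
        (IsLocalRing.ResidueField ↥A)⟮D.res ⟨jb (AlgebraicClosure ℚ) M, hj⟩⟯
        (E (IsLocalRing.ResidueField ↥A) M) := by
      rw [hres]; exact isSeparable_jb _ M hM
    refine genusFF_le D (jb (AlgebraicClosure ℚ) M) hj ?_ ?_
    · rw [hres]; exact transcendental_jb _ M
    · rw [hres, finrank_jb _ M hMK, finrank_jb _ M hM]
  · have h1 := genus_lower hU hL (IsLocalRing.ResidueField ↥A) M hM hneat
    have h2 := genusFF_char_zero M
    rw [genusFormula_of_neat hneat] at h2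
    have h3 : (genusFF (AlgebraicClosure ℚ) (E (AlgebraicClosure ℚ) M) : ℚ) ≤
        genusFF (IsLocalRing.ResidueField ↥A) (E (IsLocalRing.ResidueField ↥A) M) := by
      linarith
    exact_mod_cast h3

end Fermat.Agent.GAL.Igusa
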