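import Fermat.Agent.GAL.Igusa.Level
import Fermat.Agent.S24.EmbedFN
import Fermat.Agent.S24.Hermite

/-!
# GAL-IGUSA leaves L2, L3: `[E k M : k(j)] = ψ(M)`
-/

set_option autoImplicit false

noncomputable section

namespace Fermat.Agent.GAL.Igusa

open Module IntermediateField AlgebraicCurve Lib.RR ModularCurve

variable (k : Type) [Field k] (M : ℕ) [NeZero M]

theorem LevelDeg_coeffEmb_jq : coeffEmb (AlgebraicClosure ℚ) jq = jqModC (AlgebraicClosure ℚ) := by
  rw [← jqModC_rat, coeffEmb, coeffMap_jqModC]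

omit [NeZero M] in
theorem LevelDeg_gens_eq :
    S24.FNAdjoin.gens M = divisorExpansionsC (AlgebraicClosure ℚ) M := by
  ext s
  constructor
  · rintro ⟨d, hd, hdM, rfl⟩
    exact ⟨d, hd, hdM, by rw [S24.FNAdjoin.coeffEmb_qExpand, LevelDeg_coeffEmb_jq]⟩
  · rintro ⟨d, hd, hdM, rfl⟩
    exact ⟨d, hd, hdM, by rw [S24.FNAdjoin.coeffEmb_qExpand, LevelDeg_coeffEmb_jq]⟩

/-- **Leaf L3.** the field of the frozen statements is `E Kbar M`.
PROOF. `S24.FNAdjoin.modularFunctionFieldBar_eq_adjoin`, `gens`, and `coeffEmb Kbar jq = jqModC Kbar`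
(`coeffMap_jqModC`, `jqNModC_rat`-style lemmas of Prelude `Def_ModularCurve_X0ModL`). -/
theorem modularFunctionFieldBar_eq :
    modularFunctionFieldBar M = modularFunctionFieldFullC (AlgebraicClosure ℚ) M := by
  rw [S24.FNAdjoin.modularFunctionFieldBar_eq_adjoin, LevelDeg_gens_eq, modularFunctionFieldFullC]

theorem LevelDeg_finrank_congr {K L : Type*} [Field K] [Field L] [Algebra K L]
    {S S' : IntermediateField K L} (h : S = S') {x x' : L} (hxx : x = x') (hx : x ∈ S)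
    (hx' : x' ∈ S') :
    finrank K⟮(⟨x, hx⟩ : S)⟯ S = finrank K⟮(⟨x', hx'⟩ : S')⟯ S' := by
  subst h
  subst hxx
  rfl

/-- the degree in characteristic zero (S24). -/
theorem LevelDeg_finrank_jF :
    finrank (AlgebraicClosure ℚ)⟮S24.jF M⟯ (S24.FN M) = dedekindPsi M := by
  obtain ⟨fam0⟩ := S24.EmbedFN.f0 M (fun g h => S24.mem_Gamma0_of_kleinJ_mulH_smul_eq g h)
  rw [S24.finrank_jF_of_family M fam0, Lib.Count.card_quotient_Gamma0]

/-- **Leaf L2.** the degree is `ψ(M)`.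
PROOF. `Gauss.statementC M` gives `n` with `finrank (EE K₀) (FF K₀ M) = n` for all fields `K₀ : Type` with
`(M : K₀) ≠ 0`. Take `K₀ = Kbar = AlgebraicClosure ℚ`: by L1d and `modularFunctionFieldBar_eq` (L3) it is
`finrank Kbar⟮jF M⟯ (FN M)`, which S24 computes: `S24.finrank_jF_of_family` + `S24.fcusp`
(see how `Fermat/Agent/S24.lean` obtains `hn : finrank = Nat.card (SL(2,ℤ) ⧸ Gamma0 M)`), and
`Lib.Count.card_quotient_Gamma0`. -/
theorem finrank_jb (hM : ((M : ℕ) : k) ≠ 0) : finrank k⟮jb k M⟯ (E k M) = dedekindPsi M := by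
  obtain ⟨n, -, hn⟩ := Gauss.statementC M
  have hM0 : ((M : ℕ) : AlgebraicClosure ℚ) ≠ 0 := by
    exact_mod_cast NeZero.ne M
  have h1 : finrank k⟮jb k M⟯ (E k M) = n := (finrank_jb_eq k M hM).trans (hn k hM)
  have h2 : finrank (AlgebraicClosure ℚ)⟮jb (AlgebraicClosure ℚ) M⟯ (E (AlgebraicClosure ℚ) M) = n :=
    (finrank_jb_eq (AlgebraicClosure ℚ) M hM0).trans (hn (AlgebraicClosure ℚ) hM0)
  have h3 : finrank (AlgebraicClosure ℚ)⟮S24.jF M⟯ (S24.FN M)
      = finrank (AlgebraicClosure ℚ)⟮jb (AlgebraicClosure ℚ) M⟯ (E (AlgebraicClosure ℚ) M) :=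
    LevelDeg_finrank_congr (modularFunctionFieldBar_eq M) LevelDeg_coeffEmb_jq _ _
  rw [h1, ← h2, ← h3, LevelDeg_finrank_jF]

end Fermat.Agent.GAL.Igusa
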