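import Fermat.Agent.GAL.Igusa.RedDatum
import Fermat.Agent.S24.PlaceDedekind
import Fermat.Agent.S24.PlaceBasic

/-!
# GAL-IGUSA leaves P1-P4: `L(m (x)_∞)` in terms of integrality over `k[x]` and `k[1/x]`

`k` algebraically closed of any characteristic, `x` transcendental, `F / k(x)` finite separable.
(`Fermat.Agent.GAL.FF.isFF_of_separable` gives `Lib.RR.IsFF k F`.)
-/

set_option autoImplicit false

namespace Fermat.Agent.GAL.Igusa

open Module IntermediateField AlgebraicCurve Lib.RR

variable {k F : Type*} [Field k] [Field F] [Algebra k F]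

theorem poleSpace_adjoin_le_place (v : Place k F) (x : F) (hx : x ∈ v.toValuationSubring)
    (a : Algebra.adjoin k {x}) : (a : F) ∈ v.toValuationSubring := by
  obtain ⟨a, ha⟩ := a
  show a ∈ v.toValuationSubring
  induction ha using Algebra.adjoin_induction with
  | mem y hy => rw [Set.mem_singleton_iff.mp hy]; exact hx
  | algebraMap r => exact v.algebraMap_mem' r
  | add y z _ _ hy hz => exact add_mem hy hz
  | mul y z _ _ hy hz => exact mul_mem hy hz

/-- **Leaf P1.** easy direction: valuation rings are integrally closed. -/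
theorem mem_place_of_isIntegral (v : Place k F) {x y : F} (hx : x ∈ v.toValuationSubring)
    (hy : IsIntegral (Algebra.adjoin k {x}) y) : y ∈ v.toValuationSubring := by
  have hv : ∀ a : Algebra.adjoin k {x},
      algebraMap (Algebra.adjoin k {x}) F a ∈ v.toValuationSubring :=
    fun a => poleSpace_adjoin_le_place v x hx a
  letI : Algebra (Algebra.adjoin k {x}) v.toValuationSubring :=
    ((algebraMap (Algebra.adjoin k {x}) F).codRestrict v.toValuationSubring.toSubring hv).toAlgebra
  letI : IsScalarTower (Algebra.adjoin k {x}) v.toValuationSubring F :=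
    IsScalarTower.of_algebraMap_eq fun f => rfl
  have hx' : IsIntegral v.toValuationSubring y := hy.tower_top
  obtain ⟨z, hz⟩ := IsIntegrallyClosed.isIntegral_iff.mp hx'
  rw [← hz]
  exact z.2

open IntermediateField.algebraAdjoinAdjoin in
/-- **Leaf P2.** An element which is regular at all places where `x` is regular is integral over
`k[x]`.
PROOF. `R := integralClosure (Algebra.adjoin k {x}) F` is a Dedekind domain with fraction field `F`
(as in `S24/Zeros.lean`, `GAL/FF/IsFF.lean: exists_finset_zeros_sep`: `Algebra.adjoin k {x} ≃ k[X]` is a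
PID, `F / k(x)` finite separable, `integralClosure.isDedekindDomain`). Every height one prime `w` of `R`
gives the place `Place.ofHeightOneSpectrum w` (Prelude / `S24/PlaceDedekind.lean`), which contains `x`.
So `y` has valuation `≤ 1` at all `w`;
`IsDedekindDomain.HeightOneSpectrum.mem_integers_of_valuation_le_one` gives `y ∈ R`. -/
theorem isIntegral_of_forall_mem_place [IsAlgClosed k] (x : F) (hx : Transcendental k x)
    [FiniteDimensional k⟮x⟯ F] [Algebra.IsSeparable k⟮x⟯ F] (y : F)
    (hy : ∀ v : Place k F, x ∈ v.toValuationSubring → y ∈ v.toValuationSubring) :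
    IsIntegral (Algebra.adjoin k {x}) y := by
  let A := Algebra.adjoin k {x}
  let e : Polynomial k ≃ₐ[k] A := Polynomial.algEquivOfTranscendental k x hx
  have hPID : IsPrincipalIdealRing A :=
    IsPrincipalIdealRing.of_surjective e.toRingEquiv.toRingHom e.surjective
  let t : A := ⟨x, Algebra.self_mem_adjoin_singleton k x⟩
  have : IsDedekindDomain (integralClosure A F) := integralClosure.isDedekindDomain A k⟮x⟯ F
  have : IsFractionRing (integralClosure A F) F :=
    integralClosure.isFractionRing_of_finite_extension k⟮x⟯ F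
  have hval : ∀ w : IsDedekindDomain.HeightOneSpectrum (integralClosure A F),
      w.valuation F y ≤ 1 := by
    intro w
    have hxw : x ∈ (Place.ofHeightOneSpectrum (K := k) (F := F) w).toValuationSubring :=
      S24.algebraMap_mem_ofHeightOneSpectrum w (algebraMap A (integralClosure A F) t)
    have := hy _ hxw
    rwa [Place.ofHeightOneSpectrum_toValuationSubring, Valuation.mem_valuationSubring_iff] at this
  obtain ⟨r, hr⟩ := IsDedekindDomain.HeightOneSpectrum.mem_integers_of_valuation_le_one F y hval
  rw [← hr]
  exact r.2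

/-- **Leaf P3.** `deg (x)_∞ = [F : k(x)]`.
PROOF. `GAL.FF.exists_finset_zeros_sep x⁻¹`, `place_deg_eq_one_sep`, `S24.degree_eq_sum_of_deg_one`,
exactly as at the end of the proof of `GAL.FF.isFF_of_separable`. -/
theorem degree_poleDiv [IsAlgClosed k] [HasPrincipalDivisors k F] (x : F) (hx : Transcendental k x)
    [FiniteDimensional k⟮x⟯ F] [Algebra.IsSeparable k⟮x⟯ F] :
    Divisor.degree (poleDiv (K := k) x) = finrank k⟮x⟯ F := by
  classical
  have hdeg := GAL.FF.place_deg_eq_one_sep x hx
  have := GAL.FF.finiteDimensional_adjoin_inv (k := k) x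
  have := GAL.FF.isSeparable_adjoin_inv (k := k) x
  obtain ⟨Z1, hZ1, hs1⟩ := GAL.FF.exists_finset_zeros_sep x⁻¹ (S24.transcendental_inv hx)
  have hsupp : (poleDiv (K := k) x).support ⊆ Z1 := by
    intro v hv
    rw [Finsupp.mem_support_iff, poleDiv_apply] at hv
    rw [hZ1, v.ord_inv]
    by_contra hcon
    exact hv (max_eq_left (by omega))
  rw [S24.degree_eq_sum_of_deg_one hdeg _ Z1 hsupp]
  have : ∑ v ∈ Z1, poleDiv (K := k) x v = ∑ v ∈ Z1, v.ord x⁻¹ := by
    refine Finset.sum_congr rfl fun v hv => ?_
    have h1 := (hZ1 v).1 hv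
    rw [poleDiv_apply]
    rw [v.ord_inv] at h1 ⊢
    exact max_eq_right (by omega)
  rw [this, hs1, S24.adjoin_inv_eq]

end Fermat.Agent.GAL.Igusa
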