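import Fermat.Agent.S28.CMain
import Fermat.Agent.GAL.FF.IsFF

/-!
# IG-E, geometric part 3: bridge between the Prelude field `modularFunctionFieldFullC k N`
(an intermediate field of `k((q)) / k`) and the tower `EE k ⊆ FF k N` of S28 block C.
-/

set_option autoImplicit false

noncomputable section

namespace Fermat.Agent.GAL.Igusa

open Fermat.Agent.S28 ModularCurve IntermediateField Module

variable (k : Type) [Field k] (N : ℕ) [NeZero N]

/-- the function field of `X₀(N)` over `k`. -/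
abbrev EC : Type := ↥(modularFunctionFieldFullC k N)

/-- `j` as an element of `EC k N`. -/
def jE : EC k N := ⟨jqModC k, jqModC_mem_full k N⟩

/-- `j(q^d)` as an element of `EC k N` (junk `0` if `d ∤ N`). -/
def jEd (d : ℕ) : EC k N :=
  if hd : d ∣ N then
    ⟨jd k d, by
      have : NeZero d := ⟨ne_zero_of_dvd N hd⟩
      rw [jd_eq]; exact jqModCd_mem_full k N hd⟩
  else 0

theorem jEd_coe {d : ℕ} (hd : d ∣ N) : (jEd k N d : LaurentSeries k) = jd k d := by
  rw [jEd, dif_pos hd]

theorem restrictScalars_FF :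
    (FF k N).restrictScalars k = modularFunctionFieldFullC k N := by
  rw [FF, EE, IntermediateField.adjoin_adjoin_left, modularFunctionFieldFullC]
  congr 1
  rw [Set.union_eq_right, Set.singleton_subset_iff]
  exact ⟨1, ⟨one_ne_zero⟩, one_dvd N, by rw [qExpand_one_apply]⟩

theorem mem_FF_iff (x : LaurentSeries k) : x ∈ FF k N ↔ x ∈ modularFunctionFieldFullC k N := by
  rw [← restrictScalars_FF k N, IntermediateField.mem_restrictScalars]

/-- the identity map `EC k N ≃ FF k N`. -/
def incl : EC k N ≃+* ↥(FF k N) where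
  toFun x := ⟨x.1, (mem_FF_iff k N x.1).mpr x.2⟩
  invFun x := ⟨x.1, (mem_FF_iff k N x.1).mp x.2⟩
  left_inv _ := rfl
  right_inv _ := rfl
  map_mul' _ _ := rfl
  map_add' _ _ := rfl

theorem incl_coe (x : EC k N) : (incl k N x).1 = x.1 := by
  show (⟨x.1, (mem_FF_iff k N x.1).mpr x.2⟩ : ↥(FF k N)).1 = x.1
  exact rfl

theorem incl_jEd {d : ℕ} (hd : d ∣ N) : incl k N (jEd k N d) = jF k N d := by
  apply Subtype.ext
  rw [incl_coe, jEd_coe k N hd, jF_coe k N hd]

theorem transcendental_jE : Transcendental k (jE k N) := by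
  have h : Transcendental k (jqModC k) :=
    P2MW.S_ModularCurve_coeff_jqModC_neg_one.ModularCurve.CharLRows.transcendental_jqModC k
  intro hcon
  apply h
  have := hcon.algHom (modularFunctionFieldFullC k N).val
  exact this

/-- elements of `k(j⁻¹) ⊆ EC k N` lie in `EE k`. -/
theorem map_adjoin_jE :
    (k⟮(jE k N)⁻¹⟯).map (modularFunctionFieldFullC k N).val = EE k := by
  rw [S24.adjoin_inv_eq, IntermediateField.adjoin_map, Set.image_singleton]
  rfl

theorem coe_mem_EE (z : k⟮(jE k N)⁻¹⟯) : (((z : EC k N)) : LaurentSeries k) ∈ EE k := by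
  rw [← map_adjoin_jE k N]
  exact ⟨z.1, z.2, rfl⟩

theorem exists_of_mem_EE (y : ↥(EE k)) :
    ∃ z : k⟮(jE k N)⁻¹⟯, (((z : EC k N)) : LaurentSeries k) = y.1 := by
  have h : y.1 ∈ (k⟮(jE k N)⁻¹⟯).map (modularFunctionFieldFullC k N).val := by
    rw [map_adjoin_jE k N]; exact y.2
  obtain ⟨z, hz, hzy⟩ := h
  exact ⟨⟨z, hz⟩, hzy⟩

/-- the identity map `k(j⁻¹) ≃ EE k`. -/
def inclEHom : k⟮(jE k N)⁻¹⟯ →+* ↥(EE k) where
  toFun z := ⟨((z : EC k N) : LaurentSeries k), coe_mem_EE k N z⟩
  map_one' := rfl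
  map_mul' _ _ := rfl
  map_zero' := rfl
  map_add' _ _ := rfl

/-- the identity map `k(j⁻¹) ≃ EE k`. -/
def inclE : k⟮(jE k N)⁻¹⟯ ≃+* ↥(EE k) :=
  RingEquiv.ofBijective (inclEHom k N)
    ⟨fun a b hab => Subtype.ext (Subtype.ext
        (congrArg (Subtype.val : ↥(EE k) → LaurentSeries k) hab)),
      fun y => by
        obtain ⟨z, hz⟩ := exists_of_mem_EE k N y
        exact ⟨z, Subtype.ext hz⟩⟩

theorem inclE_coe (z : k⟮(jE k N)⁻¹⟯) : (inclE k N z).1 = ((z : EC k N) : LaurentSeries k) := by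
  show (inclEHom k N z).1 = _
  exact rfl

theorem incl_comp_algebraMap :
    (algebraMap ↥(EE k) ↥(FF k N)).comp (inclE k N : k⟮(jE k N)⁻¹⟯ →+* ↥(EE k)) =
      (incl k N : EC k N →+* ↥(FF k N)).comp (algebraMap k⟮(jE k N)⁻¹⟯ (EC k N)) := by
  refine RingHom.ext fun z => Subtype.ext ?_
  show (algebraMap ↥(EE k) ↥(FF k N) (inclE k N z)).1 =
    (incl k N (algebraMap k⟮(jE k N)⁻¹⟯ (EC k N) z)).1
  rw [incl_coe]
  show (inclE k N z).1 = _
  rw [inclE_coe]
  exact rfl

variable {k N}

theorem finiteDimensional_jE (hB : StatementB) (hN : (N : k) ≠ 0) :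
    FiniteDimensional k⟮(jE k N)⁻¹⟯ (EC k N) := by
  have := finiteDimensional_FF k N hB hN
  exact Module.Finite.of_equiv_equiv (inclE k N).symm (incl k N).symm (by
    have h := incl_comp_algebraMap k N
    refine RingHom.ext fun y => ?_
    obtain ⟨z, rfl⟩ := (inclE k N).surjective y
    have h2 := RingHom.congr_fun h z
    simp only [RingHom.coe_comp, RingHom.coe_coe, Function.comp_apply,
      RingEquiv.symm_apply_apply] at h2 ⊢
    rw [h2, RingEquiv.symm_apply_apply])

theorem isSeparable_jE (hB : StatementB) (hN : (N : k) ≠ 0) :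
    Algebra.IsSeparable k⟮(jE k N)⁻¹⟯ (EC k N) := by
  have := isSeparable_FF k N hB hN
  exact Algebra.IsSeparable.of_equiv_equiv (inclE k N).symm (incl k N).symm (by
    have h := incl_comp_algebraMap k N
    refine RingHom.ext fun y => ?_
    obtain ⟨z, rfl⟩ := (inclE k N).surjective y
    have h2 := RingHom.congr_fun h z
    simp only [RingHom.coe_comp, RingHom.coe_coe, Function.comp_apply,
      RingEquiv.symm_apply_apply] at h2 ⊢
    rw [h2, RingEquiv.symm_apply_apply])

theorem finrank_jE (hB : StatementB) (hN : (N : k) ≠ 0) :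
    finrank k⟮(jE k N)⁻¹⟯ (EC k N) = finrank ↥(EE k) ↥(FF k N) :=
  Algebra.finrank_eq_of_equiv_equiv (inclE k N) (incl k N) (incl_comp_algebraMap k N)

/-- `EC k N` is a function field in the sense of `Lib/RR` (so Riemann-Roch applies). -/
theorem isFF_EC [IsAlgClosed k] (hB : StatementB) (hN : (N : k) ≠ 0) :
    Fermat.Agent.Lib.RR.IsFF k (EC k N) := by
  have := finiteDimensional_jE (k := k) (N := N) hB hN
  have := isSeparable_jE (k := k) (N := N) hB hN
  exact Fermat.Agent.GAL.FF.isFF_of_separable (jE k N)⁻¹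
    (S24.transcendental_inv (transcendental_jE k N))

end Fermat.Agent.GAL.Igusa
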