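import Mathlib
import Fermat.Agent.S28.CComb

/-!
# IG-E (cusp count in characteristic `ℓ`), combinatorial part 1

An *admissible chain* on the divisors of `N` is a function `r : ℕ → ℚ` with `r 1 = 1`,
`r (p d) = p r d` or `r d / p` for every prime step, and "no `+` step after a `-` step".
(These are the exponents `r_d(σ)` of the conjugates `σ (j(q^d)) = j(c_d q^{r_d})`.)
Then `r d = ∏_p p ^ (2 min (v_p d, a_p) - v_p d)` for some `0 ≤ a_p ≤ v_p N`, the *width*
of the chain is `(r N).den = ∏_p p ^ max (0, v_p N - 2 a_p)`, and `1 / width` is an explicit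
linear combination `cuspW N r` of the values `r d`.
-/

set_option autoImplicit false

namespace Fermat.Agent.GAL.Igusa

/-- `D_A = ∏_{p ∉ A} p ^ ⌊e_p / 2⌋ * ∏_{p ∈ A} p ^ ⌈e_p / 2⌉`, `e_p = v_p N`. -/
def cuspD (N : ℕ) (A : Finset ℕ) : ℕ :=
  (∏ p ∈ N.primeFactors \ A, p ^ (N.factorization p / 2)) *
    ∏ p ∈ A, p ^ ((N.factorization p + 1) / 2)

/-- the linear functional computing `1 / width`. -/
noncomputable def cuspW (N : ℕ) (r : ℕ → ℚ) : ℚ :=
  ∑ A ∈ N.primeFactors.powerset,
    (∏ p ∈ N.primeFactors \ A, (1 : ℚ) / (p + 1)) * (∏ p ∈ A, (p : ℚ) / (p + 1)) *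
      (r (cuspD N A) / cuspD N A)

theorem cuspD_dvd (N : ℕ) (hN : N ≠ 0) {A : Finset ℕ} (hA : A ⊆ N.primeFactors) :
    cuspD N A ∣ N := by
  have h1 : (∏ p ∈ N.primeFactors \ A, p ^ N.factorization p) * ∏ p ∈ A, p ^ N.factorization p
      = N := by
    rw [Finset.prod_sdiff hA]
    exact Nat.prod_factorization_pow_eq_self hN
  unfold cuspD
  conv_rhs => rw [← h1]
  refine mul_dvd_mul (Finset.prod_dvd_prod_of_dvd _ _ fun p _ => pow_dvd_pow p (by omega))
    (Finset.prod_dvd_prod_of_dvd _ _ fun p hp => pow_dvd_pow p ?_)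
  have hp' := hA hp
  have : 0 < N.factorization p :=
    (Nat.prime_of_mem_primeFactors hp').factorization_pos_of_dvd hN
      (Nat.dvd_of_mem_primeFactors hp')
  omega

theorem cuspW_congr (N : ℕ) (hN : N ≠ 0) {r r' : ℕ → ℚ} (h : ∀ d, d ∣ N → r d = r' d) :
    cuspW N r = cuspW N r' := by
  apply Finset.sum_congr rfl
  intro A hA
  rw [h _ (cuspD_dvd N hN (Finset.mem_powerset.mp hA))]

theorem cuspW_sum {ι : Type*} [Fintype ι] (N : ℕ) (r : ι → ℕ → ℚ) :
    ∑ i, cuspW N (r i) = cuspW N (fun d => ∑ i, r i d) := by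
  simp only [cuspW]
  rw [Finset.sum_comm]
  apply Finset.sum_congr rfl
  intro A _
  rw [Finset.sum_div, Finset.mul_sum]

theorem cuspW_const (N : ℕ) (c : ℚ) : cuspW N (fun _ => c) = c * cuspW N (fun _ => 1) := by
  simp only [cuspW]
  rw [Finset.mul_sum]
  apply Finset.sum_congr rfl
  intro A _
  ring

/-- the type of a `q`-step at `d` is the type of the `q`-step at `q ^ v_q d`. -/
private theorem chain_step_iff (N : ℕ) (hN : N ≠ 0) (r : ℕ → ℚ)
    (hne : ∀ d, d ∣ N → r d ≠ 0)
    (hstep : ∀ p d : ℕ, p.Prime → p * d ∣ N → r (p * d) = p * r d ∨ p * r (p * d) = r d)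
    (hnoback : ∀ p d : ℕ, p.Prime → p * (p * d) ∣ N → p * r (p * d) = r d →
      p * r (p * (p * d)) = r (p * d))
    {q : ℕ} (hq : q.Prime) {d : ℕ} (hd : q * d ∣ N) :
    (q : ℚ) * r (q * d) = r d ↔
      (q : ℚ) * r (q * q ^ d.factorization q) = r (q ^ d.factorization q) := by
  have hd0 : d ≠ 0 := by
    rintro rfl
    rw [mul_zero, zero_dvd_iff] at hd
    exact hN hd
  have hde : (d / q ^ d.factorization q) * q ^ d.factorization q = d := by
    rw [mul_comm]
    exact Nat.ordProj_mul_ordCompl_eq_self d q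
  have hnd : ¬ q ∣ d / q ^ d.factorization q := Nat.not_dvd_ordCompl hq hd0
  have hd' : q * ((d / q ^ d.factorization q) * q ^ d.factorization q) ∣ N := by rwa [hde]
  constructor
  · intro h
    have := S28.comb_down N r hne hstep hq _ hnd _ hd' (by rwa [hde])
    exact this
  · intro h
    have := S28.comb_up N hN r hne hstep hnoback hq _ _ hd' h
    rwa [hde] at this

/-- structure of admissible chains. -/
theorem exists_chain_type (N : ℕ) (hN : N ≠ 0) (r : ℕ → ℚ) (h1 : r 1 = 1)
    (hne : ∀ d, d ∣ N → r d ≠ 0)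
    (hstep : ∀ p d : ℕ, p.Prime → p * d ∣ N → r (p * d) = p * r d ∨ p * r (p * d) = r d)
    (hnoback : ∀ p d : ℕ, p.Prime → p * (p * d) ∣ N → p * r (p * d) = r d →
      p * r (p * (p * d)) = r (p * d)) :
    ∃ a : ℕ → ℕ, (∀ p, a p ≤ N.factorization p) ∧ ∀ d, d ∣ N →
      r d = ∏ p ∈ N.primeFactors,
        (p : ℚ) ^ (2 * (min (d.factorization p) (a p) : ℤ) - (d.factorization p : ℤ)) := by
  classical
  let a : ℕ → ℕ := fun p =>
    if h : ∃ i, i < N.factorization p ∧ (p : ℚ) * r (p * p ^ i) = r (p ^ i) then Nat.find h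
    else N.factorization p
  have ha1 : ∀ p, a p ≤ N.factorization p := by
    intro p
    simp only [a]
    split_ifs with h
    · exact (Nat.find_spec h).1.le
    · exact le_rfl
  have ha2 : ∀ p i, i < a p → ¬ (p : ℚ) * r (p * p ^ i) = r (p ^ i) := by
    intro p i hi hm
    have hiv : i < N.factorization p := lt_of_lt_of_le hi (ha1 p)
    simp only [a] at hi
    split_ifs at hi with h
    · exact Nat.find_min h hi ⟨hiv, hm⟩
    · exact h ⟨i, hiv, hm⟩
  have ha3 : ∀ p, p.Prime → ∀ i, a p ≤ i → i < N.factorization p →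
      (p : ℚ) * r (p * p ^ i) = r (p ^ i) := by
    intro p hp i hi
    induction i, hi using Nat.le_induction with
    | base =>
      intro hlt
      simp only [a] at hlt ⊢
      split_ifs at hlt ⊢ with h
      · exact (Nat.find_spec h).2
      · exact absurd hlt (lt_irrefl _)
    | succ i _ ih =>
      intro hlt
      have h2 := ih (by omega)
      have hdvd : p * (p * p ^ i) ∣ N := by
        rw [← pow_succ', ← pow_succ']
        exact (hp.pow_dvd_iff_le_factorization hN).mpr (by omega)
      have h3 := hnoback p (p ^ i) hp hdvd h2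
      rwa [← pow_succ'] at h3
  refine ⟨a, ha1, ?_⟩
  intro d
  induction d using induction_on_primes with
  | zero => intro h; exact absurd (zero_dvd_iff.mp h) hN
  | one =>
    intro _
    rw [h1]
    symm
    apply Finset.prod_eq_one
    intro p _
    simp
  | prime_mul q d hq ih =>
    intro hd
    have hdN : d ∣ N := (Dvd.intro_left q rfl).trans hd
    have hd0 : d ≠ 0 := by
      rintro rfl
      exact hN (zero_dvd_iff.mp hdN)
    have hqN : q ∈ N.primeFactors :=
      Nat.mem_primeFactors.mpr ⟨hq, (Dvd.intro d rfl).trans hd, hN⟩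
    have hq0 : (q : ℚ) ≠ 0 := Nat.cast_ne_zero.mpr hq.ne_zero
    have hfac : ∀ p, (q * d).factorization p = (if p = q then 1 else 0) + d.factorization p := by
      intro p
      rw [Nat.factorization_mul hq.ne_zero hd0, Finsupp.add_apply, hq.factorization,
        Finsupp.single_apply]
      simp only [eq_comm]
    have hlt : d.factorization q < N.factorization q := by
      have h2 := (Nat.factorization_le_iff_dvd (mul_ne_zero hq.ne_zero hd0) hN).mpr hd q
      rw [hfac, if_pos rfl] at h2
      omega
    -- the product formula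
    have hprod : ∀ δ : ℤ,
        (2 * (min ((q * d).factorization q) (a q) : ℤ) - ((q * d).factorization q : ℤ)) =
          δ + (2 * (min (d.factorization q) (a q) : ℤ) - (d.factorization q : ℤ)) →
        ∏ p ∈ N.primeFactors, (p : ℚ) ^
          (2 * (min ((q * d).factorization p) (a p) : ℤ) - ((q * d).factorization p : ℤ)) =
        (q : ℚ) ^ δ * ∏ p ∈ N.primeFactors, (p : ℚ) ^
          (2 * (min (d.factorization p) (a p) : ℤ) - (d.factorization p : ℤ)) := by
      intro δ hδ
      rw [← Finset.mul_prod_erase _ _ hqN, ← Finset.mul_prod_erase N.primeFactors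
        (fun p => (p : ℚ) ^ (2 * (min (d.factorization p) (a p) : ℤ) - (d.factorization p : ℤ)))
        hqN, hδ, zpow_add₀ hq0, mul_assoc]
      congr 2
      apply Finset.prod_congr rfl
      intro p hp
      rw [hfac p, if_neg (Finset.ne_of_mem_erase hp), zero_add]
    by_cases hi : d.factorization q < a q
    · have hplus : r (q * d) = q * r d := by
        refine (hstep q d hq hd).resolve_right ?_
        rw [chain_step_iff N hN r hne hstep hnoback hq hd]
        exact ha2 q _ hi
      rw [hplus, ih hdN, hprod 1 ?_, zpow_one]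
      rw [hfac, if_pos rfl]
      have e1 : min (1 + d.factorization q) (a q) = 1 + d.factorization q := by omega
      have e2 : min (d.factorization q) (a q) = d.factorization q := by omega
      rw [← Nat.cast_min, ← Nat.cast_min, e1, e2]
      push_cast
      ring
    · have hminus : (q : ℚ) * r (q * d) = r d := by
        rw [chain_step_iff N hN r hne hstep hnoback hq hd]
        exact ha3 q hq _ (not_lt.mp hi) hlt
      have h3 : r (q * d) = (q : ℚ) ^ (-1 : ℤ) * r d := by
        rw [← hminus, zpow_neg_one, inv_mul_cancel_left₀ hq0]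
      rw [h3, ih hdN, hprod (-1) ?_]
      rw [hfac, if_pos rfl]
      have e1 : min (1 + d.factorization q) (a q) = a q := by omega
      have e2 : min (d.factorization q) (a q) = a q := by omega
      rw [← Nat.cast_min, ← Nat.cast_min, e1, e2]
      push_cast
      ring

end Fermat.Agent.GAL.Igusa
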