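import Mathlib
import Fermat.Prelude.Def_ModularCurve_GenusNumerics

/-!
# IG-E, combinatorial part 2a: product formula for `cuspCount`.
-/

set_option autoImplicit false

namespace Fermat.Agent.GAL.Igusa

open ModularCurve

theorem cuspProd_sum_totient_pow {p : ℕ} (hp : p.Prime) (k : ℕ) :
    ∑ i ∈ Finset.range (k + 1), Nat.totient (p ^ i) = p ^ k := by
  rw [← Nat.sum_divisors_prime_pow (f := Nat.totient) hp, Nat.sum_totient]

theorem cuspProd_gcd_pow {p : ℕ} (i j : ℕ) : Nat.gcd (p ^ i) (p ^ j) = p ^ (min i j) := by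
  rcases le_total i j with h | h
  · rw [min_eq_left h, Nat.gcd_eq_left (pow_dvd_pow p h)]
  · rw [min_eq_right h, Nat.gcd_eq_right (pow_dvd_pow p h)]

/-- cusp count of a prime power. -/
theorem cuspCount_prime_pow {p : ℕ} (hp : p.Prime) (e : ℕ) (he : 0 < e) :
    cuspCount (p ^ e) = p ^ ((e + 1) / 2 - 1) + p ^ (e / 2) := by
  rw [cuspCount, Nat.sum_divisors_prime_pow hp]
  have h1 : ∑ i ∈ Finset.range (e + 1), Nat.totient (Nat.gcd (p ^ i) (p ^ e / p ^ i))
      = ∑ i ∈ Finset.range (e + 1), Nat.totient (p ^ (min i (e - i))) := by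
    refine Finset.sum_congr rfl fun i hi => ?_
    have hi' : i ≤ e := by
      have := Finset.mem_range.mp hi
      omega
    rw [Nat.pow_div hi' hp.pos, cuspProd_gcd_pow]
  rw [h1]
  obtain ⟨a, ha⟩ : ∃ a, (e + 1) / 2 = a + 1 := ⟨(e + 1) / 2 - 1, by omega⟩
  set b := e / 2 with hb
  have hab : e + 1 = (a + 1) + (b + 1) := by omega
  rw [ha, Nat.add_sub_cancel, hab, Finset.sum_range_add]
  congr 1
  · rw [← cuspProd_sum_totient_pow hp a]
    refine Finset.sum_congr rfl fun i hi => ?_
    have := Finset.mem_range.mp hi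
    rw [min_eq_left (by omega)]
  · rw [← cuspProd_sum_totient_pow hp b, ← Finset.sum_range_reflect _ (b + 1)]
    refine Finset.sum_congr rfl fun i hi => ?_
    have := Finset.mem_range.mp hi
    rw [min_eq_right (by omega)]
    congr 2
    omega

theorem cuspProd_term {m n a b : ℕ} (h : m.Coprime n) (ha : a ∣ m) (hb : b ∣ n) :
    Nat.totient (Nat.gcd (a * b) (m * n / (a * b)))
      = Nat.totient (Nat.gcd a (m / a)) * Nat.totient (Nat.gcd b (n / b)) := by
  have ha' : m / a ∣ m := Nat.div_dvd_of_dvd ha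
  have hb' : n / b ∣ n := Nat.div_dvd_of_dvd hb
  have hc1 : Nat.Coprime (m / a) (n / b) := (h.coprime_dvd_left ha').coprime_dvd_right hb'
  have hc2 : Nat.Coprime b (m / a) := ((h.coprime_dvd_left ha').coprime_dvd_right hb).symm
  have hc3 : Nat.Coprime a (n / b) := (h.coprime_dvd_left ha).coprime_dvd_right hb'
  rw [Nat.mul_div_mul_comm ha hb, Nat.Coprime.gcd_mul _ hc1,
    Nat.Coprime.gcd_mul_right_cancel a hc2, Nat.Coprime.gcd_mul_left_cancel b hc3]
  apply Nat.totient_mul
  exact (h.coprime_dvd_left ((Nat.gcd_dvd_left _ _).trans ha)).coprime_dvd_right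
    ((Nat.gcd_dvd_left _ _).trans hb)

/-- multiplicativity of the cusp count. -/
theorem cuspCount_mul {m n : ℕ} (h : m.Coprime n) : cuspCount (m * n) = cuspCount m * cuspCount n := by
  rw [cuspCount, cuspCount, cuspCount, Nat.divisors_mul, Finset.mul_def,
    Finset.sum_image h.mul_injOn_divisors, Finset.sum_product, Finset.sum_mul_sum]
  refine Finset.sum_congr rfl fun a ha => Finset.sum_congr rfl fun b hb => ?_
  exact cuspProd_term h (Nat.dvd_of_mem_divisors ha) (Nat.dvd_of_mem_divisors hb)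

theorem cuspCount_eq_prod (N : ℕ) (hN : N ≠ 0) :
    cuspCount N = ∏ p ∈ N.primeFactors,
      (p ^ ((N.factorization p + 1) / 2 - 1) + p ^ (N.factorization p / 2)) := by
  rw [Nat.multiplicative_factorization cuspCount (fun x y h => cuspCount_mul h) cuspCount_one hN,
    Finsupp.prod, Nat.support_factorization]
  refine Finset.prod_congr rfl fun p hp => ?_
  have hpp := Nat.prime_of_mem_primeFactors hp
  exact cuspCount_prime_pow hpp _ (hpp.factorization_pos_of_dvd hN (Nat.dvd_of_mem_primeFactors hp))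

end Fermat.Agent.GAL.Igusa
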