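import Mathlib
import Fermat.Agent.S28.CComb
import Fermat.Agent.GAL.Igusa.CuspComb
import Fermat.Agent.GAL.Igusa.CuspProd

/-!
# IG-E, combinatorial part 2: numerics

`ψ(N) * cuspW N 1 = cuspCount N`, where `ψ(N)` is given through the relation
`n * altSum N 1 = altSum N id` proved in `S28/CMain` (`finrank_mul_altSum`).
-/

set_option autoImplicit false

namespace Fermat.Agent.GAL.Igusa

open Fermat.Agent.S28 ModularCurve

/-- `altSum N id = N ∏_p (p - 1/p)`. -/
theorem altSum_id (N : ℕ) (hN : N ≠ 0) :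
    altSum N (fun d => (d : ℚ)) = N * ∏ p ∈ N.primeFactors, ((p : ℚ) - 1 / p) := by
  have h := Finset.prod_add (fun p : ℕ => (-1 : ℚ) / p) (fun p : ℕ => (p : ℚ)) N.primeFactors
  have h2 : ∏ p ∈ N.primeFactors, ((p : ℚ) - 1 / p)
      = ∏ p ∈ N.primeFactors, ((-1 : ℚ) / p + p) := by
    refine Finset.prod_congr rfl fun p _ => ?_
    ring
  rw [h2, h, Finset.mul_sum, altSum]
  refine Finset.sum_congr rfl fun A hA => ?_
  have hA' := Finset.mem_powerset.mp hA
  have hne : ((∏ p ∈ A, p : ℕ) : ℚ) ≠ 0 := by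
    rw [Nat.cast_ne_zero, Finset.prod_ne_zero_iff]
    intro p hp
    exact (Nat.prime_of_mem_primeFactors (hA' hp)).ne_zero
  rw [Nat.cast_div (comb_prod_dvd N hA') hne, Finset.prod_div_distrib, Finset.prod_const]
  push_cast
  ring

/-- `cuspW N 1 = ∏_p (p^{-⌊e/2⌋} + p^{1-⌈e/2⌉}) / (p + 1)`. -/
theorem cuspW_one (N : ℕ) :
    cuspW N (fun _ => 1) = ∏ p ∈ N.primeFactors,
      ((1 : ℚ) / (p + 1) / (p : ℚ) ^ (N.factorization p / 2) +
        (p : ℚ) / (p + 1) / (p : ℚ) ^ ((N.factorization p + 1) / 2)) := by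
  have h := Finset.prod_add
    (fun p : ℕ => (p : ℚ) / (p + 1) / (p : ℚ) ^ ((N.factorization p + 1) / 2))
    (fun p : ℕ => (1 : ℚ) / (p + 1) / (p : ℚ) ^ (N.factorization p / 2)) N.primeFactors
  have h2 : ∏ p ∈ N.primeFactors,
      ((1 : ℚ) / (p + 1) / (p : ℚ) ^ (N.factorization p / 2) +
        (p : ℚ) / (p + 1) / (p : ℚ) ^ ((N.factorization p + 1) / 2))
      = ∏ p ∈ N.primeFactors,
      ((p : ℚ) / (p + 1) / (p : ℚ) ^ ((N.factorization p + 1) / 2) +
        (1 : ℚ) / (p + 1) / (p : ℚ) ^ (N.factorization p / 2)) := by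
    refine Finset.prod_congr rfl fun p _ => ?_
    ring
  rw [h2, h, cuspW]
  refine Finset.sum_congr rfl fun A _ => ?_
  have e1 : ∏ p ∈ A, ((p : ℚ) / (p + 1) / (p : ℚ) ^ ((N.factorization p + 1) / 2))
      = (∏ p ∈ A, (p : ℚ) / (p + 1)) / ∏ p ∈ A, (p : ℚ) ^ ((N.factorization p + 1) / 2) :=
    Finset.prod_div_distrib _ _
  have e2 : ∏ p ∈ N.primeFactors \ A, ((1 : ℚ) / (p + 1) / (p : ℚ) ^ (N.factorization p / 2))
      = (∏ p ∈ N.primeFactors \ A, (1 : ℚ) / (p + 1))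
        / ∏ p ∈ N.primeFactors \ A, (p : ℚ) ^ (N.factorization p / 2) :=
    Finset.prod_div_distrib _ _
  rw [e1, e2, cuspD]
  push_cast
  generalize (∏ p ∈ A, (p : ℚ) / (p + 1)) = a
  generalize (∏ p ∈ N.primeFactors \ A, (1 : ℚ) / (p + 1)) = b
  ring

/-- **Numerics.** -/
theorem mul_cuspW_one_eq_cuspCount (N : ℕ) (hN : N ≠ 0) (n : ℚ)
    (hn : n * altSum N (fun _ => 1) = altSum N (fun d => (d : ℚ))) :
    n * cuspW N (fun _ => 1) = cuspCount N := by
  have hsplit : ∏ p ∈ N.primeFactors, ((p : ℚ) - 1 / p)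
      = (∏ p ∈ N.primeFactors, (((p : ℚ) + 1) / p)) * ∏ p ∈ N.primeFactors, ((p : ℚ) - 1) := by
    rw [← Finset.prod_mul_distrib]
    refine Finset.prod_congr rfl fun p hp => ?_
    have hp0 : (p : ℚ) ≠ 0 := Nat.cast_ne_zero.mpr (Nat.prime_of_mem_primeFactors hp).ne_zero
    field_simp
    ring
  have hn' : n = N * ∏ p ∈ N.primeFactors, (((p : ℚ) + 1) / p) := by
    have h0 := altSum_one_ne_zero N
    rw [altSum_id N hN, hsplit, ← altSum_one, ← mul_assoc] at hn
    exact mul_right_cancel₀ h0 hn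
  have hNprod : (N : ℚ) = ∏ p ∈ N.primeFactors, (p : ℚ) ^ (N.factorization p) := by
    conv_lhs => rw [← Nat.prod_factorization_pow_eq_self hN]
    rw [Finsupp.prod, Nat.support_factorization]
    push_cast
    rfl
  rw [hn', cuspW_one, hNprod, ← Finset.prod_mul_distrib, ← Finset.prod_mul_distrib,
    cuspCount_eq_prod N hN]
  push_cast
  refine Finset.prod_congr rfl fun p hp => ?_
  have hpp := Nat.prime_of_mem_primeFactors hp
  have hp0 : (p : ℚ) ≠ 0 := Nat.cast_ne_zero.mpr hpp.ne_zero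
  have hp1 : (p : ℚ) + 1 ≠ 0 := by positivity
  have he : 1 ≤ N.factorization p :=
    (hpp.dvd_iff_one_le_factorization hN).1 (Nat.dvd_of_mem_primeFactors hp)
  obtain ⟨h', hh'⟩ : ∃ h', (N.factorization p + 1) / 2 = h' + 1 := ⟨(N.factorization p + 1) / 2 - 1, by omega⟩
  have hsum : N.factorization p = N.factorization p / 2 + (h' + 1) := by omega
  rw [hh', Nat.add_sub_cancel]
  generalize N.factorization p / 2 = lo at hsum ⊢
  rw [hsum]
  field_simp
  ring

end Fermat.Agent.GAL.Igusa
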