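import Mathlib
import Fermat.Agent.GAL.Igusa.CuspComb

/-!
# IG-E, combinatorial part 1b: `1 / width = cuspW` for admissible chains.
-/

set_option autoImplicit false

namespace Fermat.Agent.GAL.Igusa

/-- factorization of a product of prime powers. -/
theorem CuspWidth_factorization_prod (S : Finset ℕ) (hS : ∀ q ∈ S, q.Prime) (x : ℕ → ℕ) (p : ℕ) :
    (∏ q ∈ S, q ^ x q).factorization p = if p ∈ S then x p else 0 := by
  rw [Nat.factorization_prod (fun q hq => pow_ne_zero _ (hS q hq).ne_zero),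
    Finsupp.finsetSum_apply]
  rw [Finset.sum_congr rfl (g := fun q => if q = p then x q else 0)]
  · rw [Finset.sum_ite_eq']
  · intro q hq
    rw [(hS q hq).factorization_pow, Finsupp.single_apply]

theorem CuspWidth_prod_ne_zero (S : Finset ℕ) (hS : ∀ q ∈ S, q.Prime) (x : ℕ → ℕ) :
    (∏ q ∈ S, q ^ x q) ≠ 0 :=
  Finset.prod_ne_zero_iff.mpr fun q hq => pow_ne_zero _ (hS q hq).ne_zero

theorem CuspWidth_factorization_cuspD (N : ℕ) {A : Finset ℕ} (hA : A ⊆ N.primeFactors) (p : ℕ) :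
    (cuspD N A).factorization p =
      (if p ∈ N.primeFactors \ A then N.factorization p / 2 else 0) +
        (if p ∈ A then (N.factorization p + 1) / 2 else 0) := by
  have h1 : ∀ q ∈ N.primeFactors \ A, q.Prime := fun q hq =>
    Nat.prime_of_mem_primeFactors (Finset.mem_sdiff.mp hq).1
  have h2 : ∀ q ∈ A, q.Prime := fun q hq => Nat.prime_of_mem_primeFactors (hA hq)
  rw [cuspD, Nat.factorization_mul (CuspWidth_prod_ne_zero _ h1 _) (CuspWidth_prod_ne_zero _ h2 _),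
    Finsupp.add_apply, CuspWidth_factorization_prod _ h1, CuspWidth_factorization_prod _ h2]

/-- the local identity. -/
theorem CuspWidth_local (p : ℚ) (hp : 0 < p) (e a : ℕ) :
    p / (p + 1) * p ^ (2 * min ((((e + 1) / 2 : ℕ)) : ℤ) (a : ℤ) - 2 * (((e + 1) / 2 : ℕ) : ℤ))
      + 1 / (p + 1) * p ^ (2 * min (((e / 2 : ℕ)) : ℤ) (a : ℤ) - 2 * ((e / 2 : ℕ) : ℤ))
      = (p ^ (e - 2 * a))⁻¹ := by
  have hp1 : p + 1 ≠ 0 := by positivity
  have hp0 : p ≠ 0 := hp.ne'
  by_cases hcase : (e + 1) / 2 ≤ a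
  · have h1 : min ((((e + 1) / 2 : ℕ)) : ℤ) (a : ℤ) = (((e + 1) / 2 : ℕ) : ℤ) :=
      min_eq_left (by exact_mod_cast hcase)
    have h2 : min (((e / 2 : ℕ)) : ℤ) (a : ℤ) = ((e / 2 : ℕ) : ℤ) :=
      min_eq_left (by
        have : e / 2 ≤ a := by omega
        exact_mod_cast this)
    have h3 : e - 2 * a = 0 := by omega
    rw [h1, h2, h3, sub_self, sub_self, zpow_zero, pow_zero]
    field_simp
  · have hlo : a ≤ e / 2 := by omega
    obtain ⟨d, hd⟩ := Nat.exists_eq_add_of_le hlo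
    have h1 : min ((((e + 1) / 2 : ℕ)) : ℤ) (a : ℤ) = (a : ℤ) :=
      min_eq_right (by
        have : a ≤ (e + 1) / 2 := by omega
        exact_mod_cast this)
    have h2 : min (((e / 2 : ℕ)) : ℤ) (a : ℤ) = (a : ℤ) :=
      min_eq_right (by exact_mod_cast hlo)
    rw [h1, h2]
    rcases Nat.even_or_odd' e with ⟨m, rfl | rfl⟩
    · have e1 : (2 * m + 1) / 2 = a + d := by omega
      have e2 : 2 * m / 2 = a + d := by omega
      have e3 : 2 * m - 2 * a = 2 * d := by omega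
      rw [e1, e2, e3]
      have e4 : (2 * (a : ℤ) - 2 * ((a + d : ℕ) : ℤ)) = -((2 * d : ℕ) : ℤ) := by
        push_cast; ring
      rw [e4, zpow_neg, zpow_natCast]
      field_simp
    · have e1 : (2 * m + 1 + 1) / 2 = a + d + 1 := by omega
      have e2 : (2 * m + 1) / 2 = a + d := by omega
      have e3 : 2 * m + 1 - 2 * a = 2 * d + 1 := by omega
      rw [e1, e2, e3]
      have e4 : (2 * (a : ℤ) - 2 * ((a + d : ℕ) : ℤ)) = -((2 * d : ℕ) : ℤ) := by
        push_cast; ring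
      have e5 : (2 * (a : ℤ) - 2 * ((a + d + 1 : ℕ) : ℤ)) = -((2 * d + 2 : ℕ) : ℤ) := by
        push_cast; ring
      rw [e4, e5, zpow_neg, zpow_neg, zpow_natCast, zpow_natCast]
      field_simp
      ring

/-- the denominator of `∏ p ^ (2 a - e)`. -/
theorem CuspWidth_den (S : Finset ℕ) (hS : ∀ q ∈ S, q.Prime) (e a : ℕ → ℕ) :
    ((∏ p ∈ S, (p : ℚ) ^ (2 * (a p : ℤ) - (e p : ℤ))).den : ℚ)
      = ∏ p ∈ S, (p : ℚ) ^ (e p - 2 * a p) := by
  set X : ℕ := ∏ p ∈ S, p ^ (2 * a p - e p) with hX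
  set Y : ℕ := ∏ p ∈ S, p ^ (e p - 2 * a p) with hY
  have hYpos : 0 < Y := Nat.pos_of_ne_zero (CuspWidth_prod_ne_zero S hS _)
  have hcop : X.Coprime Y := by
    refine Nat.Coprime.prod_left fun p hp => Nat.Coprime.prod_right fun q hq => ?_
    by_cases hpq : p = q
    · subst hpq
      rcases Nat.le_total (2 * a p) (e p) with h | h
      · rw [Nat.sub_eq_zero_of_le h, pow_zero]
        exact Nat.coprime_one_left _
      · rw [Nat.sub_eq_zero_of_le h, pow_zero]
        exact Nat.coprime_one_right _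
    · exact Nat.coprime_pow_primes _ _ (hS p hp) (hS q hq) hpq
  have hprod : (∏ p ∈ S, (p : ℚ) ^ (2 * (a p : ℤ) - (e p : ℤ))) = ((X : ℤ) : ℚ) / ((Y : ℤ) : ℚ) := by
    rw [hX, hY]
    push_cast
    rw [← Finset.prod_div_distrib]
    refine Finset.prod_congr rfl fun p hp => ?_
    have hp0 : (p : ℚ) ≠ 0 := by exact_mod_cast (hS p hp).ne_zero
    have e1 : (2 * (a p : ℤ) - (e p : ℤ)) = ((2 * a p - e p : ℕ) : ℤ) - ((e p - 2 * a p : ℕ) : ℤ) := by
      omega
    rw [e1, zpow_sub₀ hp0, zpow_natCast, zpow_natCast]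
  have hden := Rat.den_div_eq_of_coprime (a := (X : ℤ)) (b := (Y : ℤ)) (by exact_mod_cast hYpos)
    (by simpa using hcop)
  rw [hprod]
  have h2 : (((((X : ℤ) : ℚ) / ((Y : ℤ) : ℚ)).den : ℤ) : ℚ) = ((Y : ℤ) : ℚ) := by rw [hden]
  have h3 : ((Y : ℤ) : ℚ) = ∏ p ∈ S, (p : ℚ) ^ (e p - 2 * a p) := by
    rw [hY]; push_cast; rfl
  rw [← h3]
  exact (Int.cast_natCast _).symm.trans h2

/-- **Main identity**: `1 / width = cuspW`. -/
theorem one_div_den_eq_cuspW (N : ℕ) (hN : N ≠ 0) (r : ℕ → ℚ) (h1 : r 1 = 1)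
    (hne : ∀ d, d ∣ N → r d ≠ 0)
    (hstep : ∀ p d : ℕ, p.Prime → p * d ∣ N → r (p * d) = p * r d ∨ p * r (p * d) = r d)
    (hnoback : ∀ p d : ℕ, p.Prime → p * (p * d) ∣ N → p * r (p * d) = r d →
      p * r (p * (p * d)) = r (p * d)) :
    (1 : ℚ) / ((r N).den : ℚ) = cuspW N r := by
  obtain ⟨a, ha, hr⟩ := exists_chain_type N hN r h1 hne hstep hnoback
  have hP : ∀ q ∈ N.primeFactors, q.Prime := fun q hq => Nat.prime_of_mem_primeFactors hq
  -- left hand side
  have hL : (1 : ℚ) / ((r N).den : ℚ)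
      = ∏ p ∈ N.primeFactors, ((p : ℚ) ^ (N.factorization p - 2 * a p))⁻¹ := by
    have e1 : r N = ∏ p ∈ N.primeFactors, (p : ℚ) ^ (2 * (a p : ℤ) - (N.factorization p : ℤ)) := by
      rw [hr N dvd_rfl]
      refine Finset.prod_congr rfl fun p _ => ?_
      rw [min_eq_right (by exact_mod_cast ha p)]
    rw [e1, CuspWidth_den _ hP, one_div, Finset.prod_inv_distrib]
  rw [hL]
  -- right hand side
  have hterm : ∀ A ∈ N.primeFactors.powerset,
      (∏ p ∈ N.primeFactors \ A, (1 : ℚ) / (p + 1)) * (∏ p ∈ A, (p : ℚ) / (p + 1)) *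
        (r (cuspD N A) / cuspD N A)
      = (∏ p ∈ A, ((p : ℚ) / (p + 1) * (p : ℚ) ^ (2 * min ((((N.factorization p + 1) / 2 : ℕ)) : ℤ)
            (a p : ℤ) - 2 * (((N.factorization p + 1) / 2 : ℕ) : ℤ)))) *
        ∏ p ∈ N.primeFactors \ A, ((1 : ℚ) / (p + 1) * (p : ℚ) ^ (2 * min
            (((N.factorization p / 2 : ℕ)) : ℤ) (a p : ℤ) - 2 * ((N.factorization p / 2 : ℕ) : ℤ))) := by
    intro A hA
    have hA' : A ⊆ N.primeFactors := Finset.mem_powerset.mp hA
    rw [hr _ (cuspD_dvd N hN hA'), ← Finset.prod_sdiff hA']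
    have c1 : ((cuspD N A : ℕ) : ℚ) = (∏ p ∈ N.primeFactors \ A, (p : ℚ) ^ (N.factorization p / 2)) *
        ∏ p ∈ A, (p : ℚ) ^ ((N.factorization p + 1) / 2) := by
      rw [cuspD]; push_cast; rfl
    rw [c1, mul_div_mul_comm, ← Finset.prod_div_distrib, ← Finset.prod_div_distrib,
      Finset.prod_mul_distrib, Finset.prod_mul_distrib]
    have c2 : ∏ p ∈ N.primeFactors \ A,
        (p : ℚ) ^ (2 * min (((cuspD N A).factorization p : ℕ) : ℤ) (a p : ℤ)
          - (((cuspD N A).factorization p : ℕ) : ℤ)) / (p : ℚ) ^ (N.factorization p / 2)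
        = ∏ p ∈ N.primeFactors \ A, (p : ℚ) ^ (2 * min
            (((N.factorization p / 2 : ℕ)) : ℤ) (a p : ℤ) - 2 * ((N.factorization p / 2 : ℕ) : ℤ)) := by
      refine Finset.prod_congr rfl fun p hp => ?_
      have hp0 : (p : ℚ) ≠ 0 := by
        exact_mod_cast (hP p (Finset.mem_sdiff.mp hp).1).ne_zero
      rw [CuspWidth_factorization_cuspD N hA', if_pos hp, if_neg (Finset.mem_sdiff.mp hp).2,
        add_zero, ← zpow_natCast, ← zpow_sub₀ hp0]
      congr 1
      ring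
    have c3 : ∏ p ∈ A,
        (p : ℚ) ^ (2 * min (((cuspD N A).factorization p : ℕ) : ℤ) (a p : ℤ)
          - (((cuspD N A).factorization p : ℕ) : ℤ)) / (p : ℚ) ^ ((N.factorization p + 1) / 2)
        = ∏ p ∈ A, (p : ℚ) ^ (2 * min ((((N.factorization p + 1) / 2 : ℕ)) : ℤ)
            (a p : ℤ) - 2 * (((N.factorization p + 1) / 2 : ℕ) : ℤ)) := by
      refine Finset.prod_congr rfl fun p hp => ?_
      have hp0 : (p : ℚ) ≠ 0 := by
        exact_mod_cast (hP p (hA' hp)).ne_zero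
      have hnot : p ∉ N.primeFactors \ A := fun h => (Finset.mem_sdiff.mp h).2 hp
      rw [CuspWidth_factorization_cuspD N hA', if_pos hp, if_neg hnot,
        zero_add, ← zpow_natCast, ← zpow_sub₀ hp0]
      congr 1
      ring
    rw [c2, c3]
    ring
  rw [cuspW, Finset.sum_congr rfl hterm, ← Finset.prod_add]
  refine Finset.prod_congr rfl fun p hp => ?_
  have hp0 : (0 : ℚ) < p := by exact_mod_cast (hP p hp).pos
  exact (CuspWidth_local p hp0 _ _).symm

end Fermat.Agent.GAL.Igusa
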