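import Mathlib
import Fermat.Agent.S24.LocalCount
import Fermat.Agent.GAL.FF.IsFF

/-!
# IG-E, geometric part 2: places over `x = 0` and embeddings into Laurent series, any characteristic

Port of `S24/LocalCount.lean` (`prod_eq_norm`, `exists_embedding_of_place`) with `CharZero k`
replaced by `[Algebra.IsSeparable k⟮x⟯ F]`, plus the converse (`every embedding gives a place`).
-/

set_option autoImplicit false
set_option linter.unusedSectionVars false
set_option linter.style.haveILetI false

open IsDedekindDomain AlgebraicCurve Module IntermediateField Polynomial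
open Fermat.Agent.S24

namespace Fermat.Agent.GAL.Igusa

variable {k F : Type*} [Field k] [IsAlgClosed k] [Field F] [Algebra k F]
variable {L : Type*} [Field L]

theorem agree_on_adjoin_sep (x : F) (φ ψ : F →+* LaurentSeries L)
    (hk : ∀ a : k, φ (algebraMap k F a) = ψ (algebraMap k F a)) (hx : φ x = ψ x)
    (z : k⟮x⟯) : φ (z : F) = ψ (z : F) := by
  obtain ⟨z, hz⟩ := z
  show φ z = ψ z
  induction hz using IntermediateField.adjoin_induction with
  | mem y hy => rw [Set.mem_singleton_iff.mp hy]; exact hx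
  | algebraMap r => exact hk r
  | add y z _ _ hy hz => rw [map_add, map_add, hy, hz]
  | inv y _ hy => rw [map_inv₀, map_inv₀, hy]
  | mul y z _ _ hy hz => rw [map_mul, map_mul, hy, hz]

theorem prod_eq_norm_sep (x : F) [FiniteDimensional k⟮x⟯ F] [Algebra.IsSeparable k⟮x⟯ F]
    {X : Type*} [Fintype X] (hcard : Fintype.card X = finrank k⟮x⟯ F)
    (σ : X → F →+* LaurentSeries L) (hσinj : Function.Injective σ)
    (hσk : ∀ i j (a : k), σ i (algebraMap k F a) = σ j (algebraMap k F a))
    (hσx : ∀ i j, σ i x = σ j x) (i₀ : X) (b : F) :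
    σ i₀ ((Algebra.norm k⟮x⟯ b : k⟮x⟯) : F) = ∏ i, σ i b := by
  classical
  letI : Algebra k⟮x⟯ (LaurentSeries L) := ((σ i₀).comp (algebraMap k⟮x⟯ F)).toAlgebra
  let Ebar := AlgebraicClosure (LaurentSeries L)
  let τ : X → (F →ₐ[k⟮x⟯] Ebar) := fun i =>
    { toRingHom := (algebraMap (LaurentSeries L) Ebar).comp (σ i)
      commutes' := by
        intro z
        show algebraMap (LaurentSeries L) Ebar (σ i (z : F)) = _
        rw [agree_on_adjoin_sep x (σ i) (σ i₀) (hσk i i₀) (hσx i i₀) z,
          IsScalarTower.algebraMap_apply k⟮x⟯ (LaurentSeries L) Ebar]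
        rfl }
  have hτinj : Function.Injective τ := by
    intro i j hij
    apply hσinj
    ext1 f
    have h := congrArg (fun t : F →ₐ[k⟮x⟯] Ebar => t f) hij
    exact (algebraMap (LaurentSeries L) Ebar).injective h
  have hτbij : Function.Bijective τ := by
    rw [Fintype.bijective_iff_injective_and_card]
    refine ⟨hτinj, ?_⟩
    rw [hcard, AlgHom.card]
  have h1 := Algebra.norm_eq_prod_embeddings k⟮x⟯ Ebar b
  rw [← hτbij.prod_comp (fun t : F →ₐ[k⟮x⟯] Ebar => t b)] at h1
  apply (algebraMap (LaurentSeries L) Ebar).injective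
  rw [map_prod]
  rw [IsScalarTower.algebraMap_apply k⟮x⟯ (LaurentSeries L) Ebar] at h1
  exact h1

open IntermediateField.algebraAdjoinAdjoin

/-- every zero of `x` is the place of one of the `n = [F : k(x)]` embeddings. -/
theorem exists_embedding_of_place_sep (x : F) (hx : Transcendental k x)
    [FiniteDimensional k⟮x⟯ F] [Algebra.IsSeparable k⟮x⟯ F]
    {ι : Type*} [Fintype ι] (hcard : Fintype.card ι = finrank k⟮x⟯ F)
    (σ : ι → F →+* LaurentSeries L) (hσinj : Function.Injective σ)
    (hσk : ∀ i j (a : k), σ i (algebraMap k F a) = σ j (algebraMap k F a))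
    (hσx : ∀ i j, σ i x = σ j x) (hord : ∀ i, 0 < ordOf (σ i) x)
    (v : Place k F) (hv : 0 < v.ord x) :
    ∃ i, v.toValuationSubring = ringOf (σ i) := by
  classical
  let A := Algebra.adjoin k {x}
  let e : k[X] ≃ₐ[k] A := Polynomial.algEquivOfTranscendental k x hx
  have hPID : IsPrincipalIdealRing A :=
    IsPrincipalIdealRing.of_surjective e.toRingEquiv.toRingHom e.surjective
  let t : A := ⟨x, Algebra.self_mem_adjoin_singleton k x⟩
  have het : e X = t := Polynomial.algEquivOfTranscendental_apply_X k x hx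
  have hx0 : x ≠ 0 := by
    rintro rfl
    exact hx isAlgebraic_zero
  have hspan : Ideal.span {t} = Ideal.map e.toRingEquiv.toRingHom (Ideal.span {X}) := by
    rw [Ideal.map_span, Set.image_singleton]
    congr 2
    exact het.symm
  have hmax : (Ideal.span {t}).IsMaximal := by
    rw [hspan]
    exact Ideal.IsMaximal.map_bijective _ e.bijective
      (PrincipalIdealRing.isMaximal_of_irreducible Polynomial.irreducible_X)
  have : IsDedekindDomain (integralClosure A F) := integralClosure.isDedekindDomain A k⟮x⟯ F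
  have : IsFractionRing (integralClosure A F) F :=
    integralClosure.isFractionRing_of_finite_extension k⟮x⟯ F
  have : Module.Finite A (integralClosure A F) :=
    IsIntegralClosure.finite A k⟮x⟯ F (integralClosure A F)
  let B := integralClosure A F
  have hvA : ∀ a : A, (a : F) ∈ v.toValuationSubring :=
    Fermat.Agent.GAL.FF.adjoin_le_place_sep v x (mem_of_ord_nonneg v hx0 hv.le)
  have hvB : ∀ b : B, algebraMap B F b ∈ v.toValuationSubring := fun b =>
    integral_mem_valuationSubring v.toValuationSubring A hvA b.2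
  have hiA : ∀ i, ∀ a : A, (a : F) ∈ ringOf (σ i) := fun i =>
    adjoin_le_valuationSubring (ringOf (σ i))
      (fun a => by rw [mem_ringOf, ordOf_algebraMap]) x (by rw [mem_ringOf]; exact (hord i).le)
  have hiB : ∀ i, ∀ b : B, algebraMap B F b ∈ ringOf (σ i) := fun i b =>
    integral_mem_valuationSubring (ringOf (σ i)) A (hiA i) b.2
  let P := centre v hvB
  let Q : ι → Ideal B := fun i => (IsLocalRing.maximalIdeal (ringOf (σ i))).comap
    ((algebraMap B F).codRestrict (ringOf (σ i)).toSubring (hiB i))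
  have hQprime : ∀ i, (Q i).IsPrime := fun i => Ideal.comap_isPrime _ _
  have hQmem : ∀ i (b : B), b ∈ Q i ↔ (algebraMap B F b = 0 ∨ 0 < ordOf (σ i) (algebraMap B F b)) := by
    intro i b
    show _ ∈ IsLocalRing.maximalIdeal (ringOf (σ i)) ↔ _
    rw [mem_maximalIdeal_ringOf]
    rfl
  have hcardpos : 0 < Fintype.card ι := by rw [hcard]; exact Module.finrank_pos
  obtain ⟨i₀⟩ : Nonempty ι := Fintype.card_pos_iff.mp hcardpos
  -- Step 1: the centre of `v` is one of the `Q i`
  have hstep1 : ∃ i, P.asIdeal = Q i := by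
    by_contra hcon
    push Not at hcon
    have hnot : ¬ ((P.asIdeal : Set B) ⊆ ⋃ i ∈ ((Finset.univ : Finset ι) : Set ι), (Q i : Set B)) := by
      intro hsub
      obtain ⟨i, -, hi⟩ := (Ideal.subset_union_prime i₀ i₀ (fun i _ _ _ => hQprime i)).mp hsub
      exact hcon i (P.isMaximal.eq_of_le (hQprime i).ne_top hi)
    rw [Set.not_subset] at hnot
    obtain ⟨b, hbP, hbQ⟩ := hnot
    have hbQ' : ∀ i, b ∉ Q i := by
      intro i hi
      apply hbQ
      simp only [Set.mem_iUnion]
      exact ⟨i, by simp, hi⟩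
    have hb0 : ∀ i, algebraMap B F b ≠ 0 ∧ ordOf (σ i) (algebraMap B F b) = 0 := by
      intro i
      have h1 := hbQ' i
      rw [hQmem, not_or] at h1
      have h2 : 0 ≤ ordOf (σ i) (algebraMap B F b) := hiB i b
      exact ⟨h1.1, by omega⟩
    let a : A := Algebra.intNorm A B b
    have hdvd : b ∣ algebraMap A B a := Algebra.dvd_algebraMap_intNorm_self A B b
    have haP : algebraMap A B a ∈ P.asIdeal := Ideal.mem_of_dvd _ hdvd hbP
    have hnorm : algebraMap A k⟮x⟯ a = Algebra.norm k⟮x⟯ (algebraMap B F b) :=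
      Algebra.algebraMap_intNorm (K := k⟮x⟯) (L := F) b
    have hprod := prod_eq_norm_sep x hcard σ hσinj hσk hσx i₀ (algebraMap B F b)
    rw [← hnorm] at hprod
    have hordprod : ordOf (σ i₀) ((algebraMap A k⟮x⟯ a : k⟮x⟯) : F) = 0 := by
      unfold ordOf
      rw [hprod, laurent_order_prod _ _ (fun i _ => map_ne_zero_of_ne (σ i) (hb0 i).1)]
      exact Finset.sum_eq_zero fun i _ => (hb0 i).2
    have hle : Ideal.span {t} ≤ P.asIdeal.comap (algebraMap A B) := by
      rw [Ideal.span_singleton_le_iff_mem, Ideal.mem_comap, mem_centre_iff]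
      right
      exact hv
    have heq : Ideal.span {t} = P.asIdeal.comap (algebraMap A B) :=
      hmax.eq_of_le (Ideal.comap_ne_top _ P.isPrime.ne_top) hle
    have hat : a ∈ Ideal.span {t} := by rw [heq]; exact haP
    obtain ⟨a', ha'⟩ := Ideal.mem_span_singleton'.mp hat
    have haF : ((algebraMap A k⟮x⟯ a : k⟮x⟯) : F) = (a' : F) * x := by
      rw [← ha']; rfl
    rw [haF] at hordprod hprod
    have hne : (a' : F) * x ≠ 0 := by
      intro h0
      rw [h0, map_zero] at hprod
      exact (Finset.prod_ne_zero_iff.mpr fun i _ => map_ne_zero_of_ne (σ i) (hb0 i).1) hprod.symm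
    have ha'0 : (a' : F) ≠ 0 := left_ne_zero_of_mul hne
    rw [ordOf_mul _ ha'0 hx0] at hordprod
    have h3 : 0 ≤ ordOf (σ i₀) (a' : F) := hiA i₀ a'
    have h4 := hord i₀
    omega
  obtain ⟨i, hi⟩ := hstep1
  refine ⟨i, ?_⟩
  refine ValuationSubring.eq_of_le_of_ne_top _ ?_ ?_
  · intro f hf
    have hc := ofHeightOneSpectrum_centre v hvB
    rw [← hc, Place.ofHeightOneSpectrum_toValuationSubring,
      Valuation.mem_valuationSubring_iff] at hf
    obtain ⟨n, d, hnd⟩ := HeightOneSpectrum.exists_primeCompl_mul_eq_of_integer _ f hf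
    have hd : (d : B) ∉ Q i := by
      rw [← hi]; exact d.2
    rw [hQmem, not_or] at hd
    have hd2 : 0 ≤ ordOf (σ i) (algebraMap B F d) := hiB i d
    have hf' : f = algebraMap B F n * (algebraMap B F d)⁻¹ := by
      rw [← hnd, mul_assoc, mul_inv_cancel₀ hd.1, mul_one]
    rw [hf']
    refine mul_mem (hiB i n) ?_
    rw [mem_ringOf, ordOf_inv _ hd.1]
    omega
  · intro htop
    have h1 : x⁻¹ ∈ ringOf (σ i) := by rw [htop]; exact ValuationSubring.mem_top _
    rw [mem_ringOf, ordOf_inv _ hx0] at h1
    have h4 := hord i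
    omega

/-- conversely every embedding in which `x` has positive order defines a zero of `x`. -/
theorem exists_place_of_embedding_sep (x : F) (hx : Transcendental k x)
    [FiniteDimensional k⟮x⟯ F] [Algebra.IsSeparable k⟮x⟯ F]
    (φ : F →+* LaurentSeries L) (hord : 0 < ordOf φ x) :
    ∃ v : Place k F, 0 < v.ord x ∧ v.toValuationSubring = ringOf φ := by
  classical
  let A := Algebra.adjoin k {x}
  let e : k[X] ≃ₐ[k] A := Polynomial.algEquivOfTranscendental k x hx
  have hPID : IsPrincipalIdealRing A :=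
    IsPrincipalIdealRing.of_surjective e.toRingEquiv.toRingHom e.surjective
  have hx0 : x ≠ 0 := by
    rintro rfl
    exact hx isAlgebraic_zero
  have : IsDedekindDomain (integralClosure A F) := integralClosure.isDedekindDomain A k⟮x⟯ F
  have : IsFractionRing (integralClosure A F) F :=
    integralClosure.isFractionRing_of_finite_extension k⟮x⟯ F
  let B := integralClosure A F
  have hiA : ∀ a : A, (a : F) ∈ ringOf φ :=
    adjoin_le_valuationSubring (ringOf φ)
      (fun a => by rw [mem_ringOf, ordOf_algebraMap]) x (by rw [mem_ringOf]; exact hord.le)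
  have hiB : ∀ b : B, algebraMap B F b ∈ ringOf φ := fun b =>
    integral_mem_valuationSubring (ringOf φ) A hiA b.2
  let Q : Ideal B := (IsLocalRing.maximalIdeal (ringOf φ)).comap
    ((algebraMap B F).codRestrict (ringOf φ).toSubring hiB)
  have hQprime : Q.IsPrime := Ideal.comap_isPrime _ _
  have hQmem : ∀ (b : B), b ∈ Q ↔ (algebraMap B F b = 0 ∨ 0 < ordOf φ (algebraMap B F b)) := by
    intro b
    show _ ∈ IsLocalRing.maximalIdeal (ringOf φ) ↔ _
    rw [mem_maximalIdeal_ringOf]
    rfl
  let t : A := ⟨x, Algebra.self_mem_adjoin_singleton k x⟩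
  let tB : B := algebraMap A B t
  have htB : algebraMap B F tB = x := rfl
  have htQ : tB ∈ Q := by
    rw [hQmem, htB]; exact Or.inr hord
  have htB0 : tB ≠ 0 := by
    intro h
    apply hx0
    rw [← htB, h, map_zero]
  have hQbot : Q ≠ ⊥ := by
    intro h
    rw [h, Ideal.mem_bot] at htQ
    exact htB0 htQ
  let w : HeightOneSpectrum B := ⟨Q, hQprime, hQbot⟩
  let v : Place k F := Place.ofHeightOneSpectrum (K := k) (F := F) w
  have hcw : centre v (algebraMap_mem_ofHeightOneSpectrum w) = w := centre_ofHeightOneSpectrum w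
  refine ⟨v, ?_, ?_⟩
  · have h1 : tB ∈ (centre v (algebraMap_mem_ofHeightOneSpectrum w)).asIdeal := by
      rw [hcw]; exact htQ
    rw [mem_centre_iff] at h1
    rcases h1 with h1 | h1
    · exact absurd h1 htB0
    · exact h1
  · refine ValuationSubring.eq_of_le_of_ne_top _ ?_ ?_
    · intro f hf
      rw [Place.ofHeightOneSpectrum_toValuationSubring,
        Valuation.mem_valuationSubring_iff] at hf
      obtain ⟨n, d, hnd⟩ := HeightOneSpectrum.exists_primeCompl_mul_eq_of_integer _ f hf
      have hd : (d : B) ∉ Q := d.2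
      rw [hQmem, not_or] at hd
      have hd2 : 0 ≤ ordOf φ (algebraMap B F d) := hiB d
      have hf' : f = algebraMap B F n * (algebraMap B F d)⁻¹ := by
        rw [← hnd, mul_assoc, mul_inv_cancel₀ hd.1, mul_one]
      rw [hf']
      refine mul_mem (hiB n) ?_
      rw [mem_ringOf, ordOf_inv _ hd.1]
      omega
    · intro htop
      have h1 : x⁻¹ ∈ ringOf φ := by rw [htop]; exact ValuationSubring.mem_top _
      rw [mem_ringOf, ordOf_inv _ hx0] at h1
      omega

/-- two embeddings with the same valuation ring and the same order of `x` have the same order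
function. -/
theorem ordOf_eq_of_ringOf_eq (x : F) (hx : Transcendental k x)
    [FiniteDimensional k⟮x⟯ F] [Algebra.IsSeparable k⟮x⟯ F]
    (φ ψ : F →+* LaurentSeries L) (hord : 0 < ordOf φ x) (hxx : ordOf φ x = ordOf ψ x)
    (h : ringOf φ = ringOf ψ) (f : F) (hf : f ≠ 0) : ordOf φ f = ordOf ψ f := by
  obtain ⟨v, hv, hvr⟩ := exists_place_of_embedding_sep x hx φ hord
  have hx0 : x ≠ 0 := by
    rintro rfl
    exact hx isAlgebraic_zero
  obtain ⟨m, _, hm⟩ := exists_mul_ord_of_hom v (ordOf φ)
    (fun f g hf hg => ordOf_mul φ hf hg) (fun f _ => by rw [hvr, mem_ringOf])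
  obtain ⟨m', _, hm'⟩ := exists_mul_ord_of_hom v (ordOf ψ)
    (fun f g hf hg => ordOf_mul ψ hf hg) (fun f _ => by rw [hvr, h, mem_ringOf])
  have h1 := hm x hx0
  have h2 := hm' x hx0
  rw [hxx, h2] at h1
  have hmm : m' = m := mul_right_cancel₀ (ne_of_gt hv) h1
  rw [hm f hf, hm' f hf, hmm]

end Fermat.Agent.GAL.Igusa
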