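import Fermat.Agent.GAL.Igusa.CuspEmb
import Fermat.Agent.GAL.Igusa.CuspBridge
import Fermat.Agent.GAL.Igusa.LocalSep
import Fermat.Agent.GAL.Igusa.CuspWidth
import Fermat.Agent.GAL.Igusa.CuspNum

/-!
# IG-E: the number of cusps of `X₀(N)` in characteristic prime to `N` is at most `cuspCount N`
-/

set_option autoImplicit false

noncomputable section

namespace Fermat.Agent.GAL.Igusa

open Fermat.Agent.S28 Fermat.Agent.S24 ModularCurve IntermediateField Module AlgebraicCurve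

/-- double counting. -/
theorem card_le_sum_one_div {ι P : Type*} [Fintype ι] [DecidableEq P] (Φ : ι → P)
    (Z : Finset P) (hZ : ∀ z ∈ Z, ∃ i, Φ i = z) (h : ι → ℕ) (hpos : ∀ i, 0 < h i)
    (hfib : ∀ i, h i ≤ (Finset.univ.filter fun i' => Φ i' = Φ i).card) :
    (Z.card : ℚ) ≤ ∑ i, (1 : ℚ) / (h i) := by
  classical
  have h1 : ∀ i, (1 : ℚ) / ((Finset.univ.filter fun i' => Φ i' = Φ i).card : ℚ) ≤ 1 / (h i) := by
    intro i
    have hp : (0 : ℚ) < h i := by exact_mod_cast hpos i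
    exact one_div_le_one_div_of_le hp (by exact_mod_cast hfib i)
  refine le_trans ?_ (Finset.sum_le_sum fun i _ => h1 i)
  have h2 : ∑ i ∈ Finset.univ.filter (fun i => Φ i ∈ Z),
      (1 : ℚ) / ((Finset.univ.filter fun i' => Φ i' = Φ i).card : ℚ) ≤
      ∑ i, (1 : ℚ) / ((Finset.univ.filter fun i' => Φ i' = Φ i).card : ℚ) :=
    Finset.sum_le_sum_of_subset_of_nonneg (Finset.filter_subset _ _)
      (fun i _ _ => by positivity)
  refine le_trans (le_of_eq ?_) h2
  rw [← Finset.sum_fiberwise_of_maps_to (s := Finset.univ.filter (fun i => Φ i ∈ Z)) (t := Z)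
    (g := Φ) (fun i hi => (Finset.mem_filter.mp hi).2)]
  rw [Finset.card_eq_sum_ones, Nat.cast_sum]
  refine Finset.sum_congr rfl fun z hz => ?_
  have hset : (Finset.univ.filter (fun i => Φ i ∈ Z)).filter (fun i => Φ i = z) =
      Finset.univ.filter (fun i => Φ i = z) := by
    ext i
    simp only [Finset.mem_filter, Finset.mem_univ, true_and]
    constructor
    · exact fun hh => hh.2
    · exact fun hh => ⟨hh ▸ hz, hh⟩
  rw [hset]
  have hc : ∀ i ∈ Finset.univ.filter (fun i => Φ i = z),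
      (1 : ℚ) / ((Finset.univ.filter fun i' => Φ i' = Φ i).card : ℚ) =
        1 / ((Finset.univ.filter fun i' => Φ i' = z).card : ℚ) := by
    intro i hi
    rw [(Finset.mem_filter.mp hi).2]
  rw [Finset.sum_congr rfl hc, Finset.sum_const, nsmul_eq_mul]
  obtain ⟨i, hi⟩ := hZ z hz
  have hne : ((Finset.univ.filter fun i' => Φ i' = z).card : ℚ) ≠ 0 := by
    have : 0 < (Finset.univ.filter fun i' => Φ i' = z).card :=
      Finset.card_pos.mpr ⟨i, by simp [hi]⟩
    exact_mod_cast this.ne'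
  rw [Nat.cast_one, mul_one_div, div_self hne]

/-- if `z q` is an integer then the denominator of `q` divides `z`. -/
theorem den_dvd_of_mul_eq_int (q : ℚ) (z w : ℤ) (h : (z : ℚ) * q = w) : (q.den : ℤ) ∣ z := by
  have h1 : (z : ℚ) * q.num = w * q.den := by
    have hd : (q.den : ℚ) ≠ 0 := by exact_mod_cast q.den_ne_zero
    have hq : q * q.den = q.num := Rat.mul_den_eq_num q
    rw [← h, ← hq]
    ring
  have h2 : z * q.num = w * q.den := by exact_mod_cast h1
  have hcop : IsCoprime (q.den : ℤ) q.num := by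
    rw [Int.isCoprime_iff_gcd_eq_one, Int.gcd_comm]
    exact q.reduced
  exact hcop.dvd_of_dvd_mul_right ⟨w, by rw [h2]; ring⟩

section Main

variable {k : Type} [Field k] {N : ℕ} [NeZero N]

/-- the family of embeddings of the Prelude field into Laurent series in `t = q^{1/N}`. -/
def phi (hN : (N : k) ≠ 0) (σ : ↥(FF k N) →ₐ[↥(EE k)] OmBar k) :
    EC k N →+* LaurentSeries (AlgebraicClosure k) :=
  (tau hN σ).comp (incl k N : EC k N ≃+* ↥(FF k N)).toRingHom

theorem phi_apply (hN : (N : k) ≠ 0) (σ : ↥(FF k N) →ₐ[↥(EE k)] OmBar k) (y : EC k N) :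
    phi hN σ y = tau hN σ (incl k N y) := rfl

theorem phi_injective (hN : (N : k) ≠ 0) : Function.Injective (phi (k := k) (N := N) hN) := by
  intro σ σ' h
  apply tau_injective hN
  ext1 y
  have := congrArg (fun f : EC k N →+* LaurentSeries (AlgebraicClosure k) =>
    f ((incl k N).symm y)) h
  simpa [phi_apply] using this

theorem phi_of_mem_EE (hN : (N : k) ≠ 0) (σ : ↥(FF k N) →ₐ[↥(EE k)] OmBar k) (y : EC k N)
    (hy : y.1 ∈ EE k) : phi hN σ y = baseL k N y.1 := by
  have h : incl k N y = algebraMap ↥(EE k) ↥(FF k N) ⟨y.1, hy⟩ := by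
    apply Subtype.ext
    have h1 : ((algebraMap ↥(EE k) ↥(FF k N) ⟨y.1, hy⟩ : ↥(FF k N)) : LaurentSeries k) = y.1 := by
      rw [IntermediateField.coe_algebraMap_apply, IntermediateField.algebraMap_apply]
    exact (incl_coe k N y).trans h1.symm
  rw [phi_apply, h, tau_algebraMap]

theorem phi_algebraMap (hN : (N : k) ≠ 0) (σ : ↥(FF k N) →ₐ[↥(EE k)] OmBar k) (a : k) :
    phi hN σ (algebraMap k (EC k N) a) = baseL k N (algebraMap k (LaurentSeries k) a) :=
  phi_of_mem_EE hN σ _ ((EE k).algebraMap_mem a)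

theorem phi_jE (hN : (N : k) ≠ 0) (σ : ↥(FF k N) →ₐ[↥(EE k)] OmBar k) :
    phi hN σ (jE k N) = baseL k N (jqModC k) :=
  phi_of_mem_EE hN σ _ (mem_adjoin_simple_self k (jqModC k))

/-- `N` as a positive natural number. -/
def pnatN (N : ℕ) [NeZero N] : ℕ+ := ⟨N, NeZero.pos N⟩

theorem baseL_jqModC : baseL k N (jqModC k) =
    subL k 1 (pnatN N) (jqModC (AlgebraicClosure k)) := by
  have h1 : twist (1 : (AlgebraicClosure k)ˣ) (jqModC (AlgebraicClosure k)) =
      jqModC (AlgebraicClosure k) := by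
    ext n
    simp
  simp only [baseL, subL, RingHom.comp_apply, coeffMap_jqModC, h1]
  rfl

theorem ordOf_phi_jE (hN : (N : k) ≠ 0) (σ : ↥(FF k N) →ₐ[↥(EE k)] OmBar k) :
    ordOf (phi hN σ) (jE k N) = -(N : ℤ) := by
  rw [ordOf, phi_jE, baseL_jqModC, subL_jqModC_order]
  rfl

theorem jE_ne_zero : jE k N ≠ 0 := by
  intro h
  exact (transcendental_jE k N) (h ▸ isAlgebraic_zero)

theorem ordOf_phi_jE_inv (hN : (N : k) ≠ 0) (σ : ↥(FF k N) →ₐ[↥(EE k)] OmBar k) :
    ordOf (phi hN σ) (jE k N)⁻¹ = (N : ℤ) := by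
  rw [ordOf_inv _ jE_ne_zero, ordOf_phi_jE, neg_neg]

theorem phi_jEd (hN : (N : k) ≠ 0) (σ : ↥(FF k N) →ₐ[↥(EE k)] OmBar k) {d : ℕ} (hd : d ∣ N)
    (m : ℕ+) (hm : (m : ℚ) = (T σ d).r * N) :
    phi hN σ (jEd k N d) = subL k (T σ d).c m (jqModC (AlgebraicClosure k)) := by
  rw [phi_apply, incl_jEd k N hd, tau_jF hN σ hd m hm]

omit [NeZero N] in
theorem ringOf_twist_comp (z : (AlgebraicClosure k)ˣ)
    (φ : EC k N →+* LaurentSeries (AlgebraicClosure k)) :
    ringOf ((twist z).comp φ) = ringOf φ := by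
  ext f
  rw [mem_ringOf, mem_ringOf, ordOf, ordOf, RingHom.comp_apply, order_twist]

/-- the fibre of `σ ↦ ringOf (phi σ)` through `σ` has at least `den (r_N σ)` elements. -/
theorem den_le_card_fibre (hN : (N : k) ≠ 0) [Fintype (↥(FF k N) →ₐ[↥(EE k)] OmBar k)]
    [DecidableEq (ValuationSubring (EC k N))]
    (σ : ↥(FF k N) →ₐ[↥(EE k)] OmBar k) :
    (T σ N).r.den ≤ (Finset.univ.filter fun σ' : ↥(FF k N) →ₐ[↥(EE k)] OmBar k =>
      ringOf (phi hN σ') = ringOf (phi hN σ)).card := by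
  letI : DecidableEq (↥(FF k N) →ₐ[↥(EE k)] OmBar k) := Classical.decEq _
  obtain ⟨ζ, hζ⟩ := exists_prim (K := AlgebraicClosure k) (p := N)
    (natCast_ne_zero_of_dvd k N hN dvd_rfl)
  obtain ⟨m, hm⟩ := exists_pnat_T_r hN σ (dvd_refl N)
  have hz : ∀ s : ℕ, (ζ ^ s) ^ N = 1 := fun s => by
    rw [← pow_mul, mul_comm, pow_mul, hζ.pow_eq_one, one_pow]
  choose ρ hρ using fun s : ℕ => exists_rot hN (ζ ^ s) (hz s) σ
  have hsub : (Finset.range (T σ N).r.den).image ρ ⊆
      Finset.univ.filter fun σ' : ↥(FF k N) →ₐ[↥(EE k)] OmBar k =>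
        ringOf (phi hN σ') = ringOf (phi hN σ) := by
    intro σ' hσ'
    obtain ⟨s, -, rfl⟩ := Finset.mem_image.mp hσ'
    rw [Finset.mem_filter]
    refine ⟨Finset.mem_univ _, ?_⟩
    have : phi hN (ρ s) = (twist (ζ ^ s)).comp (phi hN σ) := by
      rw [phi, hρ s]; rfl
    rw [this, ringOf_twist_comp]
  have hinj : Set.InjOn ρ (Finset.range (T σ N).r.den : Set ℕ) := by
    intro s hs s' hs' hss
    have hs1 : s < (T σ N).r.den := Finset.mem_range.mp hs
    have hs2 : s' < (T σ N).r.den := Finset.mem_range.mp hs'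
    have h1 : twist (ζ ^ s) (tau hN σ (jF k N N)) = twist (ζ ^ s') (tau hN σ (jF k N N)) := by
      have e1 := congrArg (fun f => f (jF k N N)) (hρ s)
      have e2 := congrArg (fun f => f (jF k N N)) (hρ s')
      simp only [RingHom.comp_apply] at e1 e2
      rw [← e1, ← e2, hss]
    rw [tau_jF hN σ (dvd_refl N) m hm] at h1
    have h2 := congrArg (fun y : LaurentSeries (AlgebraicClosure k) => y.coeff (-(m : ℤ))) h1
    simp only [twist_coeff, subL_jqModC_coeff] at h2
    have h3 : ((ζ ^ s) ^ (-(m : ℤ)) : (AlgebraicClosure k)ˣ) = (ζ ^ s') ^ (-(m : ℤ)) := by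
      apply Units.ext
      exact mul_right_cancel₀ (Units.ne_zero _) h2
    have h4 : ζ ^ (((s : ℤ) - s') * (m : ℤ)) = 1 := by
      have e : ∀ a : ℕ, (ζ ^ a) ^ (-(m : ℤ)) = ζ ^ (-((a : ℤ) * (m : ℤ))) := by
        intro a
        rw [← zpow_natCast ζ a, ← zpow_mul, mul_neg]
      rw [e, e] at h3
      have : ζ ^ (((s : ℤ) - s') * (m : ℤ)) =
          ζ ^ (-((s' : ℤ) * (m : ℤ))) * (ζ ^ (-((s : ℤ) * (m : ℤ))))⁻¹ := by
        rw [← zpow_neg, ← zpow_add]
        congr 1
        ring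
      rw [this, h3, mul_inv_cancel]
    obtain ⟨w, hw⟩ := (hζ.zpow_eq_one_iff_dvd _).mp h4
    have hN0 : (N : ℚ) ≠ 0 := by exact_mod_cast NeZero.ne N
    have h5 : (((s : ℤ) - s' : ℤ) : ℚ) * (T σ N).r = (w : ℤ) := by
      have hr : (T σ N).r = (m : ℚ) / N := by
        rw [hm]; field_simp
      have hw' : (((s : ℤ) - s' : ℤ) : ℚ) * ((m : ℕ) : ℚ) = (N : ℚ) * w := by
        exact_mod_cast hw
      rw [hr, mul_div_assoc', hw']
      field_simp
    have h6 := den_dvd_of_mul_eq_int _ _ _ h5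
    have h7 : (s : ℤ) - s' = 0 := by
      apply Int.eq_zero_of_abs_lt_dvd h6
      rw [abs_lt]
      constructor <;> omega
    omega
  calc (T σ N).r.den = ((Finset.range (T σ N).r.den).image ρ).card := by
        rw [Finset.card_image_of_injOn hinj, Finset.card_range]
    _ ≤ _ := Finset.card_le_card hsub

/-- `∑_σ 1 / width(σ) = cuspCount N`. -/
theorem sum_one_div_den (hN : (N : k) ≠ 0) [FiniteDimensional ↥(EE k) ↥(FF k N)]
    [Algebra.IsSeparable ↥(EE k) ↥(FF k N)] :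
    ∑ σ : ↥(FF k N) →ₐ[↥(EE k)] OmBar k, (1 : ℚ) / ((T σ N).r.den : ℚ) = cuspCount N := by
  have hN0 : N ≠ 0 := NeZero.ne N
  have h1 : ∀ σ : ↥(FF k N) →ₐ[↥(EE k)] OmBar k,
      (1 : ℚ) / ((T σ N).r.den : ℚ) = cuspW N (fun d => (T σ d).r) := fun σ =>
    one_div_den_eq_cuspW N hN0 (fun d => (T σ d).r) (T_r_one hB hN σ)
      (fun d _ => (T σ d).pos.ne') (T_r_step hB hN σ) (T_r_noback hB hN σ)
  rw [Finset.sum_congr rfl fun σ _ => h1 σ, cuspW_sum,
    cuspW_congr N hN0 (fun d hd => sum_T_r hB hN hd), cuspW_const]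
  apply mul_cuspW_one_eq_cuspCount N hN0
  rw [AlgHom.card (EE k) (FF k N) (OmBar k)]
  exact finrank_mul_altSum hB hN

/-- **IG-E (E1).** In every characteristic prime to `N`, the function field of `X₀(N)` has at most
`cuspCount N` places over `j = ∞`. -/
theorem card_poles_le [IsAlgClosed k] (hN : (N : k) ≠ 0) (Z : Finset (Place k (EC k N)))
    (hZ : ∀ v ∈ Z, v.ord (jE k N) < 0) : Z.card ≤ cuspCount N := by
  classical
  have := finiteDimensional_FF k N hB hN
  have := isSeparable_FF k N hB hN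
  have := finiteDimensional_jE (k := k) (N := N) hB hN
  have := isSeparable_jE (k := k) (N := N) hB hN
  have htr : Transcendental k (jE k N)⁻¹ := transcendental_inv (transcendental_jE k N)
  have hcard : Fintype.card (↥(FF k N) →ₐ[↥(EE k)] OmBar k) =
      finrank k⟮(jE k N)⁻¹⟯ (EC k N) := by
    rw [finrank_jE hB hN, AlgHom.card]
  have hex : ∀ V ∈ Z.image Place.toValuationSubring,
      ∃ σ : ↥(FF k N) →ₐ[↥(EE k)] OmBar k, ringOf (phi hN σ) = V := by
    intro V hV
    obtain ⟨v, hv, rfl⟩ := Finset.mem_image.mp hV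
    obtain ⟨σ, hσ⟩ := exists_embedding_of_place_sep (jE k N)⁻¹ htr hcard (phi hN)
      (phi_injective hN) (fun σ σ' a => by rw [phi_algebraMap, phi_algebraMap])
      (fun σ σ' => by rw [map_inv₀, map_inv₀, phi_jE, phi_jE])
      (fun σ => by rw [ordOf_phi_jE_inv]; exact_mod_cast NeZero.pos N) v
      (by rw [v.ord_inv]; have := hZ v hv; omega)
    exact ⟨σ, hσ.symm⟩
  have hmain := card_le_sum_one_div (fun σ : ↥(FF k N) →ₐ[↥(EE k)] OmBar k => ringOf (phi hN σ))
    (Z.image Place.toValuationSubring) hex (fun σ => (T σ N).r.den) (fun σ => (T σ N).r.den_pos)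
    (fun σ => den_le_card_fibre hN σ)
  rw [sum_one_div_den hN, Finset.card_image_of_injective _ (fun v w h => Place.ext h)] at hmain
  exact_mod_cast hmain

end Main

end Fermat.Agent.GAL.Igusa
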