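import Fermat.Agent.GAL.Igusa.CuspEmb
import Fermat.Agent.GAL.Igusa.CuspBridge
import Fermat.Agent.GAL.Igusa.CuspComb
import Fermat.Agent.GAL.Igusa.CuspWidth

/-!
# GAL-IGUSA leaves O3, O4: the rotation permutation of the embeddings and its periods
-/

set_option autoImplicit false

noncomputable section

namespace Fermat.Agent.GAL.Igusa

open Fermat.Agent.S28 ModularCurve IntermediateField Module

variable {k : Type} [Field k] {N : ℕ} [NeZero N]

/-- The set of conjugate embeddings. -/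
abbrev Emb (k : Type) [Field k] (N : ℕ) : Type := ↥(FF k N) →ₐ[↥(EE k)] OmBar k

theorem OrbitFam_twist_twist {Λ : Type*} [Field Λ] (a b : Λˣ) (x : LaurentSeries Λ) :
    twist a (twist b x) = twist (a * b) x := by
  ext n
  rw [twist_coeff, twist_coeff, twist_coeff, mul_zpow, Units.val_mul, mul_assoc]

theorem OrbitFam_twist_one {Λ : Type*} [Field Λ] (x : LaurentSeries Λ) :
    twist (1 : Λˣ) x = x := by
  ext n
  rw [twist_coeff, one_zpow, Units.val_one, one_mul]

/-- **Leaf O3a.** the rotation `t ↦ z t` as a permutation of the embeddings.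
PROOF. `ρ σ := (exists_rot hN z hz σ).choose`. Inverse: the same for `z⁻¹` (`twist z⁻¹ ∘ twist z = id`:
`twist_coeff`), using `tau_injective`. -/
theorem exists_rotPerm (hN : (N : k) ≠ 0) (z : (AlgebraicClosure k)ˣ) (hz : z ^ N = 1) :
    ∃ ρ : Equiv.Perm (Emb k N), ∀ σ, tau hN (ρ σ) = (twist z).comp (tau hN σ) := by
  have hz' : z⁻¹ ^ N = 1 := by rw [inv_pow, hz, inv_one]
  choose f hf using exists_rot hN z hz
  choose g hg using exists_rot hN z⁻¹ hz'
  refine ⟨⟨f, g, fun σ => ?_, fun σ => ?_⟩, hf⟩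
  · apply tau_injective hN
    rw [hg, hf]
    ext1 x
    simp only [RingHom.comp_apply]
    rw [OrbitFam_twist_twist, inv_mul_cancel, OrbitFam_twist_one]
  · apply tau_injective hN
    rw [hf, hg]
    ext1 x
    simp only [RingHom.comp_apply]
    rw [OrbitFam_twist_twist, mul_inv_cancel, OrbitFam_twist_one]

/-- the rotation permutation. -/
def rotPerm (hN : (N : k) ≠ 0) (z : (AlgebraicClosure k)ˣ) (hz : z ^ N = 1) : Equiv.Perm (Emb k N) :=
  (exists_rotPerm hN z hz).choose

theorem tau_rotPerm (hN : (N : k) ≠ 0) (z : (AlgebraicClosure k)ˣ) (hz : z ^ N = 1) (σ : Emb k N) :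
    tau hN (rotPerm hN z hz σ) = (twist z).comp (tau hN σ) :=
  (exists_rotPerm hN z hz).choose_spec σ

/-- **Leaf O3b.** iterates. PROOF: induction on `n`, `tau_rotPerm`, `twist (z^n) = (twist z)^n` on coefficients. -/
theorem tau_rotPerm_pow (hN : (N : k) ≠ 0) (z : (AlgebraicClosure k)ˣ) (hz : z ^ N = 1) (n : ℕ)
    (σ : Emb k N) : tau hN ((rotPerm hN z hz ^ n) σ) = (twist (z ^ n)).comp (tau hN σ) := by
  induction n with
  | zero =>
    ext1 x
    simp only [pow_zero, Equiv.Perm.one_apply, RingHom.comp_apply]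
    rw [OrbitFam_twist_one]
  | succ n ih =>
    rw [pow_succ', Equiv.Perm.mul_apply, tau_rotPerm, ih]
    ext1 x
    simp only [RingHom.comp_apply]
    rw [OrbitFam_twist_twist, pow_succ']

/-- **Leaf O3c.** fixed points of a rotation: `twist w ∘ τ_σ = τ_σ` iff `w ^ (N r_d) = 1` for all `d ∣ N`.
PROOF. (→) apply to `jF k N d`: `tau_jF` gives `subL c m j` with `m = N r_d`; compare the coefficients at `-m`
(`subL_jqModC_coeff`, `twist_coeff`): `w^(-m) c⁻¹ = c⁻¹`. (←) both sides are ring homs `FF k N → L((t))` which agree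
on `EE k` (`tau_algebraMap`, `CuspEmb_twist_qExpand`, needs `w^N = 1`: the case `d = 1`, `T_r_one`) and on the generators
`jF k N d`: `twist w (subL c m x) = subL c m x` if `w^m = 1` (coefficients: `qExpand_coeff_mul`,
`qExpand_coeff_of_not_dvd`). Conclude as in `exists_rot`/`eq_of_T`: build the `AlgHom` `σ'` of `exists_rot` for `w`, show
`T σ' d = T σ d` (`T_unique`) and use `eq_of_T`, `tau_injective`. -/
theorem twist_comp_tau_eq_iff (hN : (N : k) ≠ 0) (w : (AlgebraicClosure k)ˣ) (hw : w ^ N = 1)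
    (σ : Emb k N) :
    (twist w).comp (tau hN σ) = tau hN σ ↔
      ∀ d, d ∣ N → ∀ m : ℕ, (m : ℚ) = (T σ d).r * N → w ^ m = 1 := by
  have hNpos : (0 : ℚ) < N := by exact_mod_cast NeZero.pos N
  have hmpos : ∀ d (m : ℕ), (m : ℚ) = (T σ d).r * N → 0 < m := by
    intro d m hm
    have : (0 : ℚ) < m := by rw [hm]; exact mul_pos (T σ d).pos hNpos
    exact_mod_cast this
  constructor
  · intro h d hd m hm
    have hm0 := hmpos d m hm
    obtain ⟨m', hm'⟩ : ∃ m' : ℕ+, (m' : ℕ) = m := ⟨⟨m, hm0⟩, rfl⟩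
    have h1 := tau_jF hN σ hd m' (by rw [hm']; exact hm)
    have h2 : twist w (tau hN σ (jF k N d)) = tau hN σ (jF k N d) := by
      conv_rhs => rw [← h]
      rfl
    rw [h1] at h2
    have h3 := congrArg (fun y => y.coeff (-((m' : ℕ) : ℤ))) h2
    simp only [twist_coeff] at h3
    rw [subL_jqModC_coeff] at h3
    have h4 : ((w ^ (-((m' : ℕ) : ℤ)) : (AlgebraicClosure k)ˣ) : AlgebraicClosure k)
        = 1 := mul_right_cancel₀ (Units.ne_zero _) (h3.trans (one_mul _).symm)
    have h5 : w ^ (-((m' : ℕ) : ℤ)) = 1 := Units.ext h4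
    rw [zpow_neg, inv_eq_one, zpow_natCast, hm'] at h5
    exact h5
  · intro h
    obtain ⟨σ', hσ'⟩ := exists_rot hN w hw σ
    have hT : ∀ d, d ∣ N → T σ' d = T σ d := by
      intro d hd
      obtain ⟨m, hm⟩ := exists_pnat_T_r hN σ hd
      have hwm : w ^ (m : ℕ) = 1 := h d hd m hm
      apply T_unique hB hN σ' hd
      rw [← T_spec hB hN σ hd, tau_spec hN σ', tau_spec hN σ, hσ', RingHom.comp_apply,
        tau_jF hN σ hd m hm, subL, RingHom.comp_apply, CuspEmb_twist_qExpand w hwm]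
    rw [← hσ', eq_of_T hN σ' σ hT]

/-- **Leaf O4a.** In an admissible chain the denominators of all `r d` divide the denominator of `r N`.
PROOF. `exists_chain_type`: `r d = ∏ p ^ (2 min(v_p d, a_p) - v_p d)`. It is enough to show that `(r N).den * r d` is an
integer; `(r N).den = ∏ p ^ (e_p - 2 a_p)` (truncated subtraction; `CuspWidth_den` in `CuspWidth.lean`), and
`(e_p - 2 a_p)₊ + 2 min(v, a_p) - v ≥ 0` for `v ≤ e_p` (if `v ≤ a_p`: `2v - v ≥ 0`; else `2 a_p - v ≥ 2 a_p - e_p`). -/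
theorem den_dvd_den (N : ℕ) (hN : N ≠ 0) (r : ℕ → ℚ) (h1 : r 1 = 1)
    (hne : ∀ d, d ∣ N → r d ≠ 0)
    (hstep : ∀ p d : ℕ, p.Prime → p * d ∣ N → r (p * d) = p * r d ∨ p * r (p * d) = r d)
    (hnoback : ∀ p d : ℕ, p.Prime → p * (p * d) ∣ N → p * r (p * d) = r d →
      p * r (p * (p * d)) = r (p * d)) {d : ℕ} (hd : d ∣ N) :
    (r d).den ∣ (r N).den := by
  obtain ⟨a, ha, hr⟩ := exists_chain_type N hN r h1 hne hstep hnoback
  have hP : ∀ q ∈ N.primeFactors, q.Prime := fun q hq => Nat.prime_of_mem_primeFactors hq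
  have hd0 : d ≠ 0 := by
    rintro rfl
    exact hN (zero_dvd_iff.mp hd)
  have key : ∀ d', d' ∣ N → (r d').den
      = ∏ p ∈ N.primeFactors, p ^ (d'.factorization p - 2 * min (d'.factorization p) (a p)) := by
    intro d' hd'
    have h2 := CuspWidth_den N.primeFactors hP (fun p => d'.factorization p)
      (fun p => min (d'.factorization p) (a p))
    have h3 : r d' = ∏ p ∈ N.primeFactors, (p : ℚ) ^
        (2 * ((min (d'.factorization p) (a p) : ℕ) : ℤ) - (d'.factorization p : ℤ)) := by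
      rw [hr d' hd']
      refine Finset.prod_congr rfl fun p _ => ?_
      rw [Nat.cast_min]
    rw [← h3] at h2
    have h4 : ((r d').den : ℚ) = ((∏ p ∈ N.primeFactors,
        p ^ (d'.factorization p - 2 * min (d'.factorization p) (a p)) : ℕ) : ℚ) := by
      rw [h2]
      push_cast
      rfl
    exact_mod_cast h4
  rw [key d hd, key N dvd_rfl]
  refine Finset.prod_dvd_prod_of_dvd _ _ fun p _ => pow_dvd_pow p ?_
  have h5 : d.factorization p ≤ N.factorization p := (Nat.factorization_le_iff_dvd hd0 hN).mpr hd p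
  have h6 := ha p
  rcases le_total (d.factorization p) (a p) with h7 | h7
  · rw [min_eq_left h7]
    omega
  · rw [min_eq_right h7, min_eq_right h6]
    omega

/-- `n q` is an integer iff the denominator of `q` divides `n`. -/
theorem OrbitFam_den_dvd_iff (q : ℚ) (n : ℕ) : q.den ∣ n ↔ ∃ t : ℤ, (n : ℚ) * q = t := by
  constructor
  · rintro ⟨s, rfl⟩
    refine ⟨s * q.num, ?_⟩
    have := Rat.den_mul_eq_num q
    push_cast
    rw [← this]
    ring
  · rintro ⟨t, ht⟩
    have h1 : (n : ℤ) * q.num = t * q.den := by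
      have h2 : (q.den : ℚ) ≠ 0 := by exact_mod_cast q.den_ne_zero
      have h3 : ((n : ℤ) * q.num : ℚ) = (t * q.den : ℚ) := by
        rw [← ht, ← Rat.den_mul_eq_num q]
        push_cast
        ring
      exact_mod_cast h3
    have h4 : (q.den : ℤ) ∣ (n : ℤ) * q.num := ⟨t, by rw [h1]; ring⟩
    have h5 : IsCoprime (q.den : ℤ) q.num := by
      rw [Int.isCoprime_iff_gcd_eq_one, Int.gcd_comm]
      exact q.reduced
    have := h5.dvd_of_dvd_mul_right h4
    exact_mod_cast this

/-- **Leaf O4b.** the period of `σ` under the rotation by a primitive `N`-th root of unity is the denominator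
of `r_N(σ)`.
PROOF. `Function.minimalPeriod` characterisation (`Function.isPeriodicPt_iff_minimalPeriod_dvd`, `Nat.dvd_antisymm`):
`(ρ^n) σ = σ ↔ twist (ζ^n) ∘ τ_σ = τ_σ` (`tau_rotPerm_pow`, `tau_injective`) `↔ ∀ d m, m = N r_d → ζ^(n m) = 1`
(O3c) `↔ ∀ d, N ∣ n m ↔ n r_d ∈ ℤ ↔ (r_d).den ∣ n` `↔ (r_N).den ∣ n` (O4a with `T_r_one`, `T_r_step`, `T_r_noback` of
`S28/CChain.lean`, as in `S28.finrank_mul_altSum`). -/
theorem minimalPeriod_rotPerm (hN : (N : k) ≠ 0) (ζ : (AlgebraicClosure k)ˣ)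
    (hζ : IsPrimitiveRoot ζ N) (σ : Emb k N) :
    Function.minimalPeriod (rotPerm hN ζ hζ.pow_eq_one) σ = ((T σ N).r).den := by
  have hN0 : N ≠ 0 := NeZero.ne N
  have hNq : (N : ℚ) ≠ 0 := Nat.cast_ne_zero.mpr hN0
  have hden : ∀ d, d ∣ N → ((T σ d).r).den ∣ ((T σ N).r).den := fun d hd =>
    den_dvd_den N hN0 (fun d => (T σ d).r) (T_r_one hB hN σ) (fun d _ => (T σ d).pos.ne')
      (T_r_step hB hN σ) (T_r_noback hB hN σ) hd
  have key : ∀ n : ℕ, Function.IsPeriodicPt (rotPerm hN ζ hζ.pow_eq_one) n σ ↔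
      ((T σ N).r).den ∣ n := by
    intro n
    have hw : (ζ ^ n) ^ N = 1 := by rw [← pow_mul, mul_comm, pow_mul, hζ.pow_eq_one, one_pow]
    have e1 : Function.IsPeriodicPt (rotPerm hN ζ hζ.pow_eq_one) n σ ↔
        (twist (ζ ^ n)).comp (tau hN σ) = tau hN σ := by
      rw [Function.IsPeriodicPt, Function.IsFixedPt, Equiv.Perm.iterate_eq_pow,
        ← tau_rotPerm_pow hN ζ hζ.pow_eq_one n σ]
      exact ⟨fun h => by rw [h], fun h => tau_injective hN h⟩
    have e2 : ∀ d, d ∣ N → ∀ m : ℕ, (m : ℚ) = (T σ d).r * N →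
        ((ζ ^ n) ^ m = 1 ↔ ((T σ d).r).den ∣ n) := by
      intro d _ m hm
      rw [← pow_mul, hζ.pow_eq_one_iff_dvd, OrbitFam_den_dvd_iff]
      constructor
      · rintro ⟨t, ht⟩
        refine ⟨t, ?_⟩
        have h1 : (n : ℚ) * m = N * t := by exact_mod_cast ht
        rw [hm] at h1
        have h2 : (N : ℚ) * ((n : ℚ) * (T σ d).r) = N * t := by linear_combination h1
        have := mul_left_cancel₀ hNq h2
        exact_mod_cast this
      · rintro ⟨t, ht⟩
        have h1 : ((n * m : ℕ) : ℤ) = N * t := by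
          have h2 : (((n * m : ℕ) : ℤ) : ℚ) = ((N * t : ℤ) : ℚ) := by
            push_cast
            rw [hm, ← ht]
            ring
          exact_mod_cast h2
        have h3 : (N : ℤ) ∣ ((n * m : ℕ) : ℤ) := ⟨t, h1⟩
        exact_mod_cast h3
    rw [e1, twist_comp_tau_eq_iff hN (ζ ^ n) hw σ]
    constructor
    · intro h
      obtain ⟨m, hm⟩ := exists_pnat_T_r hN σ (dvd_refl N)
      exact (e2 N dvd_rfl m hm).mp (h N dvd_rfl m hm)
    · intro h d hd m hm
      exact (e2 d hd m hm).mpr ((hden d hd).trans h)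
  apply Nat.dvd_antisymm
  · exact Function.IsPeriodicPt.minimalPeriod_dvd ((key _).mpr dvd_rfl)
  · exact (key _).mp (Function.isPeriodicPt_minimalPeriod _ _)

end Fermat.Agent.GAL.Igusa
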