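import Mathlib

/-!
# GAL-IGUSA leaf O2: the number of orbits of a permutation is `∑ 1 / (orbit size)`
-/

set_option autoImplicit false

namespace Fermat.Agent.GAL.Igusa

/-- PROOF. `MulAction.selfEquivSigmaOrbits'` : `ι ≃ Σ ω, ω.orbit`; on the orbit `ω` of `i` the summand is
`1 / card ω.orbit` (`MulAction.minimalPeriod_eq_card`: `minimalPeriod (g • ·) i = card (orbit (zpowers g) i)`), so each
orbit contributes `1`. See the proof of `S24.card_zeros_eq_card_orbits` (`hsize_sum`, `h1`) for the same
manipulations. -/
theorem card_orbits_eq_sum {ι : Type*} [Fintype ι] (g : Equiv.Perm ι) :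
    (Nat.card (MulAction.orbitRel.Quotient (Subgroup.zpowers g) ι) : ℚ) =
      ∑ i : ι, (1 : ℚ) / (Function.minimalPeriod g i : ℚ) := by
  classical
  have : Fintype (MulAction.orbitRel.Quotient (Subgroup.zpowers g) ι) := Fintype.ofFinite _
  rw [Nat.card_eq_fintype_card, ← Finset.sum_fiberwise (s := Finset.univ)
    (g := fun i => (Quotient.mk'' i : MulAction.orbitRel.Quotient (Subgroup.zpowers g) ι)),
    ← Finset.card_univ, Finset.cast_card]
  refine Finset.sum_congr rfl fun ω _ => ?_
  set S : Finset ι := Finset.univ.filter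
    (fun i => (Quotient.mk'' i : MulAction.orbitRel.Quotient (Subgroup.zpowers g) ι) = ω) with hS
  have hper : ∀ i ∈ S, Function.minimalPeriod g i = S.card := by
    intro i hi
    have hi' : (Quotient.mk'' i : MulAction.orbitRel.Quotient (Subgroup.zpowers g) ι) = ω :=
      (Finset.mem_filter.1 hi).2
    have h1 : Function.minimalPeriod (g • ·) i
        = Fintype.card (MulAction.orbit (Subgroup.zpowers g) i) :=
      MulAction.minimalPeriod_eq_card g i
    have h2 : (fun x : ι => g • x) = g := rfl
    rw [h2] at h1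
    rw [h1, Fintype.card_subtype]
    congr 1
    ext x
    simp only [hS, Finset.mem_filter, Finset.mem_univ, true_and]
    rw [← hi', Quotient.eq'', MulAction.orbitRel_apply]
  have hne : S.Nonempty := by
    obtain ⟨j, rfl⟩ := Quotient.exists_rep ω
    exact ⟨j, Finset.mem_filter.2 ⟨Finset.mem_univ j, rfl⟩⟩
  have hc : (S.card : ℚ) ≠ 0 := by
    exact_mod_cast hne.card_pos.ne'
  rw [Finset.sum_congr rfl (fun i hi => by rw [hper i hi]), Finset.sum_const, nsmul_eq_mul,
    mul_one_div, div_self hc]

end Fermat.Agent.GAL.Igusa
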