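import Fermat.Agent.GAL.Igusa.OrbitCount
import Fermat.Agent.GAL.Igusa.OrbitSum
import Fermat.Agent.GAL.Igusa.OrbitFam
import Fermat.Agent.GAL.Igusa.CuspWidth
import Fermat.Agent.GAL.Igusa.CuspNum
import Fermat.Agent.GAL.Igusa.CuspMain

/-!
# GAL-IGUSA block O: exact cusp count in every characteristic prime to the level
`#{places of E k N over j = ∞} = cuspCount N`.
-/

set_option autoImplicit false

noncomputable section

namespace Fermat.Agent.GAL.Igusa

open Fermat.Agent.S28 ModularCurve IntermediateField Module AlgebraicCurve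

variable {k : Type} [Field k] {N : ℕ} [NeZero N]

/-- the embeddings `E k N → k̄((t))`, `t = q^{1/N}`. -/
def sig (hN : (N : k) ≠ 0) (σ : Emb k N) : EC k N →+* LaurentSeries (AlgebraicClosure k) :=
  (tau hN σ).comp (incl k N : EC k N →+* ↥(FF k N))

theorem sig_injective (hN : (N : k) ≠ 0) : Function.Injective (sig (k := k) (N := N) hN) := by
  intro σ σ' h
  apply tau_injective hN
  refine RingHom.ext fun x => ?_
  obtain ⟨y, rfl⟩ := (incl k N).surjective x
  exact RingHom.congr_fun h y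

/-- **Leaf O5a.** on elements of `EC k N` whose series lies in `EE k = k(j)` all `sig σ` are `baseL`.
PROOF. `incl k N y = algebraMap (EE k) (FF k N) ⟨y.1, hy⟩` (`Subtype.ext`, `incl_coe`), `tau_algebraMap`. -/
theorem sig_of_mem_EE (hN : (N : k) ≠ 0) (σ : Emb k N) (y : EC k N)
    (hy : (y : LaurentSeries k) ∈ EE k) : sig hN σ y = baseL k N (y : LaurentSeries k) :=
  phi_of_mem_EE hN σ y hy

/-- **Leaf O5b.** `baseL (j⁻¹)` has order `N`.
PROOF. `baseL = qExpand N ∘ coeffMap`; `coeffMap (jqModC k) = jqModC k̄` (`coeffMap_jqModC`);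
`qExpand N (jqModC) = subL 1 N (jqModC)` (`twist 1 = id`), `subL_jqModC_order`; `S24.laurent_order_inv`. -/
theorem order_baseL_inv :
    (baseL k N ((jqModC k)⁻¹)).order = (N : ℤ) := by
  have hne : baseL k N (jqModC k) ≠ 0 := by
    intro h
    have h2 := subL_jqModC_order (k := k) (1 : (AlgebraicClosure k)ˣ) (pnatN N)
    rw [← baseL_jqModC, h, HahnSeries.order_zero] at h2
    have h3 : ((pnatN N : ℕ+) : ℤ) = (N : ℤ) := rfl
    have h4 : (0 : ℤ) < N := by exact_mod_cast NeZero.pos N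
    omega
  rw [map_inv₀, S24.laurent_order_inv hne, baseL_jqModC, subL_jqModC_order, neg_neg]
  rfl

theorem card_emb (hN : (N : k) ≠ 0) :
    Nat.card (Emb k N) = finrank k⟮(jE k N)⁻¹⟯ (EC k N) := by
  have := finiteDimensional_FF k N hB hN
  have := isSeparable_FF k N hB hN
  rw [finrank_jE hB hN, Nat.card_eq_fintype_card, AlgHom.card (EE k) (FF k N) (OmBar k)]

/-- **Exact cusp count.** -/
theorem card_poles_eq [IsAlgClosed k] (hN : (N : k) ≠ 0) (Z : Finset (Place k (EC k N)))
    (hZ : ∀ v, v ∈ Z ↔ v.ord (jE k N) < 0) : Z.card = cuspCount N := by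
  classical
  have hfd0 := finiteDimensional_FF k N hB hN
  have hsep0 := isSeparable_FF k N hB hN
  have hfd := finiteDimensional_jE (k := k) (N := N) hB hN
  have hsep := isSeparable_jE (k := k) (N := N) hB hN
  haveI : NeZero ((N : ℕ) : k) := ⟨hN⟩
  obtain ⟨ζ₀, hζ₀⟩ := HasEnoughRootsOfUnity.exists_primitiveRoot (AlgebraicClosure k) N
  have hζ₀ne : ζ₀ ≠ 0 := hζ₀.ne_zero (NeZero.ne N)
  let ζ : (AlgebraicClosure k)ˣ := Units.mk0 ζ₀ hζ₀ne
  have hζ : IsPrimitiveRoot ζ N := by
    rw [← IsPrimitiveRoot.coe_units_iff]; exact hζ₀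
  have hjmem : (((jE k N)⁻¹ : EC k N) : LaurentSeries k) ∈ EE k :=
    inv_mem (mem_adjoin_simple_self k _)
  have h1 := card_zeros_eq_card_orbits_sep (k := k) (F := EC k N) (L := AlgebraicClosure k)
    (ι := Emb k N) (G := Equiv.Perm (Emb k N)) (jE k N)⁻¹
    (S24.transcendental_inv (transcendental_jE k N)) (card_emb hN) (sig hN) (sig_injective hN)
    (fun i j a => by
      have ha : ((algebraMap k (EC k N) a : EC k N) : LaurentSeries k) ∈ EE k :=
        IntermediateField.algebraMap_mem (EE k) a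
      rw [sig_of_mem_EE hN i _ ha, sig_of_mem_EE hN j _ ha])
    (fun i j => by rw [sig_of_mem_EE hN i _ hjmem, sig_of_mem_EE hN j _ hjmem])
    N (NeZero.pos N)
    (fun i => by rw [sig_of_mem_EE hN i _ hjmem]; exact order_baseL_inv)
    (rotPerm hN ζ hζ.pow_eq_one) ζ₀ hζ₀
    (fun i f m => by
      show (tau hN (rotPerm hN ζ hζ.pow_eq_one i) (incl k N f)).coeff m = _
      rw [tau_rotPerm, RingHom.comp_apply, twist_coeff]
      congr 1
      simp [ζ])
    Z (fun v => by rw [hZ, v.ord_inv]; omega)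
  have h2 := card_orbits_eq_sum (rotPerm hN ζ hζ.pow_eq_one)
  have h3 : ∀ σ : Emb k N, (1 : ℚ) / (Function.minimalPeriod (rotPerm hN ζ hζ.pow_eq_one) σ : ℚ) =
      cuspW N (fun d => (T σ d).r) := by
    intro σ
    rw [minimalPeriod_rotPerm hN ζ hζ σ]
    exact one_div_den_eq_cuspW N (NeZero.ne N) (fun d => (T σ d).r) (T_r_one hB hN σ)
      (fun d _ => (T σ d).pos.ne') (T_r_step hB hN σ) (T_r_noback hB hN σ)
  have h4 : (Z.card : ℚ) = cuspCount N := by
    rw [h1, h2, Finset.sum_congr rfl (fun σ _ => h3 σ), cuspW_sum,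
      cuspW_congr N (NeZero.ne N) (fun d hd => sum_T_r hB hN hd), cuspW_const,
      AlgHom.card (EE k) (FF k N) (OmBar k)]
    exact mul_cuspW_one_eq_cuspCount N (NeZero.ne N) _ (finrank_mul_altSum hB hN)
  exact_mod_cast h4

end Fermat.Agent.GAL.Igusa
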