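import Fermat.Agent.GAL.Igusa.Main
import Fermat.Agent.GAL.Igusa.OrbitMain

/-!
# GAL-IGUSA: final statements (no hypotheses)
-/

set_option autoImplicit false

noncomputable section

namespace Fermat.Agent.GAL.Igusa

open Module IntermediateField AlgebraicCurve Lib.RR ModularCurve

theorem exists_finset_poles (k : Type) [Field k] [IsAlgClosed k] (M : ℕ) [NeZero M]
    (hM : ((M : ℕ) : k) ≠ 0) :
    ∃ Z : Finset (Place k (E k M)), (∀ v, v ∈ Z ↔ v.ord (jb k M) < 0) ∧ Z.card = cuspCount M := by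
  have hfd := finiteDimensional_jE (k := k) (N := M) hB hM
  have hsep := isSeparable_jE (k := k) (N := M) hB hM
  obtain ⟨Z, hZ, -⟩ := FF.exists_finset_zeros_sep (k := k) (F := E k M) (jE k M)⁻¹
    (S24.transcendental_inv (transcendental_jE k M))
  have hZ' : ∀ v, v ∈ Z ↔ v.ord (jE k M) < 0 := fun v => by rw [hZ, v.ord_inv]; omega
  exact ⟨Z, hZ', card_poles_eq hM Z hZ'⟩

theorem cuspUpper : CuspUpper := by
  intro k _ _ M _ hM Z hZ
  obtain ⟨Z', hZ', hcard⟩ := exists_finset_poles k M hM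
  rw [← hcard]
  exact Finset.card_le_card fun v hv => (hZ' v).mpr (hZ v hv)

theorem cuspLower : CuspLower := by
  intro k _ _
  constructor
  · intro h
    obtain ⟨Z', hZ', hcard⟩ := exists_finset_poles k 4 h
    exact ⟨Z', fun v hv => (hZ' v).mp hv, by rw [hcard]; decide⟩
  · intro h
    obtain ⟨Z', hZ', hcard⟩ := exists_finset_poles k 9 h
    exact ⟨Z', fun v hv => (hZ' v).mp hv, by rw [hcard]; decide⟩

/-- **Interface I5** (good reduction of neat levels). -/
theorem genusFF_eq' (A : ValuationSubring (AlgebraicClosure ℚ))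
    (M : ℕ) [NeZero M] (hM : ((M : ℕ) : IsLocalRing.ResidueField ↥A) ≠ 0) (hneat : 4 ∣ M ∨ 9 ∣ M) :
    genusFF (IsLocalRing.ResidueField ↥A) (E (IsLocalRing.ResidueField ↥A) M) =
      genusFF (AlgebraicClosure ℚ) (E (AlgebraicClosure ℚ) M) :=
  genusFF_eq cuspUpper cuspLower A M hM hneat

end Fermat.Agent.GAL.Igusa
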