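import Fermat.Agent.S28.CMain
import Fermat.Agent.S28.A
import Fermat.Agent.S28.B

/-!
# IG-E, geometric part 1: the conjugate embeddings as maps into Laurent series in `t = q^{1/N}`

`k` any field with `(N : k) ≠ 0`, `E = k(j) = EE k`, `F = E(j(q^d) : d ∣ N) = FF k N` inside
`k((q))`.  Block C of S28 attaches to every `σ : F →ₐ[E] OmBar k` parameters
`T σ d = (c_d, r_d)` with `σ (j(q^d)) = j(c_d q^{r_d})`.  Here we show `N r_d ∈ ℕ`, so that `σ`
factors through `θ : k̄((t)) → k̄((q^ℚ))`, `t ↦ q^{1/N}`.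
-/

set_option autoImplicit false

noncomputable section

namespace Fermat.Agent.GAL.Igusa

open Fermat.Agent.S28 ModularCurve

theorem hB : StatementB := statementB statementA

section Emb

variable (k : Type) [Field k] (N : ℕ) [NeZero N]

/-- the parameter `q^{1/N}`. -/
def parT : Par (AlgebraicClosure k) :=
  ⟨1, 1 / (N : ℚ), by have : (0 : ℚ) < N := by exact_mod_cast NeZero.pos N
                      positivity⟩

/-- `θ : k̄((t)) → k̄((q^ℚ))`, `t ↦ q^{1/N}`. -/
def theta : LaurentSeries (AlgebraicClosure k) →+* Om k := sub (parT k N)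

/-- `k((q)) → k̄((t))`, `q ↦ t^N`. -/
def baseL : LaurentSeries k →+* LaurentSeries (AlgebraicClosure k) :=
  (qExpand (AlgebraicClosure k) N).comp (coeffMap (algebraMap k (AlgebraicClosure k)))

/-- `x(q) ↦ x(c t^m)`. -/
def subL (c : (AlgebraicClosure k)ˣ) (m : ℕ+) :
    LaurentSeries (AlgebraicClosure k) →+* LaurentSeries (AlgebraicClosure k) :=
  (qExpand (AlgebraicClosure k) (m : ℕ)).comp (twist c)

theorem theta_baseL (x : LaurentSeries k) : theta k N (baseL k N x) = iota k x := by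
  have hN0 : (N : ℚ) ≠ 0 := Nat.cast_ne_zero.2 (NeZero.ne N)
  have hpar : (parT k N).pow N = Par.ofNat (AlgebraicClosure k) 1 := by
    apply Par.ext
    · simp [parT]
    · simp only [Par.pow_r, Par.ofNat_r, parT, Nat.cast_one]
      field_simp
  rw [theta, baseL, RingHom.comp_apply, sub_qExpand, hpar, iota, RingHom.comp_apply]

theorem theta_subL (t : Par (AlgebraicClosure k)) (m : ℕ+) (hm : (m : ℚ) = t.r * N)
    (x : LaurentSeries (AlgebraicClosure k)) : theta k N (subL k t.c m x) = sub t x := by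
  have hN0 : (N : ℚ) ≠ 0 := Nat.cast_ne_zero.2 (NeZero.ne N)
  have hpar : ((parT k N).pow (m : ℕ)).tw t.c = t := by
    apply Par.ext
    · simp [parT]
    · simp only [Par.tw_r, Par.pow_r, parT]
      rw [hm]
      field_simp
  rw [theta, subL, RingHom.comp_apply, sub_qExpand, sub_twist, hpar]

variable {k N}

/-- `d r_d(σ)` is a positive integer. -/
theorem exists_nat_T_r (hN : (N : k) ≠ 0) (σ : ↥(FF k N) →ₐ[↥(EE k)] OmBar k) {d : ℕ}
    (hd : d ∣ N) : ∃ m : ℕ, 0 < m ∧ (T σ d).r * d = m := by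
  induction d using induction_on_primes with
  | zero => exact absurd rfl (ne_zero_of_dvd N hd)
  | one => exact ⟨1, one_pos, by rw [T_r_one hB hN σ]; simp⟩
  | prime_mul p d hp ih =>
    obtain ⟨m, hm, h⟩ := ih ((Dvd.intro_left p rfl).trans hd)
    rcases T_r_step hB hN σ p d hp hd with h1 | h1
    · refine ⟨p * p * m, Nat.mul_pos (Nat.mul_pos hp.pos hp.pos) hm, ?_⟩
      rw [h1]
      push_cast
      linear_combination (p : ℚ) * p * h
    · refine ⟨m, hm, ?_⟩
      push_cast
      linear_combination (d : ℚ) * h1 + h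

/-- `N r_d(σ)` is a positive integer. -/
theorem exists_pnat_T_r (hN : (N : k) ≠ 0) (σ : ↥(FF k N) →ₐ[↥(EE k)] OmBar k) {d : ℕ}
    (hd : d ∣ N) : ∃ m : ℕ+, (m : ℚ) = (T σ d).r * N := by
  obtain ⟨m, hm, h⟩ := exists_nat_T_r hN σ hd
  obtain ⟨e, he⟩ := hd
  have he0 : 0 < e := by
    rcases Nat.eq_zero_or_pos e with rfl | h0
    · exact absurd (by simpa using he) (NeZero.ne N)
    · exact h0
  have hNq : (N : ℚ) = d * e := by exact_mod_cast he
  refine ⟨⟨m * e, Nat.mul_pos hm he0⟩, ?_⟩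
  show ((m * e : ℕ) : ℚ) = (T σ d).r * N
  rw [hNq]
  push_cast
  rw [← h]
  ring

omit [NeZero N] in
variable (k N) in
theorem toBar_theta_injective [NeZero N] :
    Function.Injective fun z : LaurentSeries (AlgebraicClosure k) => toBar k (theta k N z) :=
  (toBar_injective k).comp (theta k N).injective

theorem sigma_algebraMap_eq (σ : ↥(FF k N) →ₐ[↥(EE k)] OmBar k) (z : ↥(EE k)) :
    σ (algebraMap ↥(EE k) ↥(FF k N) z) = toBar k (theta k N (baseL k N (z : LaurentSeries k))) := by
  rw [σ.commutes, algebraMap_EE_bar, theta_baseL]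

theorem sigma_jF_eq (hN : (N : k) ≠ 0) (σ : ↥(FF k N) →ₐ[↥(EE k)] OmBar k) {d : ℕ} (hd : d ∣ N)
    (m : ℕ+) (hm : (m : ℚ) = (T σ d).r * N) :
    σ (jF k N d)
      = toBar k (theta k N (subL k (T σ d).c m (jqModC (AlgebraicClosure k)))) := by
  rw [T_spec hB hN σ hd, theta_subL k N (T σ d) m hm, J]

/-- `σ` factors through `θ`. -/
theorem exists_tau (hN : (N : k) ≠ 0) (σ : ↥(FF k N) →ₐ[↥(EE k)] OmBar k) :
    ∃ τ : ↥(FF k N) →+* LaurentSeries (AlgebraicClosure k),
      ∀ x, σ x = toBar k (theta k N (τ x)) := by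
  have key : ∀ (y : LaurentSeries k) (hy : y ∈ FF k N),
      ∃ z : LaurentSeries (AlgebraicClosure k), toBar k (theta k N z) = σ ⟨y, hy⟩ := by
    intro y hy
    induction hy using IntermediateField.adjoin_induction with
    | mem y hy =>
      obtain ⟨d, hne, hd, rfl⟩ := hy
      have hx : ∀ hmem, (⟨qExpand k d (jqModC k), hmem⟩ : FF k N) = jF k N d := by
        intro hmem
        apply Subtype.ext
        rw [jF_coe k N hd, jd_eq]
      exact ⟨_, by rw [hx]; exact (sigma_jF_eq hN σ hd _ (exists_pnat_T_r hN σ hd).choose_spec).symm⟩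
    | algebraMap z => exact ⟨_, (sigma_algebraMap_eq σ z).symm⟩
    | add x y hx hy ihx ihy =>
      obtain ⟨a, ha⟩ := ihx
      obtain ⟨b, hb⟩ := ihy
      exact ⟨a + b, by rw [map_add, map_add, ha, hb, ← map_add]; rfl⟩
    | inv x hx ihx =>
      obtain ⟨a, ha⟩ := ihx
      exact ⟨a⁻¹, by rw [map_inv₀, map_inv₀, ha, ← map_inv₀]; rfl⟩
    | mul x y hx hy ihx ihy =>
      obtain ⟨a, ha⟩ := ihx
      obtain ⟨b, hb⟩ := ihy
      exact ⟨a * b, by rw [map_mul, map_mul, ha, hb, ← map_mul]; rfl⟩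
  choose g hg using fun x : ↥(FF k N) => key x.1 x.2
  have hg' : ∀ x : ↥(FF k N), toBar k (theta k N (g x)) = σ x := hg
  have hinj : ∀ {a b : LaurentSeries (AlgebraicClosure k)},
      toBar k (theta k N a) = toBar k (theta k N b) → a = b :=
    fun h => toBar_theta_injective k N h
  refine ⟨{ toFun := g
            map_one' := hinj (by rw [hg', map_one, map_one, map_one])
            map_mul' := fun x y => hinj (by rw [hg', map_mul, map_mul, map_mul, hg', hg'])
            map_zero' := hinj (by rw [hg', map_zero, map_zero, map_zero])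
            map_add' := fun x y => hinj (by rw [hg', map_add, map_add, map_add, hg', hg']) },
    fun x => (hg' x).symm⟩

/-- the Laurent series form of `σ`. -/
def tau (hN : (N : k) ≠ 0) (σ : ↥(FF k N) →ₐ[↥(EE k)] OmBar k) :
    ↥(FF k N) →+* LaurentSeries (AlgebraicClosure k) := (exists_tau hN σ).choose

theorem tau_spec (hN : (N : k) ≠ 0) (σ : ↥(FF k N) →ₐ[↥(EE k)] OmBar k) (x : ↥(FF k N)) :
    σ x = toBar k (theta k N (tau hN σ x)) := (exists_tau hN σ).choose_spec x

theorem tau_injective (hN : (N : k) ≠ 0) : Function.Injective (tau (k := k) (N := N) hN) := by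
  intro σ σ' h
  exact AlgHom.ext fun x => by rw [tau_spec hN σ x, tau_spec hN σ' x, h]

/-- on `E = k(j)` all `τ_σ` are the base embedding `q ↦ t^N`. -/
theorem tau_algebraMap (hN : (N : k) ≠ 0) (σ : ↥(FF k N) →ₐ[↥(EE k)] OmBar k) (z : ↥(EE k)) :
    tau hN σ (algebraMap ↥(EE k) ↥(FF k N) z) = baseL k N (z : LaurentSeries k) := by
  apply toBar_theta_injective k N
  show toBar k (theta k N _) = toBar k (theta k N _)
  rw [← tau_spec, sigma_algebraMap_eq]

theorem tau_jF (hN : (N : k) ≠ 0) (σ : ↥(FF k N) →ₐ[↥(EE k)] OmBar k) {d : ℕ} (hd : d ∣ N)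
    (m : ℕ+) (hm : (m : ℚ) = (T σ d).r * N) :
    tau hN σ (jF k N d) = subL k (T σ d).c m (jqModC (AlgebraicClosure k)) := by
  apply toBar_theta_injective k N
  show toBar k (theta k N _) = toBar k (theta k N _)
  rw [← tau_spec, sigma_jF_eq hN σ hd m hm]

/-- series in `t^N` are invariant under the rotation `t ↦ z t`, `z^N = 1`. -/
theorem CuspEmb_twist_qExpand (z : (AlgebraicClosure k)ˣ) (hz : z ^ N = 1)
    (y : LaurentSeries (AlgebraicClosure k)) :
    twist z (qExpand (AlgebraicClosure k) N y) = qExpand (AlgebraicClosure k) N y := by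
  ext n
  rw [twist_coeff]
  by_cases hn : (N : ℤ) ∣ n
  · obtain ⟨j, rfl⟩ := hn
    have h1 : z ^ ((N : ℤ) * j) = 1 := by rw [zpow_mul, zpow_natCast, hz, one_zpow]
    rw [h1, Units.val_one, one_mul]
  · rw [qExpand_coeff_of_not_dvd N _ hn, mul_zero]

/-- rotation `t ↦ z t`, `z^N = 1`, acts on the embeddings. -/
theorem exists_rot (hN : (N : k) ≠ 0) (z : (AlgebraicClosure k)ˣ) (hz : z ^ N = 1)
    (σ : ↥(FF k N) →ₐ[↥(EE k)] OmBar k) :
    ∃ σ' : ↥(FF k N) →ₐ[↥(EE k)] OmBar k, tau hN σ' = (twist z).comp (tau hN σ) := by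
  let φ : ↥(FF k N) →+* OmBar k :=
    (toBar k).comp ((theta k N).comp ((twist z).comp (tau hN σ)))
  let σ' : ↥(FF k N) →ₐ[↥(EE k)] OmBar k :=
    { φ with
      commutes' := fun w => by
        show toBar k (theta k N (twist z (tau hN σ (algebraMap ↥(EE k) ↥(FF k N) w))))
          = algebraMap ↥(EE k) (OmBar k) w
        have h1 : twist z (baseL k N (w : LaurentSeries k)) = baseL k N (w : LaurentSeries k) :=
          CuspEmb_twist_qExpand z hz _
        rw [tau_algebraMap, h1, theta_baseL, algebraMap_EE_bar] }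
  refine ⟨σ', RingHom.ext fun x => ?_⟩
  have h : toBar k (theta k N (twist z (tau hN σ x))) = toBar k (theta k N (tau hN σ' x)) :=
    tau_spec hN σ' x
  exact ((theta k N).injective (toBar_injective k h)).symm

/-- an embedding is determined by its parameters. -/
theorem eq_of_T (hN : (N : k) ≠ 0) (σ σ' : ↥(FF k N) →ₐ[↥(EE k)] OmBar k)
    (h : ∀ d, d ∣ N → T σ d = T σ' d) : σ = σ' := by
  apply IntermediateField.adjoin_algHom_ext
  rintro x ⟨d, hne, hd, rfl⟩
  have hx : ∀ hmem, (⟨qExpand k d (jqModC k), hmem⟩ : FF k N) = jF k N d := by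
    intro hmem
    apply Subtype.ext
    rw [jF_coe k N hd, jd_eq]
  rw [hx, T_spec hB hN σ hd, T_spec hB hN σ' hd, h d hd]

/-- leading coefficient and order of `x(c t^m)` for `x = j`. -/
theorem subL_jqModC_coeff (c : (AlgebraicClosure k)ˣ) (m : ℕ+) :
    (subL k c m (jqModC (AlgebraicClosure k))).coeff (-(m : ℤ)) =
      ((c⁻¹ : (AlgebraicClosure k)ˣ) : AlgebraicClosure k) := by
  have e : (-(m : ℤ)) = (((m : ℕ) : ℤ)) * (-1) := by ring
  rw [subL, RingHom.comp_apply, e, qExpand_coeff_mul, twist_coeff, coeff_jqModC_neg_one, mul_one,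
    zpow_neg_one]

theorem subL_jqModC_order (c : (AlgebraicClosure k)ˣ) (m : ℕ+) :
    (subL k c m (jqModC (AlgebraicClosure k))).order = -(m : ℤ) := by
  have hcoeff : (subL k c m (jqModC (AlgebraicClosure k))).coeff (-(m : ℤ)) ≠ 0 := by
    rw [subL_jqModC_coeff]
    exact Units.ne_zero _
  have hne : subL k c m (jqModC (AlgebraicClosure k)) ≠ 0 :=
    HahnSeries.ne_zero_of_coeff_ne_zero hcoeff
  have hbelow : ∀ n : ℤ, n < -(m : ℤ) →
      (subL k c m (jqModC (AlgebraicClosure k))).coeff n = 0 := by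
    intro n hn
    rw [subL, RingHom.comp_apply]
    by_cases hdvd : (((m : ℕ) : ℤ)) ∣ n
    · obtain ⟨j, rfl⟩ := hdvd
      rw [qExpand_coeff_mul, twist_coeff, coeff_jqModC_of_lt, mul_zero]
      have hm : (0 : ℤ) < ((m : ℕ) : ℤ) := by exact_mod_cast m.pos
      nlinarith
    · exact qExpand_coeff_of_not_dvd _ _ hdvd
  refine le_antisymm (HahnSeries.order_le_of_coeff_ne_zero hcoeff) ?_
  by_contra hlt
  rw [not_le] at hlt
  exact hne (HahnSeries.coeff_order_eq_zero.mp (hbelow _ hlt))

theorem order_twist (z : (AlgebraicClosure k)ˣ) (x : LaurentSeries (AlgebraicClosure k)) :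
    (twist z x).order = x.order := by
  by_cases hx : x = 0
  · rw [hx, map_zero]
  · have hx' : twist z x ≠ 0 := fun h => hx ((twist z).injective (by rw [h, map_zero]))
    apply le_antisymm
    · apply HahnSeries.order_le_of_coeff_ne_zero
      rw [twist_coeff]
      exact mul_ne_zero (Units.ne_zero _) (HahnSeries.coeff_order_eq_zero.not.mpr hx)
    · apply HahnSeries.order_le_of_coeff_ne_zero
      have h1 := HahnSeries.coeff_order_eq_zero.not.mpr hx'
      rw [twist_coeff] at h1
      exact right_ne_zero_of_mul h1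

end Emb

end Fermat.Agent.GAL.Igusa
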