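import Fermat.Agent.GAL.Igusa.CuspSep

/-!
# IG-E (E2), part 2: `X₀(p²)` has at least `p + 1` cusps in every characteristic `≠ p`
-/

set_option autoImplicit false

noncomputable section

namespace Fermat.Agent.GAL.Igusa

open Fermat.Agent.S28 Fermat.Agent.S24 ModularCurve IntermediateField Module AlgebraicCurve

variable {k : Type} [Field k] {N : ℕ} [NeZero N]

/-- the three types of embeddings at level `p²`. -/
theorem T_r_prime_sq {p : ℕ} (hp : p.Prime) (hNp : N = p * (p * 1)) (hN : (N : k) ≠ 0)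
    (σ : ↥(FF k N) →ₐ[↥(EE k)] OmBar k) :
    ((T σ p).r = 1 / p ∧ (T σ N).r = 1 / (p : ℚ) ^ 2) ∨ ((T σ p).r = p ∧ (T σ N).r = 1) ∨
      ((T σ p).r = p ∧ (T σ N).r = (p : ℚ) ^ 2) := by
  have hp0 : (p : ℚ) ≠ 0 := by exact_mod_cast hp.ne_zero
  have h1 := T_r_one hB hN σ
  have hd2 : p * (p * 1) ∣ N := dvd_of_eq hNp.symm
  have hd1 : p * 1 ∣ N := (Dvd.intro_left p rfl).trans hd2
  have s1 := T_r_step hB hN σ p 1 hp hd1
  have s2 := T_r_step hB hN σ p (p * 1) hp hd2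
  have nb := T_r_noback hB hN σ p 1 hp hd2
  have e : T σ N = T σ (p * (p * 1)) := by rw [← hNp]
  rw [e]
  rw [h1] at s1 nb
  have e1 : T σ p = T σ (p * 1) := by rw [mul_one]
  rw [e1]
  generalize (T σ (p * (p * 1))).r = rN at *
  generalize (T σ (p * 1)).r = rp at *
  rcases s1 with s1 | s1
  · right
    rw [mul_one] at s1
    rcases s2 with s2 | s2
    · right
      refine ⟨s1, ?_⟩
      rw [s2, s1, sq]
    · left
      refine ⟨s1, ?_⟩
      rw [s1] at s2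
      exact mul_left_cancel₀ hp0 (by rw [s2, mul_one])
  · left
    have s3 := nb s1
    have hrp : rp = 1 / p := by
      rw [eq_div_iff hp0, mul_comm]; exact s1
    refine ⟨hrp, ?_⟩
    rw [eq_div_iff (pow_ne_zero 2 hp0), sq, ← mul_assoc, mul_comm rN, s3, mul_comm]
    exact s1

/-- pure arithmetic: the solution of the linear system. -/
theorem CuspLow_solve {p : ℚ} (hp : 2 ≤ p) {n a b : ℚ} (h1 : n = a + b + 1)
    (h2 : n = 1 / p * a + p * b + p * 1) (h3 : n = 1 / p ^ 2 * a + 1 * b + p ^ 2 * 1) :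
    a = p ^ 2 ∧ b = p - 1 := by
  have hp0 : p ≠ 0 := by linarith
  have hp1 : p - 1 ≠ 0 := by intro h; linarith
  have hp2 : p + 1 ≠ 0 := by intro h; linarith
  have c1 : p * (1 / p * a + p * b + p * 1) = a + p ^ 2 * b + p ^ 2 := by
    rw [mul_add, mul_add, ← mul_assoc, mul_one_div_cancel hp0]; ring
  have c2 : p ^ 2 * (1 / p ^ 2 * a + 1 * b + p ^ 2 * 1) = a + p ^ 2 * b + p ^ 4 := by
    rw [mul_add, mul_add, ← mul_assoc, mul_one_div_cancel (pow_ne_zero 2 hp0)]; ring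
  rw [← h2, h1] at c1
  rw [← h3, h1] at c2
  have ha : a = p ^ 2 := by
    have e : (p - 1) * (p + 1) * a = (p - 1) * (p + 1) * p ^ 2 := by
      linear_combination c2
    exact mul_left_cancel₀ (mul_ne_zero hp1 hp2) e
  refine ⟨ha, ?_⟩
  rw [ha] at c1
  have e : p * (p - 1) * b = p * (p - 1) * (p - 1) := by
    linear_combination (-1 : ℚ) * c1
  exact mul_left_cancel₀ (mul_ne_zero hp0 hp1) e

theorem CuspLow_ne {p : ℕ} (hp : p.Prime) :
    (1 / (p : ℚ) ^ 2 ≠ 1) ∧ (1 / (p : ℚ) ^ 2 ≠ (p : ℚ) ^ 2) ∧ ((1 : ℚ) ≠ (p : ℚ) ^ 2) := by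
  have h2 : (2 : ℚ) ≤ p := by exact_mod_cast hp.two_le
  have h4 : (1 : ℚ) < (p : ℚ) ^ 2 := by nlinarith
  have h5 : 1 / (p : ℚ) ^ 2 < 1 := by
    rw [div_lt_one (by linarith)]; exact h4
  exact ⟨h5.ne, (h5.trans h4).ne, h4.ne⟩

/-- the embeddings of the third type. -/
theorem CuspLow_type_three {p : ℕ} (hp : p.Prime) (hNp : N = p * (p * 1)) (hN : (N : k) ≠ 0)
    (σ : ↥(FF k N) →ₐ[↥(EE k)] OmBar k) : (T σ N).r = (p : ℚ) ^ 2 ↔ σ = σ₀ := by
  have hN0 : N ≠ 0 := NeZero.ne N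
  have hNp2 : N = p ^ 2 := by rw [hNp, mul_one, sq]
  constructor
  · intro h
    apply eq_σ₀_of_T_r hB hN σ
    intro d hd
    obtain ⟨hne1, hne2, hne3⟩ := CuspLow_ne hp
    have hrp : (T σ p).r = p := by
      rcases T_r_prime_sq hp hNp hN σ with h' | h' | h'
      · exact absurd (h'.2.symm.trans h) hne2
      · exact absurd (h'.2.symm.trans h) hne3
      · exact h'.1
    have hd' : d ∣ p ^ 2 := hNp2 ▸ hd
    obtain ⟨i, hi, rfl⟩ := (Nat.dvd_prime_pow hp).mp hd'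
    interval_cases i
    · rw [pow_zero, T_r_one hB hN σ, Nat.cast_one]
    · rw [pow_one, hrp]
    · rw [← hNp2, h, hNp2]; push_cast; rfl
  · rintro rfl
    rw [T_σ₀ hB hN dvd_rfl, Pd_r k N hN0, hNp2]
    push_cast; rfl

theorem CuspLow_card_aux {p : ℕ} (hp : p.Prime) (hNp : N = p * (p * 1)) (hN : (N : k) ≠ 0)
    [FiniteDimensional ↥(EE k) ↥(FF k N)] [Algebra.IsSeparable ↥(EE k) ↥(FF k N)] :
    (Finset.univ.filter fun σ : ↥(FF k N) →ₐ[↥(EE k)] OmBar k => (T σ N).r = 1).card = p - 1 ∧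
    (∃ σ : ↥(FF k N) →ₐ[↥(EE k)] OmBar k, (T σ N).r = 1 / (p : ℚ) ^ 2) ∧
    (∃ σ : ↥(FF k N) →ₐ[↥(EE k)] OmBar k, (T σ N).r = (p : ℚ) ^ 2) := by
  classical
  obtain ⟨hne1, hne2, hne3⟩ := CuspLow_ne hp
  have hp2 : (2 : ℚ) ≤ p := by exact_mod_cast hp.two_le
  have hpN : p ∣ N := ⟨p * 1, hNp⟩
  set A := Finset.univ.filter fun σ : ↥(FF k N) →ₐ[↥(EE k)] OmBar k => (T σ N).r = 1 / (p : ℚ) ^ 2
    with hA
  set B := Finset.univ.filter fun σ : ↥(FF k N) →ₐ[↥(EE k)] OmBar k => (T σ N).r = 1 with hBdef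
  set C := Finset.univ.filter fun σ : ↥(FF k N) →ₐ[↥(EE k)] OmBar k => (T σ N).r = (p : ℚ) ^ 2
    with hC
  have hCcard : C.card = 1 := by
    rw [Finset.card_eq_one]
    refine ⟨σ₀, ?_⟩
    ext σ
    rw [hC, Finset.mem_filter, Finset.mem_singleton, CuspLow_type_three hp hNp hN σ]
    simp only [Finset.mem_univ, true_and]
  -- pointwise decompositions
  have key : ∀ σ : ↥(FF k N) →ₐ[↥(EE k)] OmBar k,
      ((1 : ℚ) = (if (T σ N).r = 1 / (p : ℚ) ^ 2 then 1 else 0) + (if (T σ N).r = 1 then 1 else 0)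
        + (if (T σ N).r = (p : ℚ) ^ 2 then 1 else 0)) ∧
      ((T σ p).r = 1 / (p : ℚ) * (if (T σ N).r = 1 / (p : ℚ) ^ 2 then 1 else 0)
        + p * (if (T σ N).r = 1 then 1 else 0)
        + p * (if (T σ N).r = (p : ℚ) ^ 2 then 1 else 0)) ∧
      ((T σ N).r = 1 / (p : ℚ) ^ 2 * (if (T σ N).r = 1 / (p : ℚ) ^ 2 then 1 else 0)
        + 1 * (if (T σ N).r = 1 then 1 else 0)
        + (p : ℚ) ^ 2 * (if (T σ N).r = (p : ℚ) ^ 2 then 1 else 0)) := by
    intro σ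
    rcases T_r_prime_sq hp hNp hN σ with ⟨h1, h2⟩ | ⟨h1, h2⟩ | ⟨h1, h2⟩
    · rw [h1, h2, if_pos rfl, if_neg hne1, if_neg hne2]
      simp
    · rw [h1, h2, if_neg hne1.symm, if_pos rfl, if_neg hne3]
      simp
    · rw [h1, h2, if_neg hne2.symm, if_neg hne3.symm, if_pos rfl]
      simp
  have sumI : ∀ (c : ℚ), ∑ σ : ↥(FF k N) →ₐ[↥(EE k)] OmBar k,
      (if (T σ N).r = c then (1 : ℚ) else 0) =
        ((Finset.univ.filter fun σ : ↥(FF k N) →ₐ[↥(EE k)] OmBar k => (T σ N).r = c).card : ℚ) := by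
    intro c
    rw [Finset.sum_boole]
  have e1 : (Fintype.card (↥(FF k N) →ₐ[↥(EE k)] OmBar k) : ℚ) = A.card + B.card + 1 := by
    have : (Fintype.card (↥(FF k N) →ₐ[↥(EE k)] OmBar k) : ℚ)
        = ∑ σ : ↥(FF k N) →ₐ[↥(EE k)] OmBar k, (1 : ℚ) := by
      rw [Finset.sum_const, Finset.card_univ, nsmul_eq_mul, mul_one]
    rw [this, Finset.sum_congr rfl fun σ _ => (key σ).1, Finset.sum_add_distrib,
      Finset.sum_add_distrib, sumI, sumI, sumI, ← hA, ← hBdef, ← hC, hCcard, Nat.cast_one]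
  have e2 : (Fintype.card (↥(FF k N) →ₐ[↥(EE k)] OmBar k) : ℚ)
      = 1 / (p : ℚ) * A.card + p * B.card + p * 1 := by
    rw [← sum_T_r hB hN hpN, Finset.sum_congr rfl fun σ _ => (key σ).2.1, Finset.sum_add_distrib,
      Finset.sum_add_distrib, ← Finset.mul_sum, ← Finset.mul_sum, ← Finset.mul_sum,
      sumI, sumI, sumI, ← hA, ← hBdef, ← hC, hCcard, Nat.cast_one]
  have e3 : (Fintype.card (↥(FF k N) →ₐ[↥(EE k)] OmBar k) : ℚ)
      = 1 / (p : ℚ) ^ 2 * A.card + 1 * B.card + (p : ℚ) ^ 2 * 1 := by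
    rw [← sum_T_r hB hN (dvd_refl N), Finset.sum_congr rfl fun σ _ => (key σ).2.2,
      Finset.sum_add_distrib,
      Finset.sum_add_distrib, ← Finset.mul_sum, ← Finset.mul_sum, ← Finset.mul_sum,
      sumI, sumI, sumI, ← hA, ← hBdef, ← hC, hCcard, Nat.cast_one]
  obtain ⟨ha, hb⟩ := CuspLow_solve hp2 e1 e2 e3
  refine ⟨?_, ?_, σ₀, (CuspLow_type_three hp hNp hN σ₀).mpr rfl⟩
  · have h1 : (B.card : ℚ) = ((p - 1 : ℕ) : ℚ) := by
      rw [hb, Nat.cast_sub hp.one_le, Nat.cast_one]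
    exact_mod_cast h1
  · have hApos : 0 < A.card := by
      have : (0 : ℚ) < A.card := by rw [ha]; positivity
      exact_mod_cast this
    obtain ⟨σ, hσ⟩ := Finset.card_pos.mp hApos
    exact ⟨σ, (Finset.mem_filter.mp hσ).2⟩

/-- counting the three types. -/
theorem card_types_prime_sq {p : ℕ} (hp : p.Prime) (hNp : N = p * (p * 1)) (hN : (N : k) ≠ 0)
    [Fintype (↥(FF k N) →ₐ[↥(EE k)] OmBar k)] :
    (Finset.univ.filter fun σ : ↥(FF k N) →ₐ[↥(EE k)] OmBar k => (T σ N).r = 1).card = p - 1 ∧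
    (∃ σ : ↥(FF k N) →ₐ[↥(EE k)] OmBar k, (T σ N).r = 1 / (p : ℚ) ^ 2) ∧
    (∃ σ : ↥(FF k N) →ₐ[↥(EE k)] OmBar k, (T σ N).r = (p : ℚ) ^ 2) := by
  have := finiteDimensional_FF k N hB hN
  have := isSeparable_FF k N hB hN
  convert CuspLow_card_aux (k := k) (N := N) hp hNp hN

/-- two embeddings of the middle type with the same place are equal. -/
theorem eq_of_ringOf_eq_prime_sq [IsAlgClosed k] {p : ℕ} (hp : p.Prime) (hNp : N = p * (p * 1))
    (hN : (N : k) ≠ 0) (σ σ' : ↥(FF k N) →ₐ[↥(EE k)] OmBar k) (hσ : (T σ N).r = 1)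
    (h : ringOf (phi hN σ) = ringOf (phi hN σ')) : σ = σ' := by
  have : NeZero p := ⟨hp.ne_zero⟩
  obtain ⟨hne1, hne2, hne3⟩ := CuspLow_ne hp
  have hNp2 : N = p ^ 2 := by rw [hNp, mul_one, sq]
  have hσ' : (T σ' N).r = 1 := (T_r_eq_of_ringOf_eq hN σ σ' h dvd_rfl).symm.trans hσ
  have hmid : ∀ τ : ↥(FF k N) →ₐ[↥(EE k)] OmBar k, (T τ N).r = 1 → T τ p = (Pd k 1).pow p := by
    intro τ hτ
    have hrp : (T τ p).r = p := by
      rcases T_r_prime_sq hp hNp hN τ with h' | h' | h'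
      · exact absurd (h'.2.symm.trans hτ) hne1
      · exact h'.1
      · exact absurd (hτ.symm.trans h'.2) hne3
    have hd1 : p * 1 ∣ N := ⟨p, by rw [hNp]; ring⟩
    have e1 : T τ p = T τ (p * 1) := by rw [mul_one]
    rcases T_step hB hN τ hp hd1 with h1 | h1
    · rw [e1, h1, T_one hB hN τ]
    · exfalso
      have h2 := congrArg Par.r h1
      rw [Par.pow_r, ← e1, hrp, T_r_one hB hN τ, ← sq] at h2
      exact hne3 h2.symm
  apply eq_of_T hN σ σ'
  intro d hd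
  have hd' : d ∣ p ^ 2 := hNp2 ▸ hd
  obtain ⟨i, hi, rfl⟩ := (Nat.dvd_prime_pow hp).mp hd'
  interval_cases i
  · rw [pow_zero, T_one hB hN σ, T_one hB hN σ']
  · rw [pow_one, hmid σ hσ, hmid σ' hσ']
  · rw [← hNp2]
    exact Par.ext (T_c_eq_of_ringOf_eq hN σ σ' h dvd_rfl hσ) (hσ.trans hσ'.symm)

/-- **IG-E (E2).** -/
theorem exists_poles_prime_sq [IsAlgClosed k] {p : ℕ} (hp : p.Prime) (hNp : N = p ^ 2)
    (hN : (N : k) ≠ 0) :
    ∃ Z : Finset (Place k (EC k N)), (∀ v ∈ Z, v.ord (jE k N) < 0) ∧ p + 1 ≤ Z.card := by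
  let _ : DecidableEq (↥(FF k N) →ₐ[↥(EE k)] OmBar k) := Classical.decEq _
  let _ : DecidableEq (Place k (EC k N)) := Classical.decEq _
  have hNp' : N = p * (p * 1) := by rw [hNp, mul_one, sq]
  have := finiteDimensional_FF k N hB hN
  have := isSeparable_FF k N hB hN
  obtain ⟨hne1, hne2, hne3⟩ := CuspLow_ne hp
  choose pl hpl1 hpl2 using exists_place_phi (k := k) (N := N) hN
  obtain ⟨hcard, ⟨σA, hσA⟩, ⟨σC, hσC⟩⟩ := card_types_prime_sq (k := k) (N := N) hp hNp' hN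
  set B := Finset.univ.filter fun σ : ↥(FF k N) →ₐ[↥(EE k)] OmBar k => (T σ N).r = 1 with hBdef
  have memB : ∀ σ, σ ∈ B ↔ (T σ N).r = 1 := by
    intro σ
    rw [hBdef, Finset.mem_filter]
    simp only [Finset.mem_univ, true_and]
  have hCB : σC ∉ B := by
    rw [memB, hσC]; exact hne3.symm
  have hACB : σA ∉ insert σC B := by
    rw [Finset.mem_insert, memB, hσA]
    rintro (h | h)
    · rw [h, hσC] at hσA
      exact hne2 hσA.symm
    · exact hne1 h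
  have hS : (insert σA (insert σC B)).card = p + 1 := by
    rw [Finset.card_insert_of_notMem hACB, Finset.card_insert_of_notMem hCB, hcard]
    have := hp.one_le
    omega
  have hinj : Set.InjOn pl ((insert σA (insert σC B) : Finset _) : Set _) := by
    intro σ hσ σ' hσ' hEq
    have hring : ringOf (phi hN σ) = ringOf (phi hN σ') := by rw [← hpl2 σ, ← hpl2 σ', hEq]
    have hr := T_r_eq_of_ringOf_eq hN σ σ' hring (dvd_refl N)
    rw [Finset.mem_coe, Finset.mem_insert, Finset.mem_insert, memB] at hσ hσ'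
    rcases hσ with h1 | h1 | h1 <;> rcases hσ' with h2 | h2 | h2
    · exact h1.trans h2.symm
    · rw [h1, h2, hσA, hσC] at hr; exact absurd hr hne2
    · rw [h1, h2, hσA] at hr; exact absurd hr hne1
    · rw [h1, h2, hσA, hσC] at hr; exact absurd hr.symm hne2
    · exact h1.trans h2.symm
    · rw [h1, h2, hσC] at hr; exact absurd hr.symm hne3
    · rw [h1, h2, hσA] at hr; exact absurd hr.symm hne1
    · rw [h1, h2, hσC] at hr; exact absurd hr hne3
    · exact eq_of_ringOf_eq_prime_sq hp hNp' hN σ σ' h1 hring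
  refine ⟨(insert σA (insert σC B)).image pl, ?_, ?_⟩
  · intro v hv
    obtain ⟨σ, -, rfl⟩ := Finset.mem_image.mp hv
    exact hpl1 σ
  · rw [Finset.card_image_of_injOn hinj, hS]

theorem exists_poles_four [IsAlgClosed k] (h : ((4 : ℕ) : k) ≠ 0) :
    ∃ Z : Finset (Place k (EC k 4)), (∀ v ∈ Z, v.ord (jE k 4) < 0) ∧ 3 ≤ Z.card :=
  exists_poles_prime_sq Nat.prime_two (by norm_num) h

theorem exists_poles_nine [IsAlgClosed k] (h : ((9 : ℕ) : k) ≠ 0) :
    ∃ Z : Finset (Place k (EC k 9)), (∀ v ∈ Z, v.ord (jE k 9) < 0) ∧ 4 ≤ Z.card :=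
  exists_poles_prime_sq Nat.prime_three (by norm_num) h

end Fermat.Agent.GAL.Igusa
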