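import Fermat.Agent.GAL.Igusa.CuspMain

/-!
# IG-E (E2), part 1: separating the places attached to different embeddings
-/

set_option autoImplicit false

noncomputable section

namespace Fermat.Agent.GAL.Igusa

open Fermat.Agent.S28 Fermat.Agent.S24 ModularCurve IntermediateField Module AlgebraicCurve

variable {k : Type} [Field k] {N : ℕ} [NeZero N]

/-- embeddings with the same valuation ring have the same order function. -/
theorem ordOf_phi_eq [IsAlgClosed k] (hN : (N : k) ≠ 0)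
    (σ σ' : ↥(FF k N) →ₐ[↥(EE k)] OmBar k) (h : ringOf (phi hN σ) = ringOf (phi hN σ'))
    (f : EC k N) (hf : f ≠ 0) : ordOf (phi hN σ) f = ordOf (phi hN σ') f := by
  have := finiteDimensional_jE (k := k) (N := N) hB hN
  have := isSeparable_jE (k := k) (N := N) hB hN
  have htr : Transcendental k (jE k N)⁻¹ := transcendental_inv (transcendental_jE k N)
  exact ordOf_eq_of_ringOf_eq (jE k N)⁻¹ htr (phi hN σ) (phi hN σ')
    (by rw [ordOf_phi_jE_inv]; exact_mod_cast NeZero.pos N)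
    (by rw [ordOf_phi_jE_inv, ordOf_phi_jE_inv]) h f hf

theorem CuspSep_ordOf_jEd (hN : (N : k) ≠ 0) (σ : ↥(FF k N) →ₐ[↥(EE k)] OmBar k) {d : ℕ}
    (hd : d ∣ N) (m : ℕ+) (hm : (m : ℚ) = (T σ d).r * N) :
    ordOf (phi hN σ) (jEd k N d) = -(m : ℤ) := by
  rw [ordOf, phi_jEd hN σ hd m hm, subL_jqModC_order]

theorem CuspSep_jEd_ne_zero (hN : (N : k) ≠ 0) (σ : ↥(FF k N) →ₐ[↥(EE k)] OmBar k) {d : ℕ}
    (hd : d ∣ N) : jEd k N d ≠ 0 := by
  intro h0
  obtain ⟨m, hm⟩ := exists_pnat_T_r hN σ hd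
  have h1 := CuspSep_ordOf_jEd hN σ hd m hm
  rw [h0, ordOf, map_zero, HahnSeries.order_zero] at h1
  have := m.pos
  omega

/-- the exponents `r_d` are invariants of the place. -/
theorem T_r_eq_of_ringOf_eq [IsAlgClosed k] (hN : (N : k) ≠ 0)
    (σ σ' : ↥(FF k N) →ₐ[↥(EE k)] OmBar k) (h : ringOf (phi hN σ) = ringOf (phi hN σ'))
    {d : ℕ} (hd : d ∣ N) : (T σ d).r = (T σ' d).r := by
  obtain ⟨m, hm⟩ := exists_pnat_T_r hN σ hd
  obtain ⟨m', hm'⟩ := exists_pnat_T_r hN σ' hd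
  have h1 := ordOf_phi_eq hN σ σ' h (jEd k N d) (CuspSep_jEd_ne_zero hN σ hd)
  rw [CuspSep_ordOf_jEd hN σ hd m hm, CuspSep_ordOf_jEd hN σ' hd m' hm'] at h1
  have h2 : ((m : ℕ) : ℤ) = ((m' : ℕ) : ℤ) := by omega
  have h3 : ((m : ℕ) : ℚ) = ((m' : ℕ) : ℚ) := by exact_mod_cast h2
  rw [hm, hm'] at h3
  have hN0 : (N : ℚ) ≠ 0 := by exact_mod_cast NeZero.ne N
  exact mul_right_cancel₀ hN0 h3

theorem CuspSep_baseL_const (a : k) :
    baseL k N (algebraMap k (LaurentSeries k) a) =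
      HahnSeries.single 0 (algebraMap k (AlgebraicClosure k) a) := by
  rw [baseL, RingHom.comp_apply, algebraMap_laurentSeries_eq_single, coeffMap_single,
    qExpand_single, mul_zero]

/-- the image of `j(q^d) - c₀ j` under an embedding with `r_d = 1`. -/
theorem CuspSep_phi_f (hN : (N : k) ≠ 0) (σ : ↥(FF k N) →ₐ[↥(EE k)] OmBar k) {d : ℕ}
    (hd : d ∣ N) (hr : (T σ d).r = 1) (c₀ : k) :
    phi hN σ (jEd k N d - algebraMap k (EC k N) c₀ * jE k N) =
      subL k (T σ d).c (pnatN N) (jqModC (AlgebraicClosure k)) -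
        HahnSeries.single 0 (algebraMap k (AlgebraicClosure k) c₀) *
          subL k 1 (pnatN N) (jqModC (AlgebraicClosure k)) := by
  have hm : ((pnatN N : ℕ+) : ℚ) = (T σ d).r * N := by
    rw [hr, one_mul]; rfl
  rw [map_sub, map_mul, phi_jEd hN σ hd (pnatN N) hm, phi_algebraMap, phi_jE, baseL_jqModC,
    CuspSep_baseL_const]

theorem CuspSep_coeff_lt (c : (AlgebraicClosure k)ˣ) (a : AlgebraicClosure k) {n : ℤ}
    (hn : n < -(N : ℤ)) :
    (subL k c (pnatN N) (jqModC (AlgebraicClosure k)) -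
        HahnSeries.single 0 a * subL k 1 (pnatN N) (jqModC (AlgebraicClosure k))).coeff n = 0 := by
  have h1 : ∀ u : (AlgebraicClosure k)ˣ,
      (subL k u (pnatN N) (jqModC (AlgebraicClosure k))).coeff n = 0 := by
    intro u
    apply HahnSeries.coeff_eq_zero_of_lt_order
    rw [subL_jqModC_order]
    exact hn
  rw [HahnSeries.coeff_sub, HahnSeries.coeff_single_zero_mul, h1, h1, mul_zero, sub_zero]

theorem CuspSep_coeff_eq (c : (AlgebraicClosure k)ˣ) (a : AlgebraicClosure k) :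
    (subL k c (pnatN N) (jqModC (AlgebraicClosure k)) -
        HahnSeries.single 0 a * subL k 1 (pnatN N) (jqModC (AlgebraicClosure k))).coeff
          (-(N : ℤ)) = ((c⁻¹ : (AlgebraicClosure k)ˣ) : AlgebraicClosure k) - a := by
  have h1 : ∀ u : (AlgebraicClosure k)ˣ,
      (subL k u (pnatN N) (jqModC (AlgebraicClosure k))).coeff (-(N : ℤ)) =
        ((u⁻¹ : (AlgebraicClosure k)ˣ) : AlgebraicClosure k) := fun u =>
    subL_jqModC_coeff u (pnatN N)
  rw [HahnSeries.coeff_sub, HahnSeries.coeff_single_zero_mul, h1, h1]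
  simp

/-- if `r_d = 1` the constant `c_d` is an invariant of the place (it is the value of `j / j(q^d)`
at the place). -/
theorem T_c_eq_of_ringOf_eq [IsAlgClosed k] (hN : (N : k) ≠ 0)
    (σ σ' : ↥(FF k N) →ₐ[↥(EE k)] OmBar k) (h : ringOf (phi hN σ) = ringOf (phi hN σ'))
    {d : ℕ} (hd : d ∣ N) (hr : (T σ d).r = 1) : (T σ d).c = (T σ' d).c := by
  by_contra hne
  have hr' : (T σ' d).r = 1 := by rw [← T_r_eq_of_ringOf_eq hN σ σ' h hd, hr]
  obtain ⟨c₀, hc₀⟩ := (IsAlgClosed.algebraMap_bijective_of_isIntegral (k := k)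
    (K := AlgebraicClosure k)).2 ((((T σ d).c)⁻¹ : (AlgebraicClosure k)ˣ) : AlgebraicClosure k)
  set f : EC k N := jEd k N d - algebraMap k (EC k N) c₀ * jE k N with hf
  have e1 := CuspSep_phi_f hN σ hd hr c₀
  have e2 := CuspSep_phi_f hN σ' hd hr' c₀
  rw [← hf, hc₀] at e1 e2
  have hc2 : (phi hN σ' f).coeff (-(N : ℤ)) ≠ 0 := by
    rw [e2, CuspSep_coeff_eq, sub_ne_zero]
    intro h3
    apply hne
    have h4 : ((T σ' d).c)⁻¹ = ((T σ d).c)⁻¹ := Units.ext h3
    exact (inv_injective h4).symm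
  have hf0 : f ≠ 0 := by
    intro h0
    rw [h0, map_zero] at hc2
    exact hc2 rfl
  have ho2 : ordOf (phi hN σ') f ≤ -(N : ℤ) := HahnSeries.order_le_of_coeff_ne_zero hc2
  have hne1 : phi hN σ f ≠ 0 := map_ne_zero_of_ne (phi hN σ) hf0
  have ho1 : -(N : ℤ) < ordOf (phi hN σ) f := by
    by_contra hcon
    rw [not_lt] at hcon
    apply (mt HahnSeries.coeff_order_eq_zero.mp hne1)
    rcases lt_or_eq_of_le hcon with hlt | heq
    · have hlt' : (phi hN σ f).order < -(N : ℤ) := hlt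
      generalize (phi hN σ f).order = n at hlt'
      rw [e1]
      exact CuspSep_coeff_lt _ _ hlt'
    · have h5 : (phi hN σ f).order = -(N : ℤ) := heq
      rw [h5, e1, CuspSep_coeff_eq, sub_self]
  have := ordOf_phi_eq hN σ σ' h f hf0
  omega

/-- the place attached to an embedding. -/
theorem exists_place_phi [IsAlgClosed k] (hN : (N : k) ≠ 0)
    (σ : ↥(FF k N) →ₐ[↥(EE k)] OmBar k) :
    ∃ v : Place k (EC k N), v.ord (jE k N) < 0 ∧ v.toValuationSubring = ringOf (phi hN σ) := by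
  have := finiteDimensional_jE (k := k) (N := N) hB hN
  have := isSeparable_jE (k := k) (N := N) hB hN
  have htr : Transcendental k (jE k N)⁻¹ := transcendental_inv (transcendental_jE k N)
  obtain ⟨v, hv, hvr⟩ := exists_place_of_embedding_sep (jE k N)⁻¹ htr (phi hN σ)
    (by rw [ordOf_phi_jE_inv]; exact_mod_cast NeZero.pos N)
  refine ⟨v, ?_, hvr⟩
  rw [v.ord_inv] at hv
  omega

end Fermat.Agent.GAL.Igusa
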