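import Fermat.Agent.GAL.Igusa.CuspMain
import Fermat.Agent.GAL.Igusa.Main

/-!
# GAL-IGUSA block E: `CuspUpper` (no hypotheses, no `sorry`)

`CuspUpper` (defined in `Igusa/Main.lean`) is exactly `card_poles_le` of `Igusa/CuspMain.lean`.
-/

set_option autoImplicit false

namespace Fermat.Agent.GAL.Igusa

/-- **Block E1**: in any characteristic prime to `M`, the function `j` has at most
`cuspCount M` poles on the level `M` modular function field. -/
theorem cuspUpper_E : CuspUpper := by
  intro k _ _ M _ hM Z hZ
  exact card_poles_le hM Z hZ

end Fermat.Agent.GAL.Igusa
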