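import Fermat.Agent.GAL.Igusa.EllLe

/-!
# GAL-IGUSA block B: Deuring's inequality `genus(Fb) ≤ genus(F)`
-/

set_option autoImplicit false

namespace Fermat.Agent.GAL.Igusa

open Module IntermediateField AlgebraicCurve Lib.RR

variable {K F k Fb : Type*} [Field K] [Field F] [Algebra K F] [Field k] [Field Fb] [Algebra k Fb]

/-- **Deuring's inequality.** -/
theorem genusFF_le [IsAlgClosed K] [IsAlgClosed k] [IsFF K F] [IsFF k Fb]
    (D : RedDatum K F k Fb) (x : F) (hx : x ∈ D.O)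
    (hxb : Transcendental k (D.res ⟨x, hx⟩))
    [FiniteDimensional K⟮x⟯ F] [FiniteDimensional k⟮D.res ⟨x, hx⟩⟯ Fb]
    [Algebra.IsSeparable K⟮x⟯ F] [Algebra.IsSeparable k⟮D.res ⟨x, hx⟩⟯ Fb]
    (hdeg : finrank K⟮x⟯ F = finrank k⟮D.res ⟨x, hx⟩⟯ Fb) :
    genusFF k Fb ≤ genusFF K F := by
  have hxK := D.transcendental x hx hxb
  set n := finrank K⟮x⟯ F with hn
  have hnpos : 0 < n := finrank_pos
  set m : ℕ := 2 * genusFF K F + 2 * genusFF k Fb with hm
  have d1 : Divisor.degree (m • poleDiv (K := K) x) = (m : ℤ) * n := by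
    rw [map_nsmul, degree_poleDiv x hxK, nsmul_eq_mul]
  have d2 : Divisor.degree (m • poleDiv (K := k) (D.res ⟨x, hx⟩)) = (m : ℤ) * n := by
    rw [map_nsmul, degree_poleDiv _ hxb, ← hdeg, nsmul_eq_mul]
  have hmn : (m : ℤ) ≤ (m : ℤ) * n := by
    have : (1 : ℤ) ≤ n := by exact_mod_cast hnpos
    nlinarith [Int.natCast_nonneg m]
  have e1 := ell_eq_of_lt_degree' (K := K) (D := m • poleDiv (K := K) x) (by
    rw [d1]; push_cast [hm] at hmn ⊢; omega)
  have e2 := ell_eq_of_lt_degree' (K := k) (D := m • poleDiv (K := k) (D.res ⟨x, hx⟩)) (by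
    rw [d2]; push_cast [hm] at hmn ⊢; omega)
  have h := ell_poleDiv_le D x hx hxb hdeg m
  rw [d1] at e1
  rw [d2] at e2
  have h' : (ell (m • poleDiv (K := K) x) : ℤ) ≤ ell (m • poleDiv (K := k) (D.res ⟨x, hx⟩)) := by
    exact_mod_cast h
  omega

end Fermat.Agent.GAL.Igusa
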