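import Mathlib

/-!
# GAL-IGUSA leaf B1: echelon form over a valuation ring

A `d`-dimensional subspace `V` of `K^N` contains `d` vectors with coordinates in the valuation
ring `A` whose reductions are linearly independent over the residue field.

PROOF. Induction on `d` (or on `V`). `V ≠ 0`: pick `v ≠ 0` in `V`; among its finitely many
coordinates choose `n₁` with `v n₁ ≠ 0` and `v n / v n₁ ∈ A` for all `n` (a finite non-empty family of
elements of `K` has a member dividing all the others in a valuation ring: induction with
`A.mem_or_inv_mem`). Replace `v` by `v / v n₁`: coordinates in `A`, `v n₁ = 1`.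
`V₁ := V ⊓ ker (coordinate n₁)` has dimension `d - 1` and `V = K v ⊕ V₁`. By induction get
`v₂ .. v_d` in `V₁`; their reductions have `n₁`-th coordinate `0`, the reduction of `v` has
`n₁`-th coordinate `1`: independent.
-/

set_option autoImplicit false

namespace Fermat.Agent.GAL.Igusa

open Module

/-- normalisation of a non zero vector: integral with one coordinate equal to `1`. -/
theorem echelon_exists_normalised {K : Type*} [Field K] (A : ValuationSubring K) {ι : Type*}
    [Fintype ι] (w : ι → K) (hw : w ≠ 0) :
    ∃ (a : K) (j : ι), (a • w) j = 1 ∧ ∀ i, (a • w) i ∈ A := by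
  obtain ⟨j0, hj0⟩ : ∃ j0, w j0 ≠ 0 := by
    by_contra h
    push Not at h
    exact hw (funext h)
  obtain ⟨j, -, hj⟩ := Finset.exists_max_image Finset.univ (fun j => A.valuation (w j))
    ⟨j0, Finset.mem_univ _⟩
  have hwj : w j ≠ 0 := by
    intro h
    have h1 := hj j0 (Finset.mem_univ _)
    simp only [h, map_zero, le_zero_iff, map_eq_zero] at h1
    exact hj0 h1
  refine ⟨(w j)⁻¹, j, ?_, fun i => ?_⟩
  · simp [hwj]
  · rw [← A.valuation_le_one_iff, Pi.smul_apply, smul_eq_mul, map_mul, map_inv₀]
    have h0 : A.valuation (w j) ≠ 0 := (map_ne_zero _).mpr hwj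
    have h1 := hj i (Finset.mem_univ _)
    calc (A.valuation (w j))⁻¹ * A.valuation (w i)
        ≤ (A.valuation (w j))⁻¹ * A.valuation (w j) := by gcongr
      _ = 1 := inv_mul_cancel₀ h0

theorem echelon_aux {K k : Type*} [Field K] [Field k] (A : ValuationSubring K) (r : A →+* k)
    {ι : Type*} [Fintype ι] (d : ℕ) :
    ∀ L : Submodule K (ι → K), finrank K L = d →
      ∃ y : Fin d → (ι → A), (∀ i, (fun n => ((y i n : A) : K)) ∈ L) ∧
        LinearIndependent k (fun i => fun n => r (y i n)) := by
  induction d with
  | zero =>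
    intro L _
    exact ⟨Fin.elim0, fun i => i.elim0, linearIndependent_empty_type⟩
  | succ d ih =>
    intro L hL
    have hne : L ≠ ⊥ := by
      rintro rfl
      rw [finrank_bot] at hL
      omega
    obtain ⟨w, hwL, hw0⟩ := L.exists_mem_ne_zero_of_ne_bot hne
    obtain ⟨a, j, hvj, hvA⟩ := echelon_exists_normalised A w hw0
    set v : ι → K := a • w with hv
    have hvL : v ∈ L := L.smul_mem a hwL
    let φ : L →ₗ[K] K := (LinearMap.proj j).comp L.subtype
    have hφ : ∀ x : L, φ x = (x : ι → K) j := fun _ => rfl
    have hsurj : LinearMap.range φ = ⊤ := by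
      rw [LinearMap.range_eq_top]
      intro c
      refine ⟨c • ⟨v, hvL⟩, ?_⟩
      rw [map_smul, hφ]
      show c • v j = c
      rw [hvj, smul_eq_mul, mul_one]
    have hrn := LinearMap.finrank_range_add_finrank_ker φ
    rw [hsurj, finrank_top, Module.finrank_self, hL] at hrn
    let L' : Submodule K (ι → K) := (LinearMap.ker φ).map L.subtype
    have hL' : finrank K L' = d := by
      rw [Submodule.finrank_map_subtype_eq]
      omega
    have hmem : ∀ x ∈ L', x ∈ L ∧ x j = 0 := by
      rintro _ ⟨x, hx, rfl⟩
      exact ⟨x.2, hx⟩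
    obtain ⟨y', hy'L, hy'li⟩ := ih L' hL'
    let y₀ : ι → A := fun n => ⟨v n, hvA n⟩
    refine ⟨Fin.cons y₀ y', ?_, ?_⟩
    · intro i
      refine Fin.cases ?_ (fun i => ?_) i
      · exact hvL
      · exact (hmem _ (hy'L i)).1
    · have hcons : (fun i => fun n => r ((Fin.cons y₀ y' : Fin (d + 1) → (ι → A)) i n))
          = (Fin.cons (fun n => r (y₀ n)) (fun i => fun n => r (y' i n)) :
              Fin (d + 1) → (ι → k)) := by
        funext i
        refine Fin.cases ?_ (fun i => ?_) i
        · rfl
        · rfl
      rw [hcons, linearIndependent_finCons]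
      refine ⟨hy'li, fun hspan => ?_⟩
      have hle : Submodule.span k (Set.range fun i => fun n => r (y' i n))
          ≤ LinearMap.ker (LinearMap.proj j : (ι → k) →ₗ[k] k) := by
        rw [Submodule.span_le]
        rintro _ ⟨i, rfl⟩
        show r (y' i j) = 0
        have h0 : y' i j = 0 := Subtype.ext (hmem _ (hy'L i)).2
        rw [h0, map_zero]
      have h1 : r (y₀ j) = 0 := hle hspan
      have h2 : y₀ j = 1 := Subtype.ext hvj
      rw [h2, map_one] at h1
      exact one_ne_zero h1

theorem exists_echelon {K k : Type*} [Field K] [Field k] (A : ValuationSubring K) (r : A →+* k)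
    {ι : Type*} [Finite ι] (V : Submodule K (ι → K)) :
    ∃ y : Fin (finrank K V) → (ι → A), (∀ i, (fun n => ((y i n : A) : K)) ∈ V) ∧
      LinearIndependent k (fun i => fun n => r (y i n)) := by
  cases nonempty_fintype ι
  exact echelon_aux A r _ V rfl

end Fermat.Agent.GAL.Igusa
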