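import Fermat.Agent.GAL.Igusa.OrthoBasis
import Fermat.Agent.GAL.Igusa.Echelon

/-!
# GAL-IGUSA leaf B5: dimension of the reduction of a subspace

Setting: `D : RedDatum K F k Fb`, `x ∈ D.O` with `xb = D.res x` transcendental over `k` and
`[F : K(x)] = [Fb : k(xb)] = n`.
-/

set_option autoImplicit false

namespace Fermat.Agent.GAL.Igusa

open Module IntermediateField Polynomial

variable {K F k Fb : Type*} [Field K] [Field F] [Algebra K F] [Field k] [Field Fb] [Algebra k Fb]

theorem redDim_linearIndependent_pow {x : F} (hx : Transcendental K x) :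
    LinearIndependent K (fun a : ℕ => x ^ a) := by
  have h := (Polynomial.basisMonomials K).linearIndependent.map' (aeval x).toLinearMap
    (LinearMap.ker_eq_bot.2 (transcendental_iff_injective.1 hx))
  have h2 : (fun a : ℕ => x ^ a) = (aeval x).toLinearMap ∘ (Polynomial.basisMonomials K) := by
    funext a
    simp [coe_basisMonomials]
  rw [h2]
  exact h

theorem redDim_linearIndependent_mul {x : F} (hx : Transcendental K x) {ι : Type*} {z : ι → F}
    (hz : LinearIndependent K⟮x⟯ z) :
    LinearIndependent K (fun p : ℕ × ι => x ^ p.1 * z p.2) := by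
  have h1 : LinearIndependent K (fun a : ℕ => (AdjoinSimple.gen K x) ^ a) := by
    apply LinearIndependent.of_comp (K⟮x⟯.val.toLinearMap)
    have h2 : (K⟮x⟯.val.toLinearMap) ∘ (fun a : ℕ => (AdjoinSimple.gen K x) ^ a)
        = fun a : ℕ => x ^ a := by
      funext a
      simp
    rw [h2]
    exact redDim_linearIndependent_pow hx
  have h3 := linearIndependent_smul h1 hz
  have h4 : (fun p : ℕ × ι => x ^ p.1 * z p.2)
      = fun p : ℕ × ι => (AdjoinSimple.gen K x) ^ p.1 • z p.2 := by
    funext p
    rw [Algebra.smul_def, IntermediateField.algebraMap_apply, SubmonoidClass.coe_pow,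
      AdjoinSimple.coe_gen]
  rw [h4]
  exact h3

theorem redDim_linearIndependent_mul' {x : F} (hx : Transcendental K x) {ι : Type*} {z : ι → F}
    (hz : LinearIndependent K⟮x⟯ z) (M : ℕ) :
    LinearIndependent K (fun p : Fin M × ι => x ^ (p.1 : ℕ) * z p.2) := by
  have hinj : Function.Injective (fun p : Fin M × ι => (((p.1 : ℕ), p.2) : ℕ × ι)) := by
    rintro ⟨a, i⟩ ⟨a', i'⟩ hp
    simp only [Prod.mk.injEq] at hp
    exact Prod.ext (Fin.ext hp.1) hp.2
  have h := (redDim_linearIndependent_mul hx hz).comp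
    (fun p : Fin M × ι => (((p.1 : ℕ), p.2) : ℕ × ι)) hinj
  exact h

/-- every element of `K(x)` has a denominator. -/
theorem redDim_exists_denominator {x : F} (c : K⟮x⟯) :
    ∃ r s : K[X], aeval x s ≠ 0 ∧ aeval x s * (c : F) = aeval x r := by
  obtain ⟨r, s, hrs⟩ := (mem_adjoin_simple_iff K (c : F)).1 c.2
  by_cases hs : aeval x s = 0
  · refine ⟨0, 1, by simp, ?_⟩
    rw [hrs, hs, div_zero, mul_zero, map_zero]
  · refine ⟨r, s, hs, ?_⟩
    rw [hrs]
    field_simp

/-- common denominators. -/
theorem redDim_common_denominator {x : F} {ι : Type*} [Fintype ι] (c : ι → K⟮x⟯) :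
    ∃ h : K[X], aeval x h ≠ 0 ∧ ∀ j, ∃ g : K[X], aeval x h * (c j : F) = aeval x g := by
  classical
  choose r s hs hrs using fun j => redDim_exists_denominator (c j)
  refine ⟨∏ j, s j, ?_, fun j => ⟨r j * ∏ i ∈ Finset.univ.erase j, s i, ?_⟩⟩
  · rw [map_prod]
    exact Finset.prod_ne_zero_iff.2 fun j _ => hs j
  · rw [← Finset.mul_prod_erase Finset.univ s (Finset.mem_univ j), map_mul, map_mul, ← hrs j]
    ring

namespace RedDatum

variable (D : RedDatum K F k Fb)

/-- **Leaf B5 (dimension of the reduction).** A `d`-dimensional `K`-subspace `V` of `F` contains `d`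
elements of `O` with `k`-linearly independent reductions.
PROOF. Take the orthonormal basis `b` (B2c). Choose a `K`-basis `v₁..v_d` of `V`; the finitely many
coordinates `b.repr (v_l) i ∈ K(x)` have a common denominator `h(x)`, `h ∈ K[X]`, `h ≠ 0`, which we
scale to have coefficients in `A` and non-zero reduction, so `h(x)` is a unit of `O`. Then
`h(x) V ⊆ W := span_K {x^a b i : a ≤ deg, i}`, and `{x^a b i}` is `K`-linearly independent.
Apply `exists_echelon` to (the coordinates of) `h(x) V` inside `W ≅ K^N`: get `w_l ∈ h(x) V` with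
coordinates in `A`; `res w_l = ∑ (coordinates bar) xb^a res (b i)`; the family `xb^a res (b i)` is
`k`-linearly independent (`xb` transcendental + `res (b i)` independent over `k(xb)`), so the
`res w_l` are independent. `y_l := w_l / h(x)`; `res y_l = res w_l / res h(x)`. -/
theorem exists_independent_reductions (x : F) (hx : x ∈ D.O)
    (hxb : Transcendental k (D.res ⟨x, hx⟩))
    [FiniteDimensional K⟮x⟯ F] [FiniteDimensional k⟮D.res ⟨x, hx⟩⟯ Fb]
    (hdeg : finrank K⟮x⟯ F = finrank k⟮D.res ⟨x, hx⟩⟯ Fb)
    (V : Submodule K F) [FiniteDimensional K V] :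
    ∃ y : Fin (finrank K V) → D.O, (∀ i, (y i : F) ∈ V) ∧
      LinearIndependent k (fun i => D.res (y i)) := by
  classical
  obtain ⟨b, hbO, hbli, -⟩ := D.exists_orthonormal_basis x hx hxb hdeg
  have hbli := hbli hbO
  have hxK : Transcendental K x := D.transcendental x hx hxb
  let vb := Module.finBasis K V
  obtain ⟨h, hh0, hg⟩ := redDim_common_denominator (x := x)
    (fun p : Fin (finrank K V) × Fin (finrank K⟮x⟯ F) => b.repr ((vb p.1 : V) : F) p.2)
  choose g hg using hg
  obtain ⟨c, hc0, hHO, hHres⟩ := D.scale (aeval x h) hh0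
  set H : F := algebraMap K F c * aeval x h with hHdef
  have hH0 : H ≠ 0 := mul_ne_zero (by simpa using hc0) hh0
  let M : ℕ := (Finset.univ.sup fun p => (g p).natDegree) + 1
  have hM : ∀ p, (g p).natDegree < M := fun p =>
    Nat.lt_succ_of_le (Finset.le_sup (f := fun p => (g p).natDegree) (Finset.mem_univ p))
  let e : Fin M × Fin (finrank K⟮x⟯ F) → F := fun p => x ^ (p.1 : ℕ) * b p.2
  have he : LinearIndependent K e := redDim_linearIndependent_mul' hxK b.linearIndependent M
  let Φ : (Fin M × Fin (finrank K⟮x⟯ F) → K) →ₗ[K] F := Fintype.linearCombination K e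
  have hΦ : Function.Injective Φ := he.fintypeLinearCombination_injective
  let U : Submodule K F := V.map (LinearMap.mulLeft K H)
  have hpoly : ∀ p : Fin (finrank K V) × Fin (finrank K⟮x⟯ F),
      aeval x (g p) * b p.2 ∈ Submodule.span K (Set.range e) := by
    intro p
    rw [aeval_eq_sum_range' (hM p), Finset.sum_mul, Finset.sum_range]
    refine Submodule.sum_mem _ fun a _ => ?_
    rw [smul_mul_assoc]
    exact Submodule.smul_mem _ _ (Submodule.subset_span ⟨(a, p.2), rfl⟩)
  have hbasis : ∀ l, H * ((vb l : V) : F) ∈ Submodule.span K (Set.range e) := by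
    intro l
    have h1 : ((vb l : V) : F) = ∑ i, b.repr ((vb l : V) : F) i • b i := (b.sum_repr _).symm
    rw [h1, Finset.mul_sum]
    refine Submodule.sum_mem _ fun i _ => ?_
    have h2 : H * (b.repr ((vb l : V) : F) i • b i) = c • (aeval x (g (l, i)) * b i) := by
      rw [← hg (l, i), hHdef, Algebra.smul_def, Algebra.smul_def]
      show _ * _ * (((b.repr ((vb l : V) : F) i : K⟮x⟯) : F) * b i) = _
      ring
    rw [h2]
    exact Submodule.smul_mem _ _ (hpoly (l, i))
  have hU : U ≤ LinearMap.range Φ := by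
    rw [Fintype.range_linearCombination]
    rintro _ ⟨v, hv, rfl⟩
    have h1 : (⟨v, hv⟩ : V) = ∑ l, vb.repr ⟨v, hv⟩ l • vb l := (vb.sum_repr _).symm
    have h2 : v = ∑ l, vb.repr ⟨v, hv⟩ l • ((vb l : V) : F) := by
      have := congrArg V.subtype h1
      rw [map_sum] at this
      simpa only [map_smul, Submodule.subtype_apply] using this
    rw [LinearMap.mulLeft_apply, h2, Finset.mul_sum]
    refine Submodule.sum_mem _ fun l _ => ?_
    rw [mul_smul_comm]
    exact Submodule.smul_mem _ _ (hbasis l)
  let V' : Submodule K (Fin M × Fin (finrank K⟮x⟯ F) → K) := U.comap Φ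
  have hd : finrank K V' = finrank K V := by
    have h1 : V'.map Φ = U := by
      rw [Submodule.map_comap_eq, inf_eq_right.2 hU]
    have hmul : Function.Injective (LinearMap.mulLeft K H) := fun a a' haa' =>
      mul_left_cancel₀ hH0 haa'
    rw [(Submodule.equivMapOfInjective Φ hΦ V').finrank_eq, h1,
      ← (Submodule.equivMapOfInjective _ hmul V).finrank_eq]
  obtain ⟨y', hy'V, hy'li⟩ := exists_echelon D.A D.resK V'
  let E : Fin M × Fin (finrank K⟮x⟯ F) → D.O := fun p =>
    (⟨x, hx⟩ : D.O) ^ (p.1 : ℕ) * ⟨b p.2, hbO p.2⟩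
  let W : Fin (finrank K V') → D.O := fun l =>
    ∑ p, (⟨algebraMap K F (y' l p : K), D.map_mem _⟩ : D.O) * E p
  have hWcoe : ∀ l, (W l : F) = Φ (fun p => ((y' l p : D.A) : K)) := by
    intro l
    simp only [W, E, Φ, e, Fintype.linearCombination_apply, Algebra.smul_def,
      AddSubmonoidClass.coe_finsetSum, MulMemClass.coe_mul, SubmonoidClass.coe_pow]
  have hWU : ∀ l, (W l : F) ∈ U := fun l => by
    rw [hWcoe]
    exact hy'V l
  let eb : Fin M × Fin (finrank K⟮x⟯ F) → Fb := fun p =>
    (D.res ⟨x, hx⟩) ^ (p.1 : ℕ) * D.res ⟨b p.2, hbO p.2⟩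
  have heb : LinearIndependent k eb := redDim_linearIndependent_mul' hxb hbli M
  have hWres : ∀ l, D.res (W l) = Fintype.linearCombination k eb (fun p => D.resK (y' l p)) := by
    intro l
    simp only [W, E, eb, map_sum, map_mul, map_pow, D.res_algebraMap,
      Fintype.linearCombination_apply, Algebra.smul_def]
  have hWli : LinearIndependent k (fun l => D.res (W l)) := by
    have := hy'li.map' (Fintype.linearCombination k eb)
      (LinearMap.ker_eq_bot.2 heb.fintypeLinearCombination_injective)
    have h2 : (fun l => D.res (W l))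
        = (Fintype.linearCombination k eb) ∘ (fun i => fun n => D.resK (y' i n)) := by
      funext l
      exact hWres l
    rw [h2]
    exact this
  have hHunit : IsUnit (⟨H, hHO⟩ : D.O) := by
    by_contra hcon
    exact hHres ((D.res_eq_zero_iff _).2 hcon)
  obtain ⟨u, hu⟩ := hHunit
  let y : Fin (finrank K V') → D.O := fun l => ↑u⁻¹ * W l
  have hHy : ∀ l, (⟨H, hHO⟩ : D.O) * y l = W l := by
    intro l
    rw [← hu]
    exact Units.mul_inv_cancel_left u (W l)
  have hy : ∀ l, (y l : F) ∈ V := by
    intro l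
    obtain ⟨v, hv, hvW⟩ := hWU l
    have h1 : H * (y l : F) = (W l : F) := congrArg Subtype.val (hHy l)
    have h2 : H * v = (W l : F) := hvW
    have h3 : (y l : F) = v := mul_left_cancel₀ hH0 (h1.trans h2.symm)
    rw [h3]
    exact hv
  have hyli : LinearIndependent k (fun l => D.res (y l)) := by
    apply LinearIndependent.of_comp (LinearMap.mulLeft k (D.res ⟨H, hHO⟩))
    have h2 : (LinearMap.mulLeft k (D.res ⟨H, hHO⟩)) ∘ (fun l => D.res (y l))
        = fun l => D.res (W l) := by
      funext l
      show D.res ⟨H, hHO⟩ * D.res (y l) = D.res (W l)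
      rw [← map_mul, hHy]
    rw [h2]
    exact hWli
  exact ⟨fun i => y (Fin.cast hd.symm i), fun i => hy _, hyli.comp _ (Fin.cast_injective _)⟩

end RedDatum

end Fermat.Agent.GAL.Igusa
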