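import Fermat.Agent.GAL.Igusa.Integral
import Fermat.Agent.GAL.Igusa.RedDim
import Fermat.Agent.GAL.Igusa.PoleSpaceIff

/-!
# GAL-IGUSA leaf B6: `ℓ(m (x)_∞) ≤ ℓ(m (xb)_∞)`
-/

set_option autoImplicit false

namespace Fermat.Agent.GAL.Igusa

open Module IntermediateField AlgebraicCurve Lib.RR

variable {K F k Fb : Type*} [Field K] [Field F] [Algebra K F] [Field k] [Field Fb] [Algebra k Fb]

/-- an element of `O` with non zero reduction is a unit of `O`. -/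
theorem RedDatum.inv_mem_and_res_inv (D : RedDatum K F k Fb) (x : F) (hx : x ∈ D.O)
    (h0 : D.res ⟨x, hx⟩ ≠ 0) :
    ∃ hx' : x⁻¹ ∈ D.O, D.res ⟨x⁻¹, hx'⟩ = (D.res ⟨x, hx⟩)⁻¹ := by
  have hunit : IsUnit (⟨x, hx⟩ : D.O) := by
    by_contra h
    exact h0 ((D.res_eq_zero_iff _).mpr h)
  obtain ⟨u, hu⟩ := hunit
  have h1 : ((u⁻¹ : (D.O)ˣ) : D.O) * ⟨x, hx⟩ = 1 := by
    rw [← hu]
    simp
  have h2 : (((u⁻¹ : (D.O)ˣ) : D.O) : F) * x = 1 := congrArg Subtype.val h1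
  have h3 : x⁻¹ = (((u⁻¹ : (D.O)ˣ) : D.O) : F) := (eq_inv_of_mul_eq_one_left h2).symm
  have hx' : x⁻¹ ∈ D.O := by
    rw [h3]
    exact SetLike.coe_mem _
  refine ⟨hx', ?_⟩
  have h4 : (⟨x⁻¹, hx'⟩ : D.O) = ((u⁻¹ : (D.O)ˣ) : D.O) := Subtype.ext h3
  apply eq_inv_of_mul_eq_one_left
  rw [← map_mul, h4, h1, map_one]

/-- **Leaf B6.** `ℓ(m (x)_∞) ≤ ℓ(m (xb)_∞)`.
PROOF. `V := L(m (x)_∞)`, `d = ell`. B5 gives `y_1..y_d ∈ V ∩ O` with independent reductions.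
By P4 `y_i` is integral over `K[x]` and `y_i x^-m` over `K[1/x]`. `x` is a unit of `O`
(`res x ≠ 0`), `res (x⁻¹) = xb⁻¹` is transcendental, `K(x⁻¹) = K(x)`, `k(xb⁻¹) = k(xb)`, so B4 applies to
`x` and to `x⁻¹`: `res y_i` integral over `k[xb]`, `res y_i * xb^-m` integral over `k[1/xb]`. P4 on `Fb`:
`res y_i ∈ L(m (xb)_∞)`. `d` independent vectors in it
(`LinearIndependent.fintype_card_le_finrank` in the subspace). -/
theorem ell_poleDiv_le [IsAlgClosed K] [IsAlgClosed k] [IsFF K F] [IsFF k Fb]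
    (D : RedDatum K F k Fb) (x : F) (hx : x ∈ D.O)
    (hxb : Transcendental k (D.res ⟨x, hx⟩))
    [FiniteDimensional K⟮x⟯ F] [FiniteDimensional k⟮D.res ⟨x, hx⟩⟯ Fb]
    [Algebra.IsSeparable K⟮x⟯ F] [Algebra.IsSeparable k⟮D.res ⟨x, hx⟩⟯ Fb]
    (hdeg : finrank K⟮x⟯ F = finrank k⟮D.res ⟨x, hx⟩⟯ Fb) (m : ℕ) :
    ell (m • poleDiv (K := K) x) ≤ ell (m • poleDiv (K := k) (D.res ⟨x, hx⟩)) := by
  have hxK : Transcendental K x := D.transcendental x hx hxb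
  have hxb0 : D.res ⟨x, hx⟩ ≠ 0 := by
    intro h
    apply hxb
    rw [h]
    exact isAlgebraic_zero
  obtain ⟨hx', hres'⟩ := D.inv_mem_and_res_inv x hx hxb0
  have hxb' : Transcendental k (D.res ⟨x⁻¹, hx'⟩) := by
    rw [hres']
    exact S24.transcendental_inv hxb
  have hfd1 : FiniteDimensional K⟮x⁻¹⟯ F := GAL.FF.finiteDimensional_adjoin_inv x
  have hfd2 : FiniteDimensional k⟮D.res ⟨x⁻¹, hx'⟩⟯ Fb := by
    rw [hres']
    exact GAL.FF.finiteDimensional_adjoin_inv _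
  have hdeg' : finrank K⟮x⁻¹⟯ F = finrank k⟮D.res ⟨x⁻¹, hx'⟩⟯ Fb := by
    rw [hres', S24.adjoin_inv_eq, S24.adjoin_inv_eq]
    exact hdeg
  obtain ⟨y, hyV, hyind⟩ := D.exists_independent_reductions x hx hxb hdeg
    (riemannRochSpace (m • poleDiv (K := K) x))
  have hmem : ∀ i, D.res (y i) ∈ riemannRochSpace (m • poleDiv (K := k) (D.res ⟨x, hx⟩)) := by
    intro i
    obtain ⟨h1, h2⟩ := (mem_L_poleDiv_iff x hxK m (y i : F)).mp (hyV i)
    rw [mem_L_poleDiv_iff _ hxb m]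
    refine ⟨D.isIntegral_res x hx hxb hdeg (y i) h1, ?_⟩
    have h3 := D.isIntegral_res x⁻¹ hx' hxb' hdeg' (y i * ⟨x⁻¹, hx'⟩ ^ m) h2
    rw [map_mul, map_pow] at h3
    rw [hres'] at h3
    exact h3
  have hind : LinearIndependent k (fun i =>
      (⟨D.res (y i), hmem i⟩ : riemannRochSpace (m • poleDiv (K := k) (D.res ⟨x, hx⟩)))) := by
    apply LinearIndependent.of_comp (Submodule.subtype _)
    exact hyind
  have h := hind.fintype_card_le_finrank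
  rw [Fintype.card_fin] at h
  exact h

end Fermat.Agent.GAL.Igusa
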