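import Fermat.Agent.GAL.Igusa.RedDatum

/-!
# GAL-IGUSA leaf B2: Gauss lemma for a reduction datum

Setting: `D : RedDatum K F k Fb`, `x ∈ D.O` with `xb = D.res x` transcendental over `k` and
`[F : K(x)] = [Fb : k(xb)] = n`.
-/

set_option autoImplicit false

namespace Fermat.Agent.GAL.Igusa

open Module IntermediateField Polynomial

variable {K F k Fb : Type*} [Field K] [Field F] [Algebra K F] [Field k] [Field Fb] [Algebra k Fb]

/-- a surjection from a local ring onto a field kills exactly the non-units. -/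
theorem gauss_map_eq_zero_iff {R S : Type*} [CommRing R] [IsLocalRing R] [Field S] (f : R →+* S)
    (hf : Function.Surjective f) (y : R) : f y = 0 ↔ ¬ IsUnit y := by
  have h1 : (RingHom.ker f).IsMaximal := RingHom.ker_isMaximal_of_surjective f hf
  have h2 := IsLocalRing.eq_maximalIdeal h1
  rw [← RingHom.mem_ker, h2, IsLocalRing.mem_maximalIdeal, mem_nonunits_iff]

namespace RedDatum

variable (D : RedDatum K F k Fb)

/-- `D.res` kills exactly the non-units. (`Fb` is a field and `res` is surjective, so the kernel is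
the maximal ideal.) -/
theorem res_eq_zero_iff (y : D.O) : D.res y = 0 ↔ ¬ IsUnit y :=
  gauss_map_eq_zero_iff D.res D.res_surj y

theorem gauss_resK_eq_zero_iff (a : D.A) : D.resK a = 0 ↔ ¬ IsUnit a :=
  gauss_map_eq_zero_iff D.resK D.resK_surj a

/-- the structure map `A → O`. -/
def gaussMap : D.A →+* D.O where
  toFun a := ⟨algebraMap K F (a : K), D.map_mem a⟩
  map_one' := Subtype.ext (by simp)
  map_mul' a b := Subtype.ext (by simp)
  map_zero' := Subtype.ext (by simp)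
  map_add' a b := Subtype.ext (by simp)

theorem gauss_coe_eval₂ (x : D.O) (p₀ : D.A[X]) :
    ((p₀.eval₂ D.gaussMap x : D.O) : F) = aeval (x : F) (p₀.map D.A.subtype) := by
  have h := Polynomial.hom_eval₂ p₀ D.gaussMap D.O.subtype x
  rw [aeval_def, eval₂_map]
  exact h

theorem gauss_res_eval₂ (x : D.O) (p₀ : D.A[X]) :
    D.res (p₀.eval₂ D.gaussMap x) = aeval (D.res x) (p₀.map D.resK) := by
  rw [Polynomial.hom_eval₂, aeval_def, eval₂_map]
  congr 1
  ext a
  exact D.res_algebraMap a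

theorem gauss_aeval_mem (x : F) (hx : x ∈ D.O) (p₀ : D.A[X]) :
    aeval x (p₀.map D.A.subtype) ∈ D.O := by
  rw [← D.gauss_coe_eval₂ ⟨x, hx⟩ p₀]
  exact Subtype.mem _

theorem gauss_res_aeval (x : F) (hx : x ∈ D.O) (p₀ : D.A[X])
    (h : aeval x (p₀.map D.A.subtype) ∈ D.O) :
    D.res ⟨aeval x (p₀.map D.A.subtype), h⟩ = aeval (D.res ⟨x, hx⟩) (p₀.map D.resK) := by
  rw [← D.gauss_res_eval₂ ⟨x, hx⟩ p₀]
  congr 1
  exact Subtype.ext (D.gauss_coe_eval₂ ⟨x, hx⟩ p₀).symm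

/-- scaling a non zero polynomial. -/
theorem gauss_exists_scale (p : K[X]) (hp : p ≠ 0) :
    ∃ (c : K) (p₀ : D.A[X]), c ≠ 0 ∧ p = C c * p₀.map D.A.subtype ∧ p₀.map D.resK ≠ 0 := by
  obtain ⟨i, hi, hmax⟩ := Finset.exists_max_image p.support
    (fun i => D.A.valuation (p.coeff i)) (nonempty_support_iff.mpr hp)
  have hc : p.coeff i ≠ 0 := mem_support_iff.mp hi
  set c := p.coeff i with hcdef
  have hcoeff : ∀ j, (C c⁻¹ * p).coeff j ∈ Set.range D.A.subtype := by
    intro j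
    rw [coeff_C_mul]
    have hmem : c⁻¹ * p.coeff j ∈ D.A := by
      by_cases hj : j ∈ p.support
      · rw [← D.A.valuation_le_one_iff, map_mul, map_inv₀]
        have h0 : D.A.valuation c ≠ 0 := (_root_.map_ne_zero _).mpr hc
        have h1 := hmax j hj
        calc (D.A.valuation c)⁻¹ * D.A.valuation (p.coeff j)
            ≤ (D.A.valuation c)⁻¹ * D.A.valuation c := by gcongr
          _ = 1 := inv_mul_cancel₀ h0
      · rw [notMem_support_iff.mp hj, mul_zero]
        exact D.A.zero_mem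
    exact ⟨⟨_, hmem⟩, rfl⟩
  obtain ⟨p₀, hp₀⟩ := (mem_lifts _).mp ((lifts_iff_coeff_lifts _).mpr hcoeff)
  refine ⟨c, p₀, hc, ?_, ?_⟩
  · rw [hp₀, ← mul_assoc, ← C_mul, mul_inv_cancel₀ hc, C_1, one_mul]
  · intro h0
    have h1 : ((p₀.coeff i : D.A) : K) = 1 := by
      have := congrArg (fun q => q.coeff i) hp₀
      simp only [coeff_map, coeff_C_mul] at this
      rw [← hcdef, inv_mul_cancel₀ hc] at this
      exact this
    have h2 : p₀.coeff i = 1 := Subtype.ext h1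
    have h3 := congrArg (fun q => q.coeff i) h0
    simp only [coeff_map, h2, map_one, coeff_zero] at h3
    exact one_ne_zero h3

/-- `O ∩ K = A`. -/
theorem gauss_mem_of_algebraMap_mem (c : K) (hc : algebraMap K F c ∈ D.O) : c ∈ D.A := by
  by_contra h
  have hc0 : c ≠ 0 := by
    rintro rfl
    exact h D.A.zero_mem
  have hinv : c⁻¹ ∈ D.A := (D.A.mem_or_inv_mem c).resolve_left h
  have hnu : ¬ IsUnit (⟨c⁻¹, hinv⟩ : D.A) := by
    rintro ⟨u, hu⟩
    apply h
    have h1 : ((u⁻¹ : D.Aˣ) : D.A) * ⟨c⁻¹, hinv⟩ = 1 := by rw [← hu]; exact u.inv_mul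
    have h2 := congrArg (Subtype.val) h1
    have h3 : (((u⁻¹ : D.Aˣ) : D.A) : K) * c⁻¹ = 1 := h2
    have h4 : (((u⁻¹ : D.Aˣ) : D.A) : K) = c := by
      field_simp at h3
      exact h3
    rw [← h4]
    exact Subtype.mem _
  have h0 := (D.gauss_resK_eq_zero_iff _).mpr hnu
  have h1 := D.res_algebraMap ⟨c⁻¹, hinv⟩
  rw [h0, map_zero] at h1
  have h2 : (⟨algebraMap K F c⁻¹, D.map_mem ⟨c⁻¹, hinv⟩⟩ : D.O) * ⟨algebraMap K F c, hc⟩ = 1 := by
    apply Subtype.ext
    show algebraMap K F c⁻¹ * algebraMap K F c = 1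
    rw [← map_mul, inv_mul_cancel₀ hc0, map_one]
  have h3 := congrArg D.res h2
  rw [map_mul, h1, zero_mul, map_one] at h3
  exact zero_ne_one h3

/-- the value at `x` of a polynomial over `A` with non zero reduction is a unit of `O`. -/
theorem gauss_res_aeval_ne_zero (x : F) (hx : x ∈ D.O)
    (hxb : Transcendental k (D.res ⟨x, hx⟩)) (p₀ : D.A[X]) (hp₀ : p₀.map D.resK ≠ 0) :
    D.res ⟨aeval x (p₀.map D.A.subtype), D.gauss_aeval_mem x hx p₀⟩ ≠ 0 := by
  rw [D.gauss_res_aeval x hx p₀]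
  intro h
  exact hp₀ (transcendental_iff.mp hxb _ h)

theorem gauss_inv_mem (u : F) (hu : u ∈ D.O) (h : D.res ⟨u, hu⟩ ≠ 0) : u⁻¹ ∈ D.O := by
  have h1 : IsUnit (⟨u, hu⟩ : D.O) := by
    by_contra hcon
    exact h ((D.res_eq_zero_iff _).mpr hcon)
  obtain ⟨w, hw⟩ := h1
  have h2 : ((w⁻¹ : D.Oˣ) : D.O) * ⟨u, hu⟩ = 1 := by rw [← hw]; exact w.inv_mul
  have h3 : (((w⁻¹ : D.Oˣ) : D.O) : F) * u = 1 := congrArg Subtype.val h2
  have h4 : u⁻¹ = (((w⁻¹ : D.Oˣ) : D.O) : F) := (eq_inv_of_mul_eq_one_left h3).symm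
  rw [h4]
  exact Subtype.mem _

/-- **Leaf B2a (Gauss lemma).** A polynomial `p ∈ K[X]` with `p(x) ∈ O` has coefficients in `A`,
and `res (p(x)) = pbar(xb)`.
PROOF. `p = 0` trivial. Otherwise scale: `p = c • p₀`, `p₀` with coefficients in `A`, one of them a
unit (finitely many coefficients, valuation ring). `res (p₀(x)) = p₀bar(xb) ≠ 0` because `xb` is
transcendental and `p₀bar ≠ 0`. So `p₀(x)` is a unit of `O`; `c = p(x)/p₀(x) ∈ O ∩ K = A`
(if `c ∉ A` then `c⁻¹` is in the maximal ideal of `A`, so `res (c⁻¹) = 0`, but `c⁻¹` would be a unit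
of `O`). -/
theorem exists_polynomial_of_aeval_mem (x : F) (hx : x ∈ D.O)
    (hxb : Transcendental k (D.res ⟨x, hx⟩)) (p : K[X]) (hp : aeval x p ∈ D.O) :
    ∃ p₀ : D.A[X], p₀.map D.A.subtype = p ∧
      D.res ⟨aeval x p, hp⟩ = aeval (D.res ⟨x, hx⟩) (p₀.map D.resK) := by
  suffices h : ∃ p₀ : D.A[X], p₀.map D.A.subtype = p by
    obtain ⟨p₀, rfl⟩ := h
    exact ⟨p₀, rfl, D.gauss_res_aeval x hx p₀ hp⟩
  by_cases hp0 : p = 0
  · exact ⟨0, by rw [hp0, Polynomial.map_zero]⟩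
  obtain ⟨c, p₀, hc, hpc, hp₀⟩ := D.gauss_exists_scale p hp0
  have hu := D.gauss_aeval_mem x hx p₀
  have hures := D.gauss_res_aeval_ne_zero x hx hxb p₀ hp₀
  have huinv := D.gauss_inv_mem _ hu hures
  have hu0 : aeval x (p₀.map D.A.subtype) ≠ 0 := by
    intro h0
    apply hures
    have : (⟨aeval x (p₀.map D.A.subtype), hu⟩ : D.O) = 0 := Subtype.ext h0
    rw [this, map_zero]
  have hcO : algebraMap K F c ∈ D.O := by
    have h1 : algebraMap K F c = aeval x p * (aeval x (p₀.map D.A.subtype))⁻¹ := by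
      rw [hpc, map_mul, aeval_C, mul_assoc, mul_inv_cancel₀ hu0, mul_one]
    rw [h1]
    exact D.O.mul_mem _ _ hp huinv
  have hcA := D.gauss_mem_of_algebraMap_mem c hcO
  refine ⟨C ⟨c, hcA⟩ * p₀, ?_⟩
  rw [Polynomial.map_mul, Polynomial.map_C, hpc]
  rfl

/-- **Leaf B2b.** Every non-zero element of `K(x)` is `c * p(x) / q(x)` with `c ∈ Kˣ`, and
`p q ∈ A[X]` with non-zero reduction; in particular `res` maps `O ∩ K(x)` into `k(xb)`.
PROOF. `mem_adjoin_simple_iff`, scale numerator and denominator as in B2a. -/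
theorem res_mem_adjoin (x : F) (hx : x ∈ D.O)
    (hxb : Transcendental k (D.res ⟨x, hx⟩)) (y : D.O) (hy : (y : F) ∈ K⟮x⟯) :
    D.res y ∈ k⟮D.res ⟨x, hx⟩⟯ := by
  obtain ⟨r, s, hrs⟩ := (mem_adjoin_simple_iff K (y : F)).mp hy
  by_cases hs0 : s = 0
  · have : y = 0 := Subtype.ext (by rw [hrs, hs0, map_zero, div_zero]; rfl)
    rw [this, map_zero]
    exact zero_mem _
  obtain ⟨c, s₀, hc, hsc, hs₀⟩ := D.gauss_exists_scale s hs0
  have hu := D.gauss_aeval_mem x hx s₀
  have hures := D.gauss_res_aeval_ne_zero x hx hxb s₀ hs₀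
  have hu0 : aeval x (s₀.map D.A.subtype) ≠ 0 := by
    intro h0
    apply hures
    have : (⟨aeval x (s₀.map D.A.subtype), hu⟩ : D.O) = 0 := Subtype.ext h0
    rw [this, map_zero]
  have hcF : algebraMap K F c ≠ 0 := by
    rw [Ne, map_eq_zero]
    exact hc
  -- `y * s₀(x) = (c⁻¹ r)(x)`
  have h1 : aeval x (C c⁻¹ * r) = (y : F) * aeval x (s₀.map D.A.subtype) := by
    rw [hrs, hsc, map_mul, map_mul, aeval_C, aeval_C, map_inv₀]
    field_simp
  have h1mem : aeval x (C c⁻¹ * r) ∈ D.O := by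
    rw [h1]
    exact D.O.mul_mem _ _ y.2 hu
  obtain ⟨r₀, hr₀, hres⟩ := D.exists_polynomial_of_aeval_mem x hx hxb (C c⁻¹ * r) h1mem
  have h2 : (⟨aeval x (C c⁻¹ * r), h1mem⟩ : D.O) = y * ⟨aeval x (s₀.map D.A.subtype), hu⟩ :=
    Subtype.ext h1
  rw [h2, map_mul, D.gauss_res_aeval x hx s₀ hu] at hres
  rw [D.gauss_res_aeval x hx s₀ hu] at hures
  rw [mem_adjoin_simple_iff]
  exact ⟨r₀.map D.resK, s₀.map D.resK, by rw [← hres, mul_div_cancel_right₀ _ hures]⟩

/-- `x` is transcendental over `K` if its reduction is transcendental over `k`.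
PROOF. A non-zero `p ∈ K[X]` with `p(x) = 0`: scale `p` to have coefficients in `A`, one of them a unit;
reduce: `pbar(xb) = 0`, `pbar ≠ 0`. (Or use `exists_polynomial_of_aeval_mem` for all multiples `c • p`.) -/
theorem transcendental (x : F) (hx : x ∈ D.O)
    (hxb : Transcendental k (D.res ⟨x, hx⟩)) : Transcendental K x := by
  rw [transcendental_iff]
  intro p hp
  by_contra hp0
  obtain ⟨c, p₀, hc, hpc, hp₀⟩ := D.gauss_exists_scale p hp0
  apply D.gauss_res_aeval_ne_zero x hx hxb p₀ hp₀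
  have hcF : algebraMap K F c ≠ 0 := by
    rw [Ne, map_eq_zero]
    exact hc
  have h0 : aeval x (p₀.map D.A.subtype) = 0 := by
    rw [hpc, map_mul, aeval_C] at hp
    exact (mul_eq_zero.mp hp).resolve_left hcF
  have : (⟨aeval x (p₀.map D.A.subtype), D.gauss_aeval_mem x hx p₀⟩ : D.O) = 0 := Subtype.ext h0
  rw [this, map_zero]

end RedDatum

end Fermat.Agent.GAL.Igusa
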