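import Fermat.Agent.GAL.Igusa.OrthoBasis

/-!
# GAL-IGUSA leaves B3, B4: integrality

Setting: `D : RedDatum K F k Fb`, `x ∈ D.O` with `xb = D.res x` transcendental over `k` and
`[F : K(x)] = [Fb : k(xb)] = n`.
-/

set_option autoImplicit false

namespace Fermat.Agent.GAL.Igusa

open Module IntermediateField Polynomial

variable {K F k Fb : Type*} [Field K] [Field F] [Algebra K F] [Field k] [Field Fb] [Algebra k Fb]

/-- General fact: if `E ⊆ F` is a finite extension, `O` a valuation subring of `F` and `b` a basis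
such that the coordinates of the elements of `O` lie in `O`, `b i ∈ O`, then the coefficients of the minimal
polynomial over `E` of an element of `O` lie in `O`. -/
theorem integral_coeff_minpoly_mem {E : Type*} [Field E] [Algebra E F] (O : ValuationSubring F)
    {n : ℕ} (b : Basis (Fin n) E F) (hb : ∀ i, b i ∈ O)
    (hrepr : ∀ y : F, y ∈ O → ∀ i, algebraMap E F (b.repr y i) ∈ O) (y : F) (hy : y ∈ O) (i : ℕ) :
    algebraMap E F ((minpoly E y).coeff i) ∈ O := by
  let R : ValuationSubring E := O.comap (algebraMap E F)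
  let : Algebra R F := ((algebraMap E F).comp R.subtype).toAlgebra
  have : IsScalarTower R E F := IsScalarTower.of_algebraMap_eq' rfl
  let M₀ : Matrix (Fin n) (Fin n) R := fun i j =>
    ⟨b.repr (y * b j) i, hrepr _ (O.mul_mem _ _ hy (hb j)) i⟩
  have hM : M₀.map (algebraMap R E) = Algebra.leftMulMatrix b y := by
    ext i j
    rw [Matrix.map_apply, Algebra.leftMulMatrix_eq_repr_mul]
    rfl
  have hzero : aeval y (Algebra.leftMulMatrix b y).charpoly = 0 := by
    apply Algebra.leftMulMatrix_injective b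
    rw [map_zero, ← Polynomial.aeval_algHom_apply]
    exact Matrix.aeval_self_charpoly _
  have hint : IsIntegral R y := by
    refine ⟨M₀.charpoly, Matrix.charpoly_monic _, ?_⟩
    rw [← hM, Matrix.charpoly_map, aeval_def, eval₂_map] at hzero
    exact hzero
  rw [minpoly.isIntegrallyClosed_eq_field_fractions' E hint, coeff_map]
  exact ((minpoly R y).coeff i).2

namespace RedDatum

variable (D : RedDatum K F k Fb)

/-- **Leaf B3 (integrality).** Every element of `O` is integral over `O ∩ K(x)`: there is a monic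
polynomial over `K(x)` with coefficients in `O` killing it.
PROOF. Matrix `C` of multiplication by `y` in the orthonormal basis: `y * b i ∈ O`, so the entries
`C i j = b.repr (y * b i) j` lie in `O`. `charpoly C` is monic, its coefficients are polynomials in
the entries, and `aeval y (charpoly) = 0` (`Algebra.leftMulMatrix`, `Matrix.aeval_self_charpoly`,
or `LinearMap.aeval_self_charpoly` for `Algebra.lmul`). -/
theorem exists_monic_of_mem (x : F) (hx : x ∈ D.O)
    (hxb : Transcendental k (D.res ⟨x, hx⟩))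
    [FiniteDimensional K⟮x⟯ F] [FiniteDimensional k⟮D.res ⟨x, hx⟩⟯ Fb]
    (hdeg : finrank K⟮x⟯ F = finrank k⟮D.res ⟨x, hx⟩⟯ Fb) (y : F) (hy : y ∈ D.O) :
    ∀ i, (((minpoly K⟮x⟯ y).coeff i : K⟮x⟯) : F) ∈ D.O := by
  obtain ⟨b, hb, -, hrepr⟩ := D.exists_orthonormal_basis x hx hxb hdeg
  intro i
  exact integral_coeff_minpoly_mem D.O b hb hrepr y hy i

open scoped IntermediateField.algebraAdjoinAdjoin in
/-- **Leaf B4 (reduction of integral elements).** If `y ∈ O` is integral over `K[x]` then
`res y` is integral over `k[xb]`.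
PROOF. `K[x] = Algebra.adjoin K {x}` is integrally closed with fraction field `K(x)` (it is a
polynomial ring since `x` is transcendental), so the coefficients of `minpoly K(x) y` lie in `K[x]`
(`minpoly.isIntegrallyClosed_eq_field_fractions`); by B3 they lie in `O`; by B2a they are `p₀(x)` with
`p₀ ∈ A[X]` and reduce to elements of `k[xb]`. Apply `res` to the monic equation. -/
theorem isIntegral_res (x : F) (hx : x ∈ D.O)
    (hxb : Transcendental k (D.res ⟨x, hx⟩))
    [FiniteDimensional K⟮x⟯ F] [FiniteDimensional k⟮D.res ⟨x, hx⟩⟯ Fb]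
    (hdeg : finrank K⟮x⟯ F = finrank k⟮D.res ⟨x, hx⟩⟯ Fb) (y : D.O)
    (hy : IsIntegral (Algebra.adjoin K {x}) (y : F)) :
    IsIntegral (Algebra.adjoin k {D.res ⟨x, hx⟩}) (D.res y) := by
  have hxK : Transcendental K x := D.transcendental x hx hxb
  have hIC : IsIntegrallyClosed (Algebra.adjoin K {x}) :=
    IsIntegrallyClosed.of_equiv (Polynomial.algEquivOfTranscendental K x hxK).toRingEquiv
  have hmin := minpoly.isIntegrallyClosed_eq_field_fractions' K⟮x⟯ hy
  have hB3 := D.exists_monic_of_mem x hx hxb hdeg (y : F) y.2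
  -- the subring `K[x] ∩ O`
  let T : Subring F := (Algebra.adjoin K {x}).toSubring ⊓ D.O.toSubring
  let P₁ : F[X] := (minpoly K⟮x⟯ (y : F)).map (algebraMap K⟮x⟯ F)
  have hcoeff : (↑P₁.coeffs : Set F) ⊆ T := by
    intro c hc
    obtain ⟨i, -, rfl⟩ := Polynomial.mem_coeffs_iff.mp hc
    refine ⟨?_, ?_⟩
    · show P₁.coeff i ∈ Algebra.adjoin K {x}
      simp only [P₁, coeff_map, hmin]
      exact ((minpoly (Algebra.adjoin K {x}) (y : F)).coeff i).2
    · show P₁.coeff i ∈ D.O
      simp only [P₁, coeff_map]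
      exact hB3 i
  have hyint : IsIntegral K⟮x⟯ (y : F) := Algebra.IsIntegral.isIntegral _
  let p : T[X] := P₁.toSubring T hcoeff
  have hpmonic : p.Monic :=
    (Polynomial.monic_toSubring P₁ T hcoeff).mpr ((minpoly.monic hyint).map _)
  have hpeval : p.eval₂ T.subtype (y : F) = 0 := by
    rw [eval₂_eq_eval_map, Polynomial.map_toSubring]
    simp only [P₁]
    rw [eval_map_algebraMap, minpoly.aeval]
  let incl : T →+* D.O := Subring.inclusion (inf_le_right : T ≤ D.O.toSubring)
  have hpeval' : p.eval₂ incl y = 0 := by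
    apply Subtype.ext
    have := Polynomial.hom_eval₂ p incl D.O.subtype y
    rw [show (D.O.subtype (p.eval₂ incl y) : F) = ((p.eval₂ incl y : D.O) : F) from rfl] at this
    rw [this]
    exact hpeval
  have hmem : ∀ t : T, (D.res.comp incl) t ∈ Algebra.adjoin k {D.res ⟨x, hx⟩} := by
    rintro ⟨t, ht1, ht2⟩
    obtain ⟨r, rfl⟩ := Algebra.adjoin_mem_exists_aeval _ _ ht1
    obtain ⟨p₀, -, hp₀⟩ := D.exists_polynomial_of_aeval_mem x hx hxb r ht2
    show D.res ⟨aeval x r, ht2⟩ ∈ _
    rw [hp₀]
    exact Polynomial.aeval_mem_adjoin_singleton _ _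
  let ρ : T →+* Algebra.adjoin k {D.res ⟨x, hx⟩} := (D.res.comp incl).codRestrict _ hmem
  refine ⟨p.map ρ, hpmonic.map _, ?_⟩
  rw [eval₂_map]
  have h1 : (algebraMap (Algebra.adjoin k {D.res ⟨x, hx⟩}) Fb).comp ρ = D.res.comp incl := rfl
  rw [h1, ← Polynomial.hom_eval₂, hpeval', map_zero]

end RedDatum

end Fermat.Agent.GAL.Igusa
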