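import Fermat.Agent.GAL.Igusa.RedDatum
import Fermat.Agent.GAL.Gauss.Main
import Fermat.Agent.S28.CInt
import Fermat.Agent.GAL.Igusa.CuspBridge
import Fermat.Agent.S28.B
import Fermat.Agent.S28.A
import Fermat.Agent.S24.Degree
import Fermat.Agent.Lib.Count.Main

/-!
# GAL-IGUSA block L: the function fields `E k M = k(j(q^d) : d ∣ M) ⊆ k((q))`

`k : Type` a field with `(M : k) ≠ 0`. Everything here is a translation of landed results
(S28 block C: `finiteDimensional_FF`, `isSeparable_FF`, `statementC`; S24: degree in characteristic 0)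
to the shape `k⟮jb⟯ ⊆ E k M` used by `Lib/RR`, `GAL/FF`.
-/

set_option autoImplicit false

noncomputable section

namespace Fermat.Agent.GAL.Igusa

open Module IntermediateField AlgebraicCurve Lib.RR ModularCurve

/-- The function field of `X₀(M)` over `k`. -/
abbrev E (k : Type) [Field k] (M : ℕ) : Type := ↥(modularFunctionFieldFullC k M)

/-- `j` as an element of `E k M`. -/
def jb (k : Type) [Field k] (M : ℕ) : E k M := ⟨jqModC k, jqModC_mem_full k M⟩

variable (k : Type) [Field k] (M : ℕ) [NeZero M]

theorem jb_eq_jE : jb k M = jE k M := rfl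

/-- `j = q⁻¹ + …` is transcendental. -/
theorem transcendental_jb : Transcendental k (jb k M) := transcendental_jE k M

theorem finiteDimensional_jb (hM : ((M : ℕ) : k) ≠ 0) : FiniteDimensional k⟮jb k M⟯ (E k M) := by
  have h := finiteDimensional_jE (k := k) (N := M) (S28.statementB S28.statementA) hM
  rwa [S24.adjoin_inv_eq] at h

theorem isSeparable_jb (hM : ((M : ℕ) : k) ≠ 0) : Algebra.IsSeparable k⟮jb k M⟯ (E k M) := by
  have h := isSeparable_jE (k := k) (N := M) (S28.statementB S28.statementA) hM
  rwa [S24.adjoin_inv_eq] at h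

theorem finrank_jb_eq (hM : ((M : ℕ) : k) ≠ 0) :
    finrank k⟮jb k M⟯ (E k M) = finrank ↥(S28.EE k) ↥(S28.FF k M) := by
  have h := finrank_jE (k := k) (N := M) (S28.statementB S28.statementA) hM
  rwa [S24.adjoin_inv_eq] at h

/-- `E k M` is a function field in the sense of `Lib/RR`. -/
theorem isFF_E [IsAlgClosed k] (hM : ((M : ℕ) : k) ≠ 0) : IsFF k (E k M) := by
  haveI := finiteDimensional_jb k M hM
  haveI := isSeparable_jb k M hM
  exact FF.isFF_of_separable (jb k M) (transcendental_jb k M)

end Fermat.Agent.GAL.Igusa
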