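import Fermat.Agent.GAL.Igusa.LocalSep

/-!
# GAL-IGUSA leaf O1: port of `S24.card_zeros_eq_card_orbits` from `CharZero` to separable

Copy-adapt of `Fermat/Agent/S24/LocalCount.lean`, section `Count` (lines 380-535): `coeff_pow_smul`,
`ringOf_smul`, `ringOf_zpowers_smul`, `ord_dvd_of_period`, `card_zeros_eq_card_orbits`. `CharZero k` is used there
only through `exists_finset_zeros` (→ `GAL.FF.exists_finset_zeros_sep`) and `exists_embedding_of_place`
(→ `exists_embedding_of_place_sep` in `Igusa/LocalSep.lean`). Lemmas of S24 whose section has a `CharZero`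
variable but do not use it can often be used as they are (check with `#check`); otherwise copy them under a
fresh name with suffix `_sep`.
-/

set_option autoImplicit false
set_option linter.style.haveILetI false

namespace Fermat.Agent.GAL.Igusa

open Module IntermediateField AlgebraicCurve
open Fermat.Agent.S24

variable {k F : Type*} [Field k] [IsAlgClosed k] [Field F] [Algebra k F]
variable {L : Type*} [Field L]
variable {ι G : Type*} [Group G] [MulAction G ι]

theorem card_zeros_eq_card_orbits_sep (x : F) (hx : Transcendental k x) [FiniteDimensional k⟮x⟯ F]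
    [Algebra.IsSeparable k⟮x⟯ F]
    [Finite ι] (hcard : Nat.card ι = finrank k⟮x⟯ F)
    (σ : ι → F →+* LaurentSeries L) (hσinj : Function.Injective σ)
    (hσk : ∀ i j (a : k), σ i (algebraMap k F a) = σ j (algebraMap k F a))
    (hσx : ∀ i j, σ i x = σ j x)
    (e₀ : ℕ) (he₀ : 0 < e₀) (hord : ∀ i, (σ i x).order = e₀)
    (g : G) (ζ : L) (hζ : IsPrimitiveRoot ζ e₀)
    (hπ : ∀ i f (m : ℤ), (σ (g • i) f).coeff m = ζ ^ m * (σ i f).coeff m)
    (Z : Finset (Place k F)) (hZ : ∀ v, v ∈ Z ↔ 0 < v.ord x) :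
    Z.card = Nat.card (MulAction.orbitRel.Quotient (Subgroup.zpowers g) ι) := by
  classical
  cases nonempty_fintype ι
  have hx0 : x ≠ 0 := by
    rintro rfl
    exact hx isAlgebraic_zero
  have hζ0 : ζ ≠ 0 := hζ.ne_zero he₀.ne'
  obtain ⟨Z', hZ', hsum⟩ := Fermat.Agent.GAL.FF.exists_finset_zeros_sep x hx
  have hZZ : Z' = Z := Finset.ext fun v => by rw [hZ, hZ']
  subst hZZ
  have hcard' : Fintype.card ι = finrank k⟮x⟯ F := by rw [← hcard, Nat.card_eq_fintype_card]
  have hcardpos : 0 < Fintype.card ι := by rw [hcard']; exact Module.finrank_pos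
  have hne : Nonempty ι := Fintype.card_pos_iff.mp hcardpos
  have hex : ∀ v ∈ Z', ∃ i, v.toValuationSubring = ringOf (σ i) := fun v hv =>
    exists_embedding_of_place_sep x hx hcard' σ hσinj hσk hσx
      (fun i => by unfold ordOf; rw [hord i]; exact_mod_cast he₀) v ((hZ' v).mp hv)
  choose! iv hiv using hex
  let Ω := MulAction.orbitRel.Quotient (Subgroup.zpowers g) ι
  letI : Fintype Ω := Fintype.ofFinite Ω
  let φ : Place k F → Ω := fun v => Quotient.mk'' (iv v)
  let size : Ω → ℕ := fun ω => Nat.card ω.orbit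
  have hsize_sum : ∑ ω, size ω = Fintype.card ι := by
    rw [← Nat.card_eq_fintype_card,
      Nat.card_congr (MulAction.selfEquivSigmaOrbits' (Subgroup.zpowers g) ι), Nat.card_sigma]
  have hsize_pos : ∀ ω, 0 < size ω := by
    intro ω
    induction ω using Quotient.inductionOn' with
    | h i =>
      have : Nonempty (MulAction.orbitRel.Quotient.orbit
          (Quotient.mk'' i : MulAction.orbitRel.Quotient (Subgroup.zpowers g) ι)) :=
        ⟨⟨i, MulAction.mem_orbit_self i⟩⟩
      exact Nat.card_pos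
  have hle : ∀ v ∈ Z', v.ord x ≤ size (φ v) := by
    intro v hv
    have h1 : size (φ v) = Function.minimalPeriod (g • ·) (iv v) := by
      rw [MulAction.minimalPeriod_eq_card, ← Nat.card_eq_fintype_card]
      rfl
    have h2 : g ^ (size (φ v)) • iv v = iv v := by
      rw [h1, MulAction.pow_smul_eq_iff_minimalPeriod_dvd]
    have h3 := ord_dvd_of_period x hx0 σ g ζ e₀ hζ hπ (iv v) (hord _) v (hiv v hv) _ h2
    exact Int.le_of_dvd (by exact_mod_cast hsize_pos _) h3
  have hinj : Set.InjOn φ Z' := by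
    intro v hv v' hv' hvv'
    have h1 : iv v ∈ MulAction.orbit (Subgroup.zpowers g) (iv v') := Quotient.exact' hvv'
    obtain ⟨⟨h, hh⟩, hh2⟩ := h1
    obtain ⟨z, rfl⟩ := Subgroup.mem_zpowers_iff.mp hh
    have h3 : g ^ z • iv v' = iv v := hh2
    apply Place.ext
    rw [hiv v hv, hiv v' hv', ← h3, ringOf_zpowers_smul σ g ζ hζ0 hπ]
  have himage : Z'.image φ = Finset.univ := by
    by_contra hne
    have hss : Z'.image φ ⊂ Finset.univ := Finset.ssubset_univ_iff.mpr hne
    obtain ⟨ω, -, hω⟩ := Finset.exists_of_ssubset hss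
    have hlt : ∑ ω ∈ Z'.image φ, size ω < ∑ ω, size ω :=
      Finset.sum_lt_sum_of_subset hss.subset (Finset.mem_univ ω) hω (hsize_pos ω)
        (fun _ _ _ => Nat.zero_le _)
    rw [Finset.sum_image hinj, hsize_sum, hcard'] at hlt
    have h5 : ∑ v ∈ Z', v.ord x ≤ ∑ v ∈ Z', (size (φ v) : ℤ) := Finset.sum_le_sum hle
    rw [hsum] at h5
    have h6 : ((∑ v ∈ Z', size (φ v) : ℕ) : ℤ) < (finrank k⟮x⟯ F : ℤ) := by exact_mod_cast hlt
    push_cast at h6
    omega
  rw [← Finset.card_image_of_injOn hinj, himage, Finset.card_univ, Nat.card_eq_fintype_card]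

end Fermat.Agent.GAL.Igusa
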