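import Fermat.Agent.GAL.Igusa.Gauss

/-!
# GAL-IGUSA leaf B2c: orthonormal basis

Setting: `D : RedDatum K F k Fb`, `x ∈ D.O` with `xb = D.res x` transcendental over `k` and
`[F : K(x)] = [Fb : k(xb)] = n`.
-/

set_option autoImplicit false

namespace Fermat.Agent.GAL.Igusa

open Module IntermediateField Polynomial

variable {K F k Fb : Type*} [Field K] [Field F] [Algebra K F] [Field k] [Field Fb] [Algebra k Fb]

namespace RedDatum

variable (D : RedDatum K F k Fb)

/-- A non-trivial `K(x)`-combination of lifts of `k(xb)`-independent elements is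
`(coefficient of maximal absolute value) * unit`. -/
theorem OrthoBasis_key (x : F) (hx : x ∈ D.O) (hxb : Transcendental k (D.res ⟨x, hx⟩)) {n : ℕ}
    (z : Fin n → D.O) (hz : LinearIndependent k⟮D.res ⟨x, hx⟩⟯ (fun i => D.res (z i)))
    (c : Fin n → K⟮x⟯) (hc : c ≠ 0) :
    ∃ (i₀ : Fin n) (u : D.O), (c i₀ : F) ≠ 0 ∧ (∀ i, ((c i : F) / (c i₀ : F)) ∈ D.O) ∧
      D.res u ≠ 0 ∧ ∑ i, c i • (z i : F) = (c i₀ : F) * (u : F) := by
  obtain ⟨j, hj⟩ : ∃ j, c j ≠ 0 := by
    by_contra hcon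
    push Not at hcon
    exact hc (funext hcon)
  have : Nonempty (Fin n) := ⟨j⟩
  obtain ⟨i₀, hi₀⟩ := Finite.exists_max (fun i => D.O.valuation (c i : F))
  have h0 : (c i₀ : F) ≠ 0 := by
    intro h
    have h1 := hi₀ j
    simp only [h, map_zero, le_zero_iff, map_eq_zero] at h1
    exact hj (Subtype.ext h1)
  have hv0 : 0 < D.O.valuation (c i₀ : F) := zero_lt_iff.mpr (by simpa using h0)
  have hmem : ∀ i, (c i : F) / (c i₀ : F) ∈ D.O := by
    intro i
    rw [← D.O.valuation_le_one_iff, map_div₀, div_le_one₀ hv0]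
    exact hi₀ i
  let d : Fin n → D.O := fun i => ⟨_, hmem i⟩
  have hdE : ∀ i, ((d i : D.O) : F) ∈ K⟮x⟯ := fun i => div_mem (c i).2 (c i₀).2
  have hres : ∀ i, D.res (d i) ∈ k⟮D.res ⟨x, hx⟩⟯ := fun i => D.res_mem_adjoin x hx hxb (d i) (hdE i)
  refine ⟨i₀, ∑ i, d i * z i, h0, hmem, ?_, ?_⟩
  · intro hu
    rw [map_sum] at hu
    have h1 : ∑ i, (⟨D.res (d i), hres i⟩ : k⟮D.res ⟨x, hx⟩⟯) • D.res (z i) = 0 := by
      rw [← hu]
      refine Finset.sum_congr rfl fun i _ => ?_
      rw [map_mul]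
      rfl
    have h2 := Fintype.linearIndependent_iff.mp hz _ h1 i₀
    have h3 : D.res (d i₀) = 0 := congrArg Subtype.val h2
    have h4 : d i₀ = 1 := Subtype.ext (div_self h0)
    rw [h4, map_one] at h3
    exact one_ne_zero h3
  · have h1 : ((∑ i, d i * z i : D.O) : F) = ∑ i, ((c i : F) / (c i₀ : F)) * (z i : F) := by
      rw [← D.O.subtype_apply, map_sum]
      rfl
    rw [h1, Finset.mul_sum]
    refine Finset.sum_congr rfl fun i _ => ?_
    rw [IntermediateField.smul_def, smul_eq_mul]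
    field_simp

/-- **Leaf B2c (orthonormal basis).** Lifts `z i ∈ O` of a `k(xb)`-basis of `Fb` form a
`K(x)`-basis of `F`, and it is orthonormal: if `∑ c i * z i ∈ O` with `c i ∈ K(x)` then all
`c i ∈ O`.
PROOF. Let `c i ∈ K(x)` not all zero. By B2b/`scale` the value group of `K(x)` is that of `K`: choose
`i₀` with `c i / c i₀ ∈ O` for all `i` (valuation ring `O`, finite family). Then
`res (∑ (c i / c i₀) z i) = ∑ res (c i / c i₀) zb i ≠ 0` because the coefficients are in `k(xb)`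
(B2b), the one at `i₀` is `1`, and the `zb i` are independent. Hence `∑ c i z i = c i₀ * unit`:
non-zero (independence; `n` independent vectors form a basis by `hdeg`), and it lies in `O` iff
`c i₀ ∈ O` iff all `c i ∈ O`. -/
theorem exists_orthonormal_basis (x : F) (hx : x ∈ D.O)
    (hxb : Transcendental k (D.res ⟨x, hx⟩))
    [FiniteDimensional K⟮x⟯ F] [FiniteDimensional k⟮D.res ⟨x, hx⟩⟯ Fb]
    (hdeg : finrank K⟮x⟯ F = finrank k⟮D.res ⟨x, hx⟩⟯ Fb) :
    ∃ (b : Basis (Fin (finrank K⟮x⟯ F)) K⟮x⟯ F),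
      (∀ i, b i ∈ D.O) ∧
      (∀ hb : ∀ i, b i ∈ D.O,
        LinearIndependent k⟮D.res ⟨x, hx⟩⟯ (fun i => D.res ⟨b i, hb i⟩)) ∧
      (∀ y : F, y ∈ D.O → ∀ i, ((b.repr y i : K⟮x⟯) : F) ∈ D.O) := by
  let bb : Basis (Fin (finrank K⟮x⟯ F)) k⟮D.res ⟨x, hx⟩⟯ Fb :=
    Module.finBasisOfFinrankEq _ _ hdeg.symm
  choose z hz using fun i => D.res_surj (bb i)
  have hzli : LinearIndependent k⟮D.res ⟨x, hx⟩⟯ (fun i => D.res (z i)) := by
    simp only [hz]
    exact bb.linearIndependent
  have hli : LinearIndependent K⟮x⟯ (fun i => (z i : F)) := by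
    rw [Fintype.linearIndependent_iff]
    intro c hc
    by_contra hcon
    have hc0 : c ≠ 0 := by
      intro h
      apply hcon
      intro i
      rw [h]
      rfl
    obtain ⟨i₀, u, h0, -, hu, hsum⟩ := D.OrthoBasis_key x hx hxb z hzli c hc0
    rw [hc] at hsum
    rcases mul_eq_zero.mp hsum.symm with h | h
    · exact h0 h
    · apply hu
      have : u = 0 := Subtype.ext h
      rw [this, map_zero]
  have hne : Nonempty (Fin (finrank K⟮x⟯ F)) := Fin.pos_iff_nonempty.mp Module.finrank_pos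
  let b : Basis (Fin (finrank K⟮x⟯ F)) K⟮x⟯ F :=
    basisOfLinearIndependentOfCardEqFinrank hli (Fintype.card_fin _)
  have hb : ∀ i, b i = (z i : F) := fun i => by
    simp only [b, coe_basisOfLinearIndependentOfCardEqFinrank]
  refine ⟨b, fun i => ?_, fun hbO => ?_, fun y hy i => ?_⟩
  · rw [hb i]
    exact (z i).2
  · have : (fun i => D.res ⟨b i, hbO i⟩) = fun i => D.res (z i) := by
      funext i
      congr 1
      exact Subtype.ext (hb i)
    rw [this]
    exact hzli
  · by_cases hc0 : (fun i => b.repr y i) = 0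
    · have : b.repr y i = 0 := congrFun hc0 i
      rw [this]
      exact D.O.zero_mem
    · obtain ⟨i₀, u, h0, hmem, hu, hsum⟩ :=
        D.OrthoBasis_key x hx hxb z hzli (fun i => b.repr y i) hc0
      have hy' : y = ((b.repr y i₀ : K⟮x⟯) : F) * (u : F) := by
        rw [← hsum]
        conv_lhs => rw [← b.sum_repr y]
        exact Finset.sum_congr rfl fun i _ => by rw [hb i]
      have huu : IsUnit u := by
        by_contra h
        exact hu ((D.res_eq_zero_iff u).mpr h)
      obtain ⟨w, hw⟩ := huu.exists_right_inv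
      have hw' : (u : F) * (w : F) = 1 := congrArg Subtype.val hw
      have h1 : ((b.repr y i₀ : K⟮x⟯) : F) = y * (w : F) := by
        calc ((b.repr y i₀ : K⟮x⟯) : F)
            = ((b.repr y i₀ : K⟮x⟯) : F) * ((u : F) * (w : F)) := by rw [hw', mul_one]
          _ = (((b.repr y i₀ : K⟮x⟯) : F) * (u : F)) * (w : F) := by ring
          _ = y * (w : F) := by rw [← hy']
      have h2 : ((b.repr y i₀ : K⟮x⟯) : F) ∈ D.O := by
        rw [h1]
        exact D.O.mul_mem _ _ hy w.2
      have h3 : ((b.repr y i : K⟮x⟯) : F)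
          = ((b.repr y i : K⟮x⟯) : F) / ((b.repr y i₀ : K⟮x⟯) : F) * ((b.repr y i₀ : K⟮x⟯) : F) := by
        field_simp
      rw [h3]
      exact D.O.mul_mem _ _ (hmem i) h2

end RedDatum

end Fermat.Agent.GAL.Igusa
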