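import Mathlib
import Fermat.Agent.Lib.RR.Main
import Fermat.Agent.GAL.FF.IsFF

/-!
# GAL-IGUSA: reduction data (interface between the Gauss valuation block and the Deuring block)

`RedDatum K F k Fb`: a valuation subring `A` of the constant field `K` with residue field `k`, a
valuation subring `O` of the function field `F` (the Gauss valuation) with residue field `Fb`,
compatible, and with the same value group (`scale`).
-/

set_option autoImplicit false

namespace Fermat.Agent.GAL.Igusa

/-- A reduction datum: `(F, O) / (K, A)` with residue fields `Fb / k` and equal value groups. -/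
structure RedDatum (K F k Fb : Type*) [Field K] [Field F] [Algebra K F] [Field k] [Field Fb]
    [Algebra k Fb] where
  A : ValuationSubring K
  O : ValuationSubring F
  resK : A →+* k
  resK_surj : Function.Surjective resK
  res : O →+* Fb
  res_surj : Function.Surjective res
  map_mem : ∀ a : A, algebraMap K F (a : K) ∈ O
  res_algebraMap : ∀ a : A, res ⟨algebraMap K F (a : K), map_mem a⟩ = algebraMap k Fb (resK a)
  scale : ∀ f : F, f ≠ 0 → ∃ c : K, c ≠ 0 ∧ ∃ h : algebraMap K F c * f ∈ O, res ⟨_, h⟩ ≠ 0

open AlgebraicCurve Lib.RR

variable {K F : Type*} [Field K] [Field F] [Algebra K F]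

/-- The pole divisor `(x)_∞`. -/
noncomputable def poleDiv [HasPrincipalDivisors K F] (x : F) : Divisor K F :=
  (divOf (K := K) x).mapRange (fun n : ℤ => max 0 (-n)) (by simp)

@[simp] theorem poleDiv_apply [HasPrincipalDivisors K F] (x : F) (v : Place K F) :
    poleDiv (K := K) x v = max 0 (-v.ord x) := by
  simp [poleDiv]

end Fermat.Agent.GAL.Igusa
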